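import Mathlib

/-!
# Explicit norm certificates in `ℤ[ζ₁₁]` and `ℤ[ζ₁₃]`

For `p ∈ {11, 13}` and `K` a `p`-th cyclotomic field over `ℚ`, we exhibit elements of `𝓞 K` of norm
`23` (for `p = 11`) and `27, 53, 79, 131, 157` (for `p = 13`).

The norm of `f(ζ)` (`f ∈ ℤ[X]`) is the product of the conjugates `f(ζ ^ j)`, `1 ≤ j ≤ p - 1`
(`algebraMap_norm_aeval_eq_prod`); this product is then evaluated by a staged certificate using only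
`ζ ^ p = 1` and `1 + ζ + ⋯ + ζ ^ (p - 1) = 0` (`cert_23`, …).
-/

open NumberField

namespace Fermat.Agent.Lib.CyclotomicNormCert

/-- Reindexing a product over the units of `ZMod p` (`p` prime) as a product over `1, …, p - 1`. -/
theorem prod_units_zmod_eq_prod_range {M : Type*} [CommMonoid M] {p : ℕ} [hp : Fact p.Prime]
    (g : ℕ → M) :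
    ∏ u : (ZMod p)ˣ, g u.val.val = ∏ j ∈ Finset.range (p - 1), g (j + 1) := by
  have hp1 : 1 < p := hp.out.one_lt
  have hpos : ∀ u : (ZMod p)ˣ, 1 ≤ u.val.val := by
    intro u
    have h0 : u.val.val ≠ 0 := by
      intro h
      exact u.ne_zero ((ZMod.val_eq_zero _).mp h)
    omega
  have hlt : ∀ u : (ZMod p)ˣ, u.val.val < p := fun u => ZMod.val_lt _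
  refine Finset.prod_bij (fun u _ => u.val.val - 1) ?_ ?_ ?_ ?_
  · intro u _
    have h1 := hpos u
    have h2 := hlt u
    simp only [Finset.mem_range]
    omega
  · intro u _ v _ h
    have h1 := hpos u
    have h2 := hpos v
    apply Units.ext
    apply ZMod.val_injective
    omega
  · intro j hj
    have hj' : j + 1 < p := by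
      have := Finset.mem_range.mp hj
      omega
    have hcop : Nat.Coprime (j + 1) p :=
      (Nat.coprime_of_lt_prime (Nat.succ_ne_zero j) hj' hp.out).symm
    refine ⟨ZMod.unitOfCoprime (j + 1) hcop, Finset.mem_univ _, ?_⟩
    rw [ZMod.coe_unitOfCoprime, ZMod.val_cast_of_lt hj']
    rfl
  · intro u _
    have h1 := hpos u
    rw [Nat.sub_add_cancel h1]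

/-- The norm of `f(ζ)`, for `ζ` a primitive `p`-th root of unity in the `p`-th cyclotomic field
(`p` prime) and `f ∈ ℤ[X]`, is the product of the `f(ζ ^ j)` for `1 ≤ j ≤ p - 1`. -/
theorem algebraMap_norm_aeval_eq_prod {p : ℕ} [hp : Fact p.Prime] {K : Type*} [Field K]
    [NumberField K] [IsCyclotomicExtension {p} ℚ K] {ζ : K} (hζ : IsPrimitiveRoot ζ p)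
    (f : Polynomial ℤ) :
    algebraMap ℚ K (Algebra.norm ℚ (Polynomial.aeval ζ f)) =
      ∏ j ∈ Finset.range (p - 1), Polynomial.aeval (ζ ^ (j + 1)) f := by
  have : NeZero p := ⟨hp.out.ne_zero⟩
  have : IsGalois ℚ K := IsCyclotomicExtension.isGalois {p} ℚ K
  rw [Algebra.norm_eq_prod_automorphisms]
  have key : ∀ σ : Gal(K/ℚ), σ (Polynomial.aeval ζ f) =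
      Polynomial.aeval (ζ ^ (IsCyclotomicExtension.Rat.galEquivZMod p K σ).val.val) f := by
    intro σ
    rw [← IsCyclotomicExtension.Rat.galEquivZMod_apply_of_pow_eq p K σ hζ.pow_eq_one]
    exact (Polynomial.aeval_algHom_apply (σ.toAlgHom.restrictScalars ℤ) ζ f).symm
  rw [Finset.prod_congr rfl (fun σ _ => key σ)]
  rw [← prod_units_zmod_eq_prod_range (fun j => Polynomial.aeval (ζ ^ j) f)]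
  exact Equiv.prod_comp (IsCyclotomicExtension.Rat.galEquivZMod p K).toEquiv
    (fun u : (ZMod p)ˣ => Polynomial.aeval (ζ ^ u.val.val) f)

/-- Glue lemma: if the product of the conjugates `f(ζ ^ j)` is the natural number `N`, then
`f(ζ) ∈ 𝓞 K` has norm `N`. -/
theorem exists_norm_of_prod_eq {p : ℕ} [hp : Fact p.Prime] {K : Type*} [Field K]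
    [NumberField K] [IsCyclotomicExtension {p} ℚ K] (f : Polynomial ℤ) (N : ℕ)
    (h : ∀ ζ : K, IsPrimitiveRoot ζ p →
      ∏ j ∈ Finset.range (p - 1), Polynomial.aeval (ζ ^ (j + 1)) f = (N : K)) :
    ∃ α : 𝓞 K, (Algebra.norm ℤ α).natAbs = N := by
  have : NeZero p := ⟨hp.out.ne_zero⟩
  have hζ := IsCyclotomicExtension.zeta_spec p ℚ K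
  refine ⟨Polynomial.aeval hζ.toInteger f, ?_⟩
  have h1 : ((Polynomial.aeval hζ.toInteger f : 𝓞 K) : K) =
      Polynomial.aeval (IsCyclotomicExtension.zeta p ℚ K) f :=
    (Polynomial.aeval_algebraMap_apply K hζ.toInteger f).symm
  have h2 := algebraMap_norm_aeval_eq_prod hζ f
  rw [h _ hζ] at h2
  have h3 : Algebra.norm ℚ (Polynomial.aeval (IsCyclotomicExtension.zeta p ℚ K) f) = (N : ℚ) := by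
    apply (algebraMap ℚ K).injective
    rw [h2, map_natCast]
  have h4 := Algebra.coe_norm_int (Polynomial.aeval hζ.toInteger f : 𝓞 K)
  rw [h1, h3] at h4
  have h5 : Algebra.norm ℤ (Polynomial.aeval hζ.toInteger f : 𝓞 K) = (N : ℤ) := by
    exact_mod_cast h4
  rw [h5, Int.natAbs_natCast]

/-- Certificate: the product of the conjugates of `1 + ζ + ζ ^ 3` is `23`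
(using only `ζ ^ 11 = 1` and `1 + ζ + ⋯ + ζ ^ 10 = 0`). -/
theorem cert_23 {R : Type*} [CommRing R] (ζ : R) (h1 : ζ ^ 11 = 1)
    (h2 : ∑ i ∈ Finset.range 11, ζ ^ i = 0) :
    (1 + ζ + ζ ^ 3) * (1 + ζ ^ 2 + (ζ ^ 2) ^ 3) * (1 + ζ ^ 3 + (ζ ^ 3) ^ 3) * (1 + ζ ^ 4
      + (ζ ^ 4) ^ 3) * (1 + ζ ^ 5 + (ζ ^ 5) ^ 3) * (1 + ζ ^ 6 + (ζ ^ 6) ^ 3) * (1 + ζ ^ 7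
      + (ζ ^ 7) ^ 3) * (1 + ζ ^ 8 + (ζ ^ 8) ^ 3) * (1 + ζ ^ 9 + (ζ ^ 9) ^ 3) * (1 + ζ ^ 10
      + (ζ ^ 10) ^ 3) = 23 := by
  simp only [Finset.sum_range_succ, Finset.sum_range_zero] at h2
  have s2 : (1 + ζ + ζ ^ 3) * (1 + ζ ^ 2 + (ζ ^ 2) ^ 3) = 1 + ζ + ζ ^ 2 + 2 * ζ ^ 3 + ζ ^ 5
    + ζ ^ 6 + ζ ^ 7 + ζ ^ 9 := by
    ring
  have s3 : (1 + ζ + ζ ^ 2 + 2 * ζ ^ 3 + ζ ^ 5 + ζ ^ 6 + ζ ^ 7 + ζ ^ 9) * (1 + ζ ^ 3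
    + (ζ ^ 3) ^ 3) = 2 + 4 * ζ + ζ ^ 2 + 4 * ζ ^ 3 + 2 * ζ ^ 4 + 3 * ζ ^ 5 + 3 * ζ ^ 6 + 2 * ζ ^ 7
    + ζ ^ 8 + 3 * ζ ^ 9 + 2 * ζ ^ 10 := by
    linear_combination (1 + 3 * ζ + ζ ^ 3 + ζ ^ 4 + ζ ^ 5 + ζ ^ 7) * h1
  have s4 : (2 + 4 * ζ + ζ ^ 2 + 4 * ζ ^ 3 + 2 * ζ ^ 4 + 3 * ζ ^ 5 + 3 * ζ ^ 6 + 2 * ζ ^ 7 + ζ ^ 8
    + 3 * ζ ^ 9 + 2 * ζ ^ 10) * (1 + ζ ^ 4 + (ζ ^ 4) ^ 3) = 6 + 7 * ζ + 8 * ζ ^ 2 + 7 * ζ ^ 3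
    + 8 * ζ ^ 4 + 9 * ζ ^ 5 + 7 * ζ ^ 6 + 9 * ζ ^ 7 + 5 * ζ ^ 8 + 7 * ζ ^ 9 + 8 * ζ ^ 10 := by
    linear_combination (4 + 3 * ζ + 7 * ζ ^ 2 + 3 * ζ ^ 3 + 4 * ζ ^ 4 + 2 * ζ ^ 5 + 3 * ζ ^ 6
      + 3 * ζ ^ 7 + 2 * ζ ^ 8 + ζ ^ 9 + 3 * ζ ^ 10 + 2 * ζ ^ 11) * h1
  have s5 : (6 + 7 * ζ + 8 * ζ ^ 2 + 7 * ζ ^ 3 + 8 * ζ ^ 4 + 9 * ζ ^ 5 + 7 * ζ ^ 6 + 9 * ζ ^ 7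
    + 5 * ζ ^ 8 + 7 * ζ ^ 9 + 8 * ζ ^ 10) * (1 + ζ ^ 5 + (ζ ^ 5) ^ 3) = 22 + 21 * ζ + 20 * ζ ^ 2
    + 22 * ζ ^ 3 + 22 * ζ ^ 4 + 22 * ζ ^ 5 + 22 * ζ ^ 6 + 24 * ζ ^ 7 + 20 * ζ ^ 8 + 24 * ζ ^ 9
    + 24 * ζ ^ 10 := by
    linear_combination (16 + 14 * ζ + 12 * ζ ^ 2 + 15 * ζ ^ 3 + 14 * ζ ^ 4 + 7 * ζ ^ 5 + 8 * ζ ^ 6
      + 7 * ζ ^ 7 + 8 * ζ ^ 8 + 9 * ζ ^ 9 + 7 * ζ ^ 10 + 9 * ζ ^ 11 + 5 * ζ ^ 12 + 7 * ζ ^ 13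
      + 8 * ζ ^ 14) * h1
  have s6 : (22 + 21 * ζ + 20 * ζ ^ 2 + 22 * ζ ^ 3 + 22 * ζ ^ 4 + 22 * ζ ^ 5 + 22 * ζ ^ 6
    + 24 * ζ ^ 7 + 20 * ζ ^ 8 + 24 * ζ ^ 9 + 24 * ζ ^ 10) * (1 + ζ ^ 6 + (ζ ^ 6) ^ 3) = 66
    + 65 * ζ + 66 * ζ ^ 2 + 66 * ζ ^ 3 + 66 * ζ ^ 4 + 70 * ζ ^ 5 + 68 * ζ ^ 6 + 67 * ζ ^ 7
    + 61 * ζ ^ 8 + 66 * ζ ^ 9 + 68 * ζ ^ 10 := by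
    linear_combination (44 + 44 * ζ + 46 * ζ ^ 2 + 44 * ζ ^ 3 + 44 * ζ ^ 4 + 48 * ζ ^ 5
      + 24 * ζ ^ 6 + 22 * ζ ^ 7 + 21 * ζ ^ 8 + 20 * ζ ^ 9 + 22 * ζ ^ 10 + 22 * ζ ^ 11
      + 22 * ζ ^ 12 + 22 * ζ ^ 13 + 24 * ζ ^ 14 + 20 * ζ ^ 15 + 24 * ζ ^ 16 + 24 * ζ ^ 17) * h1
  have s7 : (66 + 65 * ζ + 66 * ζ ^ 2 + 66 * ζ ^ 3 + 66 * ζ ^ 4 + 70 * ζ ^ 5 + 68 * ζ ^ 6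
    + 67 * ζ ^ 7 + 61 * ζ ^ 8 + 66 * ζ ^ 9 + 68 * ζ ^ 10) * (1 + ζ ^ 7 + (ζ ^ 7) ^ 3) = 197
    + 201 * ζ + 200 * ζ ^ 2 + 199 * ζ ^ 3 + 197 * ζ ^ 4 + 204 * ζ ^ 5 + 203 * ζ ^ 6 + 194 * ζ ^ 7
    + 192 * ζ ^ 8 + 200 * ζ ^ 9 + 200 * ζ ^ 10 := by
    linear_combination (131 + 136 * ζ + 134 * ζ ^ 2 + 133 * ζ ^ 3 + 131 * ζ ^ 4 + 134 * ζ ^ 5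
      + 135 * ζ ^ 6 + 61 * ζ ^ 7 + 66 * ζ ^ 8 + 68 * ζ ^ 9 + 66 * ζ ^ 10 + 65 * ζ ^ 11
      + 66 * ζ ^ 12 + 66 * ζ ^ 13 + 66 * ζ ^ 14 + 70 * ζ ^ 15 + 68 * ζ ^ 16 + 67 * ζ ^ 17
      + 61 * ζ ^ 18 + 66 * ζ ^ 19 + 68 * ζ ^ 20) * h1
  have s8 : (197 + 201 * ζ + 200 * ζ ^ 2 + 199 * ζ ^ 3 + 197 * ζ ^ 4 + 204 * ζ ^ 5 + 203 * ζ ^ 6
    + 194 * ζ ^ 7 + 192 * ζ ^ 8 + 200 * ζ ^ 9 + 200 * ζ ^ 10) * (1 + ζ ^ 8 + (ζ ^ 8) ^ 3) = 596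
    + 598 * ζ + 601 * ζ ^ 2 + 603 * ζ ^ 3 + 591 * ζ ^ 4 + 595 * ζ ^ 5 + 600 * ζ ^ 6 + 598 * ζ ^ 7
    + 592 * ζ ^ 8 + 595 * ζ ^ 9 + 592 * ζ ^ 10 := by
    linear_combination (399 + 397 * ζ + 401 * ζ ^ 2 + 404 * ζ ^ 3 + 394 * ζ ^ 4 + 391 * ζ ^ 5
      + 397 * ζ ^ 6 + 404 * ζ ^ 7 + 203 * ζ ^ 8 + 194 * ζ ^ 9 + 192 * ζ ^ 10 + 200 * ζ ^ 11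
      + 200 * ζ ^ 12 + 197 * ζ ^ 13 + 201 * ζ ^ 14 + 200 * ζ ^ 15 + 199 * ζ ^ 16 + 197 * ζ ^ 17
      + 204 * ζ ^ 18 + 203 * ζ ^ 19 + 194 * ζ ^ 20 + 192 * ζ ^ 21 + 200 * ζ ^ 22
      + 200 * ζ ^ 23) * h1
  have s9 : (596 + 598 * ζ + 601 * ζ ^ 2 + 603 * ζ ^ 3 + 591 * ζ ^ 4 + 595 * ζ ^ 5 + 600 * ζ ^ 6
    + 598 * ζ ^ 7 + 592 * ζ ^ 8 + 595 * ζ ^ 9 + 592 * ζ ^ 10) * (1 + ζ ^ 9 + (ζ ^ 9) ^ 3) = 1797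
    + 1799 * ζ + 1784 * ζ ^ 2 + 1793 * ζ ^ 3 + 1783 * ζ ^ 4 + 1789 * ζ ^ 5 + 1790 * ζ ^ 6
    + 1794 * ζ ^ 7 + 1787 * ζ ^ 8 + 1782 * ζ ^ 9 + 1785 * ζ ^ 10 := by
    linear_combination (1201 + 1201 * ζ + 1183 * ζ ^ 2 + 1190 * ζ ^ 3 + 1192 * ζ ^ 4
      + 1194 * ζ ^ 5 + 1190 * ζ ^ 6 + 1196 * ζ ^ 7 + 1195 * ζ ^ 8 + 591 * ζ ^ 9 + 595 * ζ ^ 10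
      + 600 * ζ ^ 11 + 598 * ζ ^ 12 + 592 * ζ ^ 13 + 595 * ζ ^ 14 + 592 * ζ ^ 15 + 596 * ζ ^ 16
      + 598 * ζ ^ 17 + 601 * ζ ^ 18 + 603 * ζ ^ 19 + 591 * ζ ^ 20 + 595 * ζ ^ 21 + 600 * ζ ^ 22
      + 598 * ζ ^ 23 + 592 * ζ ^ 24 + 595 * ζ ^ 25 + 592 * ζ ^ 26) * h1
  have s10 : (1797 + 1799 * ζ + 1784 * ζ ^ 2 + 1793 * ζ ^ 3 + 1783 * ζ ^ 4 + 1789 * ζ ^ 5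
    + 1790 * ζ ^ 6 + 1794 * ζ ^ 7 + 1787 * ζ ^ 8 + 1782 * ζ ^ 9 + 1785 * ζ ^ 10) * (1 + ζ ^ 10
    + (ζ ^ 10) ^ 3) = 5389 + 5366 * ζ + 5366 * ζ ^ 2 + 5366 * ζ ^ 3 + 5366 * ζ ^ 4 + 5366 * ζ ^ 5
    + 5366 * ζ ^ 6 + 5366 * ζ ^ 7 + 5366 * ζ ^ 8 + 5366 * ζ ^ 9 + 5366 * ζ ^ 10 := by
    linear_combination (3592 + 3567 * ζ + 3582 * ζ ^ 2 + 3573 * ζ ^ 3 + 3583 * ζ ^ 4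
      + 3577 * ζ ^ 5 + 3576 * ζ ^ 6 + 3572 * ζ ^ 7 + 3579 * ζ ^ 8 + 3584 * ζ ^ 9 + 1784 * ζ ^ 10
      + 1793 * ζ ^ 11 + 1783 * ζ ^ 12 + 1789 * ζ ^ 13 + 1790 * ζ ^ 14 + 1794 * ζ ^ 15
      + 1787 * ζ ^ 16 + 1782 * ζ ^ 17 + 1785 * ζ ^ 18 + 1797 * ζ ^ 19 + 1799 * ζ ^ 20
      + 1784 * ζ ^ 21 + 1793 * ζ ^ 22 + 1783 * ζ ^ 23 + 1789 * ζ ^ 24 + 1790 * ζ ^ 25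
      + 1794 * ζ ^ 26 + 1787 * ζ ^ 27 + 1782 * ζ ^ 28 + 1785 * ζ ^ 29) * h1
  rw [s2, s3, s4, s5, s6, s7, s8, s9, s10]
  linear_combination (5366 : R) * h2

/-- There is an element of norm `23` in `ℤ[ζ_11]`, namely `1 + ζ + ζ ^ 3`. -/
theorem exists_norm_23 {K : Type*} [Field K] [NumberField K]
    [IsCyclotomicExtension {11} ℚ K] :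
    ∃ α : 𝓞 K, (Algebra.norm ℤ α).natAbs = 23 := by
  have : Fact (Nat.Prime 11) := ⟨by norm_num⟩
  refine exists_norm_of_prod_eq (p := 11)
    (1 + Polynomial.X + Polynomial.X ^ 3 : Polynomial ℤ) 23 ?_
  intro ζ hζ
  have h := cert_23 ζ hζ.pow_eq_one (hζ.geom_sum_eq_zero (by norm_num))
  simp only [Finset.prod_range_succ, Finset.prod_range_zero, one_mul, zero_add, Nat.reduceAdd,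
    Nat.reduceSub, pow_one, map_add, map_one, map_pow, Polynomial.aeval_X, Nat.cast_ofNat]
  exact h

/-- Certificate: the product of the conjugates of `1 + ζ - ζ ^ 3` is `27`
(using only `ζ ^ 13 = 1` and `1 + ζ + ⋯ + ζ ^ 12 = 0`). -/
theorem cert_27 {R : Type*} [CommRing R] (ζ : R) (h1 : ζ ^ 13 = 1)
    (h2 : ∑ i ∈ Finset.range 13, ζ ^ i = 0) :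
    (1 + ζ - ζ ^ 3) * (1 + ζ ^ 2 - (ζ ^ 2) ^ 3) * (1 + ζ ^ 3 - (ζ ^ 3) ^ 3) * (1 + ζ ^ 4
      - (ζ ^ 4) ^ 3) * (1 + ζ ^ 5 - (ζ ^ 5) ^ 3) * (1 + ζ ^ 6 - (ζ ^ 6) ^ 3) * (1 + ζ ^ 7
      - (ζ ^ 7) ^ 3) * (1 + ζ ^ 8 - (ζ ^ 8) ^ 3) * (1 + ζ ^ 9 - (ζ ^ 9) ^ 3) * (1 + ζ ^ 10
      - (ζ ^ 10) ^ 3) * (1 + ζ ^ 11 - (ζ ^ 11) ^ 3) * (1 + ζ ^ 12 - (ζ ^ 12) ^ 3) = 27 := by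
  simp only [Finset.sum_range_succ, Finset.sum_range_zero] at h2
  have s2 : (1 + ζ - ζ ^ 3) * (1 + ζ ^ 2 - (ζ ^ 2) ^ 3) = 1 + ζ + ζ ^ 2 - ζ ^ 5 - ζ ^ 6 - ζ ^ 7
    + ζ ^ 9 := by
    ring
  have s3 : (1 + ζ + ζ ^ 2 - ζ ^ 5 - ζ ^ 6 - ζ ^ 7 + ζ ^ 9) * (1 + ζ ^ 3 - (ζ ^ 3) ^ 3) = 1
    + 2 * ζ + 2 * ζ ^ 2 + 2 * ζ ^ 3 + ζ ^ 4 - ζ ^ 5 - ζ ^ 6 - ζ ^ 7 - ζ ^ 8 - ζ ^ 9 - 2 * ζ ^ 10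
    - ζ ^ 11 + ζ ^ 12 := by
    linear_combination (ζ + ζ ^ 2 + ζ ^ 3 - ζ ^ 5) * h1
  have s4 : (1 + 2 * ζ + 2 * ζ ^ 2 + 2 * ζ ^ 3 + ζ ^ 4 - ζ ^ 5 - ζ ^ 6 - ζ ^ 7 - ζ ^ 8 - ζ ^ 9
    - 2 * ζ ^ 10 - ζ ^ 11 + ζ ^ 12) * (1 + ζ ^ 4 - (ζ ^ 4) ^ 3) = -2 - 2 * ζ - ζ ^ 2 + 2 * ζ ^ 3
    + 3 * ζ ^ 4 + 2 * ζ ^ 5 + 2 * ζ ^ 6 + 2 * ζ ^ 7 + ζ ^ 8 - 2 * ζ ^ 10 - 3 * ζ ^ 11 - ζ ^ 12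
    := by
    linear_combination (-3 - 4 * ζ - 3 * ζ ^ 2 + ζ ^ 4 + ζ ^ 5 + ζ ^ 6 + ζ ^ 7 + ζ ^ 8 + 2 * ζ ^ 9
      + ζ ^ 10 - ζ ^ 11) * h1
  have s5 : (-2 - 2 * ζ - ζ ^ 2 + 2 * ζ ^ 3 + 3 * ζ ^ 4 + 2 * ζ ^ 5 + 2 * ζ ^ 6 + 2 * ζ ^ 7
    + ζ ^ 8 - 2 * ζ ^ 10 - 3 * ζ ^ 11 - ζ ^ 12) * (1 + ζ ^ 5 - (ζ ^ 5) ^ 3) = 2 - ζ - ζ ^ 2
    + ζ ^ 3 + 3 * ζ ^ 4 - 2 * ζ ^ 5 - 3 * ζ ^ 6 - ζ ^ 7 + ζ ^ 8 + ζ ^ 9 - ζ ^ 10 - ζ ^ 11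
    + 3 * ζ ^ 12 := by
    linear_combination (4 + ζ - ζ ^ 3 - 2 * ζ ^ 5 - 3 * ζ ^ 6 - 2 * ζ ^ 7 - 2 * ζ ^ 8 - 2 * ζ ^ 9
      - ζ ^ 10 + 2 * ζ ^ 12 + 3 * ζ ^ 13 + ζ ^ 14) * h1
  have s6 : (2 - ζ - ζ ^ 2 + ζ ^ 3 + 3 * ζ ^ 4 - 2 * ζ ^ 5 - 3 * ζ ^ 6 - ζ ^ 7 + ζ ^ 8 + ζ ^ 9
    - ζ ^ 10 - ζ ^ 11 + 3 * ζ ^ 12) * (1 + ζ ^ 6 - (ζ ^ 6) ^ 3) = -ζ + ζ ^ 2 + ζ ^ 3 - ζ ^ 4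
    - ζ ^ 5 - ζ ^ 7 - ζ ^ 8 - ζ ^ 9 + 4 * ζ ^ 10 + ζ ^ 12 := by
    linear_combination (-2 + 2 * ζ ^ 2 - 4 * ζ ^ 4 + ζ ^ 5 + ζ ^ 6 + ζ ^ 7 - ζ ^ 8 - 3 * ζ ^ 9
      + 2 * ζ ^ 10 + 3 * ζ ^ 11 + ζ ^ 12 - ζ ^ 13 - ζ ^ 14 + ζ ^ 15 + ζ ^ 16 - 3 * ζ ^ 17) * h1
  have s7 : (-ζ + ζ ^ 2 + ζ ^ 3 - ζ ^ 4 - ζ ^ 5 - ζ ^ 7 - ζ ^ 8 - ζ ^ 9 + 4 * ζ ^ 10 + ζ ^ 12)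
    * (1 + ζ ^ 7 - (ζ ^ 7) ^ 3) = 1 - 2 * ζ + ζ ^ 2 + ζ ^ 3 + 4 * ζ ^ 4 - 5 * ζ ^ 5 + ζ ^ 6
    - 2 * ζ ^ 7 - 2 * ζ ^ 8 + ζ ^ 9 + 4 * ζ ^ 10 - 2 * ζ ^ 11 + ζ ^ 12 := by
    linear_combination (1 - ζ + 5 * ζ ^ 4 - 4 * ζ ^ 5 + ζ ^ 6 - ζ ^ 7 + ζ ^ 9 - ζ ^ 10 - ζ ^ 11
      + ζ ^ 12 + ζ ^ 13 + ζ ^ 15 + ζ ^ 16 + ζ ^ 17 - 4 * ζ ^ 18 - ζ ^ 20) * h1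
  have s8 : (1 - 2 * ζ + ζ ^ 2 + ζ ^ 3 + 4 * ζ ^ 4 - 5 * ζ ^ 5 + ζ ^ 6 - 2 * ζ ^ 7 - 2 * ζ ^ 8
    + ζ ^ 9 + 4 * ζ ^ 10 - 2 * ζ ^ 11 + ζ ^ 12) * (1 + ζ ^ 8 - (ζ ^ 8) ^ 3) = -5 - 2 * ζ
    - 5 * ζ ^ 2 + 4 * ζ ^ 3 + 4 * ζ ^ 4 + ζ ^ 5 + ζ ^ 6 - 2 * ζ ^ 7 - 5 * ζ ^ 8 + ζ ^ 9
    + 4 * ζ ^ 10 - 2 * ζ ^ 11 + 7 * ζ ^ 12 := by
    linear_combination (-6 - 6 * ζ ^ 2 + 3 * ζ ^ 3 + 6 * ζ ^ 5 - 4 * ζ ^ 8 + 2 * ζ ^ 9 - ζ ^ 10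
      - ζ ^ 11 + 2 * ζ ^ 12 - ζ ^ 13 - ζ ^ 14 - 4 * ζ ^ 15 + 5 * ζ ^ 16 - ζ ^ 17 + 2 * ζ ^ 18
      + 2 * ζ ^ 19 - ζ ^ 20 - 4 * ζ ^ 21 + 2 * ζ ^ 22 - ζ ^ 23) * h1
  have s9 : (-5 - 2 * ζ - 5 * ζ ^ 2 + 4 * ζ ^ 3 + 4 * ζ ^ 4 + ζ ^ 5 + ζ ^ 6 - 2 * ζ ^ 7
    - 5 * ζ ^ 8 + ζ ^ 9 + 4 * ζ ^ 10 - 2 * ζ ^ 11 + 7 * ζ ^ 12) * (1 + ζ ^ 9 - (ζ ^ 9) ^ 3) = -8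
    + 4 * ζ - 2 * ζ ^ 2 + 7 * ζ ^ 3 - 5 * ζ ^ 4 - 2 * ζ ^ 5 + 4 * ζ ^ 6 - 5 * ζ ^ 7 + 4 * ζ ^ 8
    + ζ ^ 9 + ζ ^ 10 - 11 * ζ ^ 11 + 13 * ζ ^ 12 := by
    linear_combination (-3 + 6 * ζ + 3 * ζ ^ 2 + 3 * ζ ^ 3 - 9 * ζ ^ 4 - 3 * ζ ^ 5 + 3 * ζ ^ 6
      - 3 * ζ ^ 7 + 9 * ζ ^ 8 + 5 * ζ ^ 9 - ζ ^ 10 - 4 * ζ ^ 11 + 2 * ζ ^ 12 - 7 * ζ ^ 13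
      + 5 * ζ ^ 14 + 2 * ζ ^ 15 + 5 * ζ ^ 16 - 4 * ζ ^ 17 - 4 * ζ ^ 18 - ζ ^ 19 - ζ ^ 20
      + 2 * ζ ^ 21 + 5 * ζ ^ 22 - ζ ^ 23 - 4 * ζ ^ 24 + 2 * ζ ^ 25 - 7 * ζ ^ 26) * h1
  have s10 : (-8 + 4 * ζ - 2 * ζ ^ 2 + 7 * ζ ^ 3 - 5 * ζ ^ 4 - 2 * ζ ^ 5 + 4 * ζ ^ 6 - 5 * ζ ^ 7
    + 4 * ζ ^ 8 + ζ ^ 9 + ζ ^ 10 - 11 * ζ ^ 11 + 13 * ζ ^ 12) * (1 + ζ ^ 10 - (ζ ^ 10) ^ 3) = -2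
    - 2 * ζ + 7 * ζ ^ 2 - 2 * ζ ^ 3 - 2 * ζ ^ 4 - 2 * ζ ^ 5 + 7 * ζ ^ 6 - 11 * ζ ^ 7 - 2 * ζ ^ 8
    + 16 * ζ ^ 9 - 11 * ζ ^ 10 - 2 * ζ ^ 11 + 7 * ζ ^ 12 := by
    linear_combination (6 - 6 * ζ + 9 * ζ ^ 2 - 9 * ζ ^ 3 + 3 * ζ ^ 4 + 3 * ζ ^ 6 - 6 * ζ ^ 7
      - 6 * ζ ^ 8 + 15 * ζ ^ 9 - 4 * ζ ^ 10 + 5 * ζ ^ 11 - 4 * ζ ^ 12 - ζ ^ 13 - ζ ^ 14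
      + 11 * ζ ^ 15 - 13 * ζ ^ 16 + 8 * ζ ^ 17 - 4 * ζ ^ 18 + 2 * ζ ^ 19 - 7 * ζ ^ 20 + 5 * ζ ^ 21
      + 2 * ζ ^ 22 - 4 * ζ ^ 23 + 5 * ζ ^ 24 - 4 * ζ ^ 25 - ζ ^ 26 - ζ ^ 27 + 11 * ζ ^ 28
      - 13 * ζ ^ 29) * h1
  have s11 : (-2 - 2 * ζ + 7 * ζ ^ 2 - 2 * ζ ^ 3 - 2 * ζ ^ 4 - 2 * ζ ^ 5 + 7 * ζ ^ 6 - 11 * ζ ^ 7
    - 2 * ζ ^ 8 + 16 * ζ ^ 9 - 11 * ζ ^ 10 - 2 * ζ ^ 11 + 7 * ζ ^ 12) * (1 + ζ ^ 11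
    - (ζ ^ 11) ^ 3) = -2 + 7 * ζ + 7 * ζ ^ 2 - 20 * ζ ^ 3 + 16 * ζ ^ 4 - 11 * ζ ^ 5 - 2 * ζ ^ 6
    + 7 * ζ ^ 7 - 11 * ζ ^ 8 + 7 * ζ ^ 9 - 2 * ζ ^ 10 - 2 * ζ ^ 11 + 7 * ζ ^ 12 := by
    linear_combination (9 * ζ - 18 * ζ ^ 3 + 18 * ζ ^ 4 - 9 * ζ ^ 5 - 9 * ζ ^ 6 + 18 * ζ ^ 7
      - 9 * ζ ^ 8 - 9 * ζ ^ 9 + 9 * ζ ^ 10 + 2 * ζ ^ 11 + 2 * ζ ^ 12 - 7 * ζ ^ 13 + 11 * ζ ^ 14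
      + 2 * ζ ^ 15 - 16 * ζ ^ 16 + 11 * ζ ^ 17 + 2 * ζ ^ 18 - 7 * ζ ^ 19 + 2 * ζ ^ 20 + 2 * ζ ^ 21
      - 7 * ζ ^ 22 + 2 * ζ ^ 23 + 2 * ζ ^ 24 + 2 * ζ ^ 25 - 7 * ζ ^ 26 + 11 * ζ ^ 27 + 2 * ζ ^ 28
      - 16 * ζ ^ 29 + 11 * ζ ^ 30 + 2 * ζ ^ 31 - 7 * ζ ^ 32) * h1
  have s12 : (-2 + 7 * ζ + 7 * ζ ^ 2 - 20 * ζ ^ 3 + 16 * ζ ^ 4 - 11 * ζ ^ 5 - 2 * ζ ^ 6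
    + 7 * ζ ^ 7 - 11 * ζ ^ 8 + 7 * ζ ^ 9 - 2 * ζ ^ 10 - 2 * ζ ^ 11 + 7 * ζ ^ 12) * (1 + ζ ^ 12
    - (ζ ^ 12) ^ 3) = 25 - 2 * ζ - 2 * ζ ^ 2 - 2 * ζ ^ 3 - 2 * ζ ^ 4 - 2 * ζ ^ 5 - 2 * ζ ^ 6
    - 2 * ζ ^ 7 - 2 * ζ ^ 8 - 2 * ζ ^ 9 - 2 * ζ ^ 10 - 2 * ζ ^ 11 - 2 * ζ ^ 12 := by
    linear_combination (27 - 9 * ζ - 9 * ζ ^ 2 + 18 * ζ ^ 3 - 18 * ζ ^ 4 + 9 * ζ ^ 5 - 9 * ζ ^ 7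
      + 9 * ζ ^ 8 - 9 * ζ ^ 9 - 7 * ζ ^ 12 + 20 * ζ ^ 13 - 16 * ζ ^ 14 + 11 * ζ ^ 15 + 2 * ζ ^ 16
      - 7 * ζ ^ 17 + 11 * ζ ^ 18 - 7 * ζ ^ 19 + 2 * ζ ^ 20 + 2 * ζ ^ 21 - 7 * ζ ^ 22 + 2 * ζ ^ 23
      - 7 * ζ ^ 24 - 7 * ζ ^ 25 + 20 * ζ ^ 26 - 16 * ζ ^ 27 + 11 * ζ ^ 28 + 2 * ζ ^ 29
      - 7 * ζ ^ 30 + 11 * ζ ^ 31 - 7 * ζ ^ 32 + 2 * ζ ^ 33 + 2 * ζ ^ 34 - 7 * ζ ^ 35) * h1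
  rw [s2, s3, s4, s5, s6, s7, s8, s9, s10, s11, s12]
  linear_combination (-2 : R) * h2

/-- There is an element of norm `27` in `ℤ[ζ_13]`, namely `1 + ζ - ζ ^ 3`. -/
theorem exists_norm_27 {K : Type*} [Field K] [NumberField K]
    [IsCyclotomicExtension {13} ℚ K] :
    ∃ α : 𝓞 K, (Algebra.norm ℤ α).natAbs = 27 := by
  have : Fact (Nat.Prime 13) := ⟨by norm_num⟩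
  refine exists_norm_of_prod_eq (p := 13)
    (1 + Polynomial.X - Polynomial.X ^ 3 : Polynomial ℤ) 27 ?_
  intro ζ hζ
  have h := cert_27 ζ hζ.pow_eq_one (hζ.geom_sum_eq_zero (by norm_num))
  simp only [Finset.prod_range_succ, Finset.prod_range_zero, one_mul, zero_add, Nat.reduceAdd,
    Nat.reduceSub, pow_one, map_add, map_sub, map_one, map_pow, Polynomial.aeval_X, Nat.cast_ofNat]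
  exact h

/-- Certificate: the product of the conjugates of `1 + ζ + ζ ^ 3` is `53`
(using only `ζ ^ 13 = 1` and `1 + ζ + ⋯ + ζ ^ 12 = 0`). -/
theorem cert_53 {R : Type*} [CommRing R] (ζ : R) (h1 : ζ ^ 13 = 1)
    (h2 : ∑ i ∈ Finset.range 13, ζ ^ i = 0) :
    (1 + ζ + ζ ^ 3) * (1 + ζ ^ 2 + (ζ ^ 2) ^ 3) * (1 + ζ ^ 3 + (ζ ^ 3) ^ 3) * (1 + ζ ^ 4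
      + (ζ ^ 4) ^ 3) * (1 + ζ ^ 5 + (ζ ^ 5) ^ 3) * (1 + ζ ^ 6 + (ζ ^ 6) ^ 3) * (1 + ζ ^ 7
      + (ζ ^ 7) ^ 3) * (1 + ζ ^ 8 + (ζ ^ 8) ^ 3) * (1 + ζ ^ 9 + (ζ ^ 9) ^ 3) * (1 + ζ ^ 10
      + (ζ ^ 10) ^ 3) * (1 + ζ ^ 11 + (ζ ^ 11) ^ 3) * (1 + ζ ^ 12 + (ζ ^ 12) ^ 3) = 53 := by
  simp only [Finset.sum_range_succ, Finset.sum_range_zero] at h2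
  have s2 : (1 + ζ + ζ ^ 3) * (1 + ζ ^ 2 + (ζ ^ 2) ^ 3) = 1 + ζ + ζ ^ 2 + 2 * ζ ^ 3 + ζ ^ 5
    + ζ ^ 6 + ζ ^ 7 + ζ ^ 9 := by
    ring
  have s3 : (1 + ζ + ζ ^ 2 + 2 * ζ ^ 3 + ζ ^ 5 + ζ ^ 6 + ζ ^ 7 + ζ ^ 9) * (1 + ζ ^ 3
    + (ζ ^ 3) ^ 3) = 1 + 2 * ζ + 2 * ζ ^ 2 + 4 * ζ ^ 3 + ζ ^ 4 + 3 * ζ ^ 5 + 3 * ζ ^ 6 + ζ ^ 7
    + ζ ^ 8 + 3 * ζ ^ 9 + 2 * ζ ^ 10 + ζ ^ 11 + 3 * ζ ^ 12 := by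
    linear_combination (ζ + ζ ^ 2 + ζ ^ 3 + ζ ^ 5) * h1
  have s4 : (1 + 2 * ζ + 2 * ζ ^ 2 + 4 * ζ ^ 3 + ζ ^ 4 + 3 * ζ ^ 5 + 3 * ζ ^ 6 + ζ ^ 7 + ζ ^ 8
    + 3 * ζ ^ 9 + 2 * ζ ^ 10 + ζ ^ 11 + 3 * ζ ^ 12) * (1 + ζ ^ 4 + (ζ ^ 4) ^ 3) = 6 + 6 * ζ
    + 7 * ζ ^ 2 + 8 * ζ ^ 3 + 5 * ζ ^ 4 + 8 * ζ ^ 5 + 6 * ζ ^ 6 + 6 * ζ ^ 7 + 5 * ζ ^ 8
    + 8 * ζ ^ 9 + 6 * ζ ^ 10 + 5 * ζ ^ 11 + 5 * ζ ^ 12 := by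
    linear_combination (5 + 4 * ζ + 5 * ζ ^ 2 + 4 * ζ ^ 3 + 3 * ζ ^ 4 + 3 * ζ ^ 5 + ζ ^ 6 + ζ ^ 7
      + 3 * ζ ^ 8 + 2 * ζ ^ 9 + ζ ^ 10 + 3 * ζ ^ 11) * h1
  have s5 : (6 + 6 * ζ + 7 * ζ ^ 2 + 8 * ζ ^ 3 + 5 * ζ ^ 4 + 8 * ζ ^ 5 + 6 * ζ ^ 6 + 6 * ζ ^ 7
    + 5 * ζ ^ 8 + 8 * ζ ^ 9 + 6 * ζ ^ 10 + 5 * ζ ^ 11 + 5 * ζ ^ 12) * (1 + ζ ^ 5 + (ζ ^ 5) ^ 3)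
    = 16 + 19 * ζ + 19 * ζ ^ 2 + 19 * ζ ^ 3 + 17 * ζ ^ 4 + 22 * ζ ^ 5 + 17 * ζ ^ 6 + 21 * ζ ^ 7
    + 19 * ζ ^ 8 + 19 * ζ ^ 9 + 19 * ζ ^ 10 + 19 * ζ ^ 11 + 17 * ζ ^ 12 := by
    linear_combination (10 + 13 * ζ + 12 * ζ ^ 2 + 11 * ζ ^ 3 + 12 * ζ ^ 4 + 8 * ζ ^ 5 + 5 * ζ ^ 6
      + 8 * ζ ^ 7 + 6 * ζ ^ 8 + 6 * ζ ^ 9 + 5 * ζ ^ 10 + 8 * ζ ^ 11 + 6 * ζ ^ 12 + 5 * ζ ^ 13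
      + 5 * ζ ^ 14) * h1
  have s6 : (16 + 19 * ζ + 19 * ζ ^ 2 + 19 * ζ ^ 3 + 17 * ζ ^ 4 + 22 * ζ ^ 5 + 17 * ζ ^ 6
    + 21 * ζ ^ 7 + 19 * ζ ^ 8 + 19 * ζ ^ 9 + 19 * ζ ^ 10 + 19 * ζ ^ 11 + 17 * ζ ^ 12) * (1 + ζ ^ 6
    + (ζ ^ 6) ^ 3) = 56 + 57 * ζ + 57 * ζ ^ 2 + 57 * ζ ^ 3 + 53 * ζ ^ 4 + 55 * ζ ^ 5 + 52 * ζ ^ 6
    + 59 * ζ ^ 7 + 57 * ζ ^ 8 + 55 * ζ ^ 9 + 58 * ζ ^ 10 + 58 * ζ ^ 11 + 55 * ζ ^ 12 := by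
    linear_combination (40 + 38 * ζ + 38 * ζ ^ 2 + 38 * ζ ^ 3 + 36 * ζ ^ 4 + 33 * ζ ^ 5
      + 19 * ζ ^ 6 + 19 * ζ ^ 7 + 19 * ζ ^ 8 + 17 * ζ ^ 9 + 22 * ζ ^ 10 + 17 * ζ ^ 11
      + 21 * ζ ^ 12 + 19 * ζ ^ 13 + 19 * ζ ^ 14 + 19 * ζ ^ 15 + 19 * ζ ^ 16 + 17 * ζ ^ 17) * h1
  have s7 : (56 + 57 * ζ + 57 * ζ ^ 2 + 57 * ζ ^ 3 + 53 * ζ ^ 4 + 55 * ζ ^ 5 + 52 * ζ ^ 6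
    + 59 * ζ ^ 7 + 57 * ζ ^ 8 + 55 * ζ ^ 9 + 58 * ζ ^ 10 + 58 * ζ ^ 11 + 55 * ζ ^ 12) * (1 + ζ ^ 7
    + (ζ ^ 7) ^ 3) = 163 + 168 * ζ + 173 * ζ ^ 2 + 169 * ζ ^ 3 + 166 * ζ ^ 4 + 171 * ζ ^ 5
    + 165 * ζ ^ 6 + 170 * ζ ^ 7 + 170 * ζ ^ 8 + 169 * ζ ^ 9 + 172 * ζ ^ 10 + 168 * ζ ^ 11
    + 163 * ζ ^ 12 := by
    linear_combination (107 + 111 * ζ + 116 * ζ ^ 2 + 112 * ζ ^ 3 + 113 * ζ ^ 4 + 116 * ζ ^ 5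
      + 113 * ζ ^ 6 + 55 * ζ ^ 7 + 56 * ζ ^ 8 + 57 * ζ ^ 9 + 57 * ζ ^ 10 + 57 * ζ ^ 11
      + 53 * ζ ^ 12 + 55 * ζ ^ 13 + 52 * ζ ^ 14 + 59 * ζ ^ 15 + 57 * ζ ^ 16 + 55 * ζ ^ 17
      + 58 * ζ ^ 18 + 58 * ζ ^ 19 + 55 * ζ ^ 20) * h1
  have s8 : (163 + 168 * ζ + 173 * ζ ^ 2 + 169 * ζ ^ 3 + 166 * ζ ^ 4 + 171 * ζ ^ 5 + 165 * ζ ^ 6
    + 170 * ζ ^ 7 + 170 * ζ ^ 8 + 169 * ζ ^ 9 + 172 * ζ ^ 10 + 168 * ζ ^ 11 + 163 * ζ ^ 12) * (1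
    + ζ ^ 8 + (ζ ^ 8) ^ 3) = 507 + 502 * ζ + 509 * ζ ^ 2 + 510 * ζ ^ 3 + 500 * ζ ^ 4 + 513 * ζ ^ 5
    + 503 * ζ ^ 6 + 502 * ζ ^ 7 + 505 * ζ ^ 8 + 505 * ζ ^ 9 + 508 * ζ ^ 10 + 500 * ζ ^ 11
    + 497 * ζ ^ 12 := by
    linear_combination (344 + 334 * ζ + 336 * ζ ^ 2 + 341 * ζ ^ 3 + 334 * ζ ^ 4 + 342 * ζ ^ 5
      + 338 * ζ ^ 6 + 332 * ζ ^ 7 + 172 * ζ ^ 8 + 168 * ζ ^ 9 + 163 * ζ ^ 10 + 163 * ζ ^ 11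
      + 168 * ζ ^ 12 + 173 * ζ ^ 13 + 169 * ζ ^ 14 + 166 * ζ ^ 15 + 171 * ζ ^ 16 + 165 * ζ ^ 17
      + 170 * ζ ^ 18 + 170 * ζ ^ 19 + 169 * ζ ^ 20 + 172 * ζ ^ 21 + 168 * ζ ^ 22
      + 163 * ζ ^ 23) * h1
  have s9 : (507 + 502 * ζ + 509 * ζ ^ 2 + 510 * ζ ^ 3 + 500 * ζ ^ 4 + 513 * ζ ^ 5 + 503 * ζ ^ 6
    + 502 * ζ ^ 7 + 505 * ζ ^ 8 + 505 * ζ ^ 9 + 508 * ζ ^ 10 + 500 * ζ ^ 11 + 497 * ζ ^ 12) * (1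
    + ζ ^ 9 + (ζ ^ 9) ^ 3) = 1504 + 1522 * ζ + 1514 * ζ ^ 2 + 1521 * ζ ^ 3 + 1515 * ζ ^ 4
    + 1518 * ζ ^ 5 + 1524 * ζ ^ 6 + 1505 * ζ ^ 7 + 1504 * ζ ^ 8 + 1517 * ζ ^ 9 + 1515 * ζ ^ 10
    + 1517 * ζ ^ 11 + 1507 * ζ ^ 12 := by
    linear_combination (997 + 1020 * ζ + 1005 * ζ ^ 2 + 1011 * ζ ^ 3 + 1015 * ζ ^ 4 + 1005 * ζ ^ 5
      + 1021 * ζ ^ 6 + 1003 * ζ ^ 7 + 999 * ζ ^ 8 + 505 * ζ ^ 9 + 505 * ζ ^ 10 + 508 * ζ ^ 11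
      + 500 * ζ ^ 12 + 497 * ζ ^ 13 + 507 * ζ ^ 14 + 502 * ζ ^ 15 + 509 * ζ ^ 16 + 510 * ζ ^ 17
      + 500 * ζ ^ 18 + 513 * ζ ^ 19 + 503 * ζ ^ 20 + 502 * ζ ^ 21 + 505 * ζ ^ 22 + 505 * ζ ^ 23
      + 508 * ζ ^ 24 + 500 * ζ ^ 25 + 497 * ζ ^ 26) * h1
  have s10 : (1504 + 1522 * ζ + 1514 * ζ ^ 2 + 1521 * ζ ^ 3 + 1515 * ζ ^ 4 + 1518 * ζ ^ 5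
    + 1524 * ζ ^ 6 + 1505 * ζ ^ 7 + 1504 * ζ ^ 8 + 1517 * ζ ^ 9 + 1515 * ζ ^ 10 + 1517 * ζ ^ 11
    + 1507 * ζ ^ 12) * (1 + ζ ^ 10 + (ζ ^ 10) ^ 3) = 4542 + 4552 * ζ + 4549 * ζ ^ 2 + 4552 * ζ ^ 3
    + 4524 * ζ ^ 4 + 4544 * ζ ^ 5 + 4555 * ζ ^ 6 + 4541 * ζ ^ 7 + 4536 * ζ ^ 8 + 4542 * ζ ^ 9
    + 4543 * ζ ^ 10 + 4544 * ζ ^ 11 + 4525 * ζ ^ 12 := by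
    linear_combination (3038 + 3030 * ζ + 3035 * ζ ^ 2 + 3031 * ζ ^ 3 + 3009 * ζ ^ 4
      + 3026 * ζ ^ 5 + 3031 * ζ ^ 6 + 3036 * ζ ^ 7 + 3032 * ζ ^ 8 + 3025 * ζ ^ 9 + 1524 * ζ ^ 10
      + 1505 * ζ ^ 11 + 1504 * ζ ^ 12 + 1517 * ζ ^ 13 + 1515 * ζ ^ 14 + 1517 * ζ ^ 15
      + 1507 * ζ ^ 16 + 1504 * ζ ^ 17 + 1522 * ζ ^ 18 + 1514 * ζ ^ 19 + 1521 * ζ ^ 20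
      + 1515 * ζ ^ 21 + 1518 * ζ ^ 22 + 1524 * ζ ^ 23 + 1505 * ζ ^ 24 + 1504 * ζ ^ 25
      + 1517 * ζ ^ 26 + 1515 * ζ ^ 27 + 1517 * ζ ^ 28 + 1507 * ζ ^ 29) * h1
  have s11 : (4542 + 4552 * ζ + 4549 * ζ ^ 2 + 4552 * ζ ^ 3 + 4524 * ζ ^ 4 + 4544 * ζ ^ 5
    + 4555 * ζ ^ 6 + 4541 * ζ ^ 7 + 4536 * ζ ^ 8 + 4542 * ζ ^ 9 + 4543 * ζ ^ 10 + 4544 * ζ ^ 11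
    + 4525 * ζ ^ 12) * (1 + ζ ^ 11 + (ζ ^ 11) ^ 3) = 13646 + 13645 * ζ + 13609 * ζ ^ 2
    + 13638 * ζ ^ 3 + 13622 * ζ ^ 4 + 13629 * ζ ^ 5 + 13616 * ζ ^ 6 + 13625 * ζ ^ 7
    + 13631 * ζ ^ 8 + 13635 * ζ ^ 9 + 13620 * ζ ^ 10 + 13610 * ζ ^ 11 + 13621 * ζ ^ 12 := by
    linear_combination (9104 + 9093 * ζ + 9060 * ζ ^ 2 + 9086 * ζ ^ 3 + 9098 * ζ ^ 4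
      + 9085 * ζ ^ 5 + 9061 * ζ ^ 6 + 9084 * ζ ^ 7 + 9095 * ζ ^ 8 + 9093 * ζ ^ 9 + 9077 * ζ ^ 10
      + 4524 * ζ ^ 11 + 4544 * ζ ^ 12 + 4555 * ζ ^ 13 + 4541 * ζ ^ 14 + 4536 * ζ ^ 15
      + 4542 * ζ ^ 16 + 4543 * ζ ^ 17 + 4544 * ζ ^ 18 + 4525 * ζ ^ 19 + 4542 * ζ ^ 20
      + 4552 * ζ ^ 21 + 4549 * ζ ^ 22 + 4552 * ζ ^ 23 + 4524 * ζ ^ 24 + 4544 * ζ ^ 25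
      + 4555 * ζ ^ 26 + 4541 * ζ ^ 27 + 4536 * ζ ^ 28 + 4542 * ζ ^ 29 + 4543 * ζ ^ 30
      + 4544 * ζ ^ 31 + 4525 * ζ ^ 32) * h1
  have s12 : (13646 + 13645 * ζ + 13609 * ζ ^ 2 + 13638 * ζ ^ 3 + 13622 * ζ ^ 4 + 13629 * ζ ^ 5
    + 13616 * ζ ^ 6 + 13625 * ζ ^ 7 + 13631 * ζ ^ 8 + 13635 * ζ ^ 9 + 13620 * ζ ^ 10
    + 13610 * ζ ^ 11 + 13621 * ζ ^ 12) * (1 + ζ ^ 12 + (ζ ^ 12) ^ 3) = 40929 + 40876 * ζ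
    + 40876 * ζ ^ 2 + 40876 * ζ ^ 3 + 40876 * ζ ^ 4 + 40876 * ζ ^ 5 + 40876 * ζ ^ 6
    + 40876 * ζ ^ 7 + 40876 * ζ ^ 8 + 40876 * ζ ^ 9 + 40876 * ζ ^ 10 + 40876 * ζ ^ 11
    + 40876 * ζ ^ 12 := by
    linear_combination (27283 + 27231 * ζ + 27267 * ζ ^ 2 + 27238 * ζ ^ 3 + 27254 * ζ ^ 4
      + 27247 * ζ ^ 5 + 27260 * ζ ^ 6 + 27251 * ζ ^ 7 + 27245 * ζ ^ 8 + 27241 * ζ ^ 9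
      + 27256 * ζ ^ 10 + 27266 * ζ ^ 11 + 13609 * ζ ^ 12 + 13638 * ζ ^ 13 + 13622 * ζ ^ 14
      + 13629 * ζ ^ 15 + 13616 * ζ ^ 16 + 13625 * ζ ^ 17 + 13631 * ζ ^ 18 + 13635 * ζ ^ 19
      + 13620 * ζ ^ 20 + 13610 * ζ ^ 21 + 13621 * ζ ^ 22 + 13646 * ζ ^ 23 + 13645 * ζ ^ 24
      + 13609 * ζ ^ 25 + 13638 * ζ ^ 26 + 13622 * ζ ^ 27 + 13629 * ζ ^ 28 + 13616 * ζ ^ 29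
      + 13625 * ζ ^ 30 + 13631 * ζ ^ 31 + 13635 * ζ ^ 32 + 13620 * ζ ^ 33 + 13610 * ζ ^ 34
      + 13621 * ζ ^ 35) * h1
  rw [s2, s3, s4, s5, s6, s7, s8, s9, s10, s11, s12]
  linear_combination (40876 : R) * h2

/-- There is an element of norm `53` in `ℤ[ζ_13]`, namely `1 + ζ + ζ ^ 3`. -/
theorem exists_norm_53 {K : Type*} [Field K] [NumberField K]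
    [IsCyclotomicExtension {13} ℚ K] :
    ∃ α : 𝓞 K, (Algebra.norm ℤ α).natAbs = 53 := by
  have : Fact (Nat.Prime 13) := ⟨by norm_num⟩
  refine exists_norm_of_prod_eq (p := 13)
    (1 + Polynomial.X + Polynomial.X ^ 3 : Polynomial ℤ) 53 ?_
  intro ζ hζ
  have h := cert_53 ζ hζ.pow_eq_one (hζ.geom_sum_eq_zero (by norm_num))
  simp only [Finset.prod_range_succ, Finset.prod_range_zero, one_mul, zero_add, Nat.reduceAdd,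
    Nat.reduceSub, pow_one, map_add, map_one, map_pow, Polynomial.aeval_X, Nat.cast_ofNat]
  exact h

/-- Certificate: the product of the conjugates of `1 + ζ - ζ ^ 4` is `79`
(using only `ζ ^ 13 = 1` and `1 + ζ + ⋯ + ζ ^ 12 = 0`). -/
theorem cert_79 {R : Type*} [CommRing R] (ζ : R) (h1 : ζ ^ 13 = 1)
    (h2 : ∑ i ∈ Finset.range 13, ζ ^ i = 0) :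
    (1 + ζ - ζ ^ 4) * (1 + ζ ^ 2 - (ζ ^ 2) ^ 4) * (1 + ζ ^ 3 - (ζ ^ 3) ^ 4) * (1 + ζ ^ 4
      - (ζ ^ 4) ^ 4) * (1 + ζ ^ 5 - (ζ ^ 5) ^ 4) * (1 + ζ ^ 6 - (ζ ^ 6) ^ 4) * (1 + ζ ^ 7
      - (ζ ^ 7) ^ 4) * (1 + ζ ^ 8 - (ζ ^ 8) ^ 4) * (1 + ζ ^ 9 - (ζ ^ 9) ^ 4) * (1 + ζ ^ 10
      - (ζ ^ 10) ^ 4) * (1 + ζ ^ 11 - (ζ ^ 11) ^ 4) * (1 + ζ ^ 12 - (ζ ^ 12) ^ 4) = 79 := by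
  simp only [Finset.sum_range_succ, Finset.sum_range_zero] at h2
  have s2 : (1 + ζ - ζ ^ 4) * (1 + ζ ^ 2 - (ζ ^ 2) ^ 4) = 1 + ζ + ζ ^ 2 + ζ ^ 3 - ζ ^ 4 - ζ ^ 6
    - ζ ^ 8 - ζ ^ 9 + ζ ^ 12 := by
    ring
  have s3 : (1 + ζ + ζ ^ 2 + ζ ^ 3 - ζ ^ 4 - ζ ^ 6 - ζ ^ 8 - ζ ^ 9 + ζ ^ 12) * (1 + ζ ^ 3
    - (ζ ^ 3) ^ 4) = ζ ^ 2 + 3 * ζ ^ 3 + 2 * ζ ^ 5 - 2 * ζ ^ 9 - 2 * ζ ^ 11 - ζ ^ 12 := by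
    linear_combination (-1 - ζ + ζ ^ 3 + ζ ^ 5 + ζ ^ 7 + ζ ^ 8 - ζ ^ 11) * h1
  have s4 : (ζ ^ 2 + 3 * ζ ^ 3 + 2 * ζ ^ 5 - 2 * ζ ^ 9 - 2 * ζ ^ 11 - ζ ^ 12) * (1 + ζ ^ 4
    - (ζ ^ 4) ^ 4) = -2 + 2 * ζ + 2 * ζ ^ 3 + ζ ^ 5 - 2 * ζ ^ 6 + 3 * ζ ^ 7 - 2 * ζ ^ 8
    - 2 * ζ ^ 11 + ζ ^ 12 := by
    linear_combination (-2 + 2 * ζ - ζ ^ 2 - ζ ^ 3 - ζ ^ 5 - 3 * ζ ^ 6 - 2 * ζ ^ 8 + 2 * ζ ^ 12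
      + 2 * ζ ^ 14 + ζ ^ 15) * h1
  have s5 : (-2 + 2 * ζ + 2 * ζ ^ 3 + ζ ^ 5 - 2 * ζ ^ 6 + 3 * ζ ^ 7 - 2 * ζ ^ 8 - 2 * ζ ^ 11
    + ζ ^ 12) * (1 + ζ ^ 5 - (ζ ^ 5) ^ 4) = -2 - ζ + 2 * ζ ^ 2 + ζ ^ 4 + ζ ^ 5 - ζ ^ 6 + 5 * ζ ^ 7
    - 2 * ζ ^ 8 - ζ ^ 10 - 4 * ζ ^ 11 + 3 * ζ ^ 12 := by
    linear_combination (-3 * ζ + 2 * ζ ^ 2 - 2 * ζ ^ 3 + ζ ^ 4 + 2 * ζ ^ 5 - ζ ^ 6 + 2 * ζ ^ 7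
      - 2 * ζ ^ 8 - 2 * ζ ^ 10 - ζ ^ 12 + 2 * ζ ^ 13 - 3 * ζ ^ 14 + 2 * ζ ^ 15 + 2 * ζ ^ 18
      - ζ ^ 19) * h1
  have s6 : (-2 - ζ + 2 * ζ ^ 2 + ζ ^ 4 + ζ ^ 5 - ζ ^ 6 + 5 * ζ ^ 7 - 2 * ζ ^ 8 - ζ ^ 10
    - 4 * ζ ^ 11 + 3 * ζ ^ 12) * (1 + ζ ^ 6 - (ζ ^ 6) ^ 4) = 1 - 3 * ζ + ζ ^ 2 - 2 * ζ ^ 3
    - 2 * ζ ^ 4 - ζ ^ 5 - ζ ^ 6 + 4 * ζ ^ 7 + ζ ^ 8 + 4 * ζ ^ 9 - 3 * ζ ^ 10 - ζ ^ 11 + 3 * ζ ^ 12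
    := by
    linear_combination (3 - 2 * ζ - ζ ^ 2 - 2 * ζ ^ 3 - 3 * ζ ^ 4 - 2 * ζ ^ 5 + 2 * ζ ^ 6 + ζ ^ 8
      + 4 * ζ ^ 9 - 3 * ζ ^ 10 + 2 * ζ ^ 11 + ζ ^ 12 - 2 * ζ ^ 13 - ζ ^ 15 - ζ ^ 16 + ζ ^ 17
      - 5 * ζ ^ 18 + 2 * ζ ^ 19 + ζ ^ 21 + 4 * ζ ^ 22 - 3 * ζ ^ 23) * h1
  have s7 : (1 - 3 * ζ + ζ ^ 2 - 2 * ζ ^ 3 - 2 * ζ ^ 4 - ζ ^ 5 - ζ ^ 6 + 4 * ζ ^ 7 + ζ ^ 8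
    + 4 * ζ ^ 9 - 3 * ζ ^ 10 - ζ ^ 11 + 3 * ζ ^ 12) * (1 + ζ ^ 7 - (ζ ^ 7) ^ 4) = 1 - 2 * ζ
    + ζ ^ 2 + 5 * ζ ^ 3 - 6 * ζ ^ 4 + 4 * ζ ^ 6 + 6 * ζ ^ 7 - ζ ^ 8 + ζ ^ 9 - 6 * ζ ^ 10
    - 7 * ζ ^ 11 + 5 * ζ ^ 12 := by
    linear_combination (ζ + 7 * ζ ^ 3 - 4 * ζ ^ 4 + ζ ^ 5 + 5 * ζ ^ 6 + ζ ^ 7 + ζ ^ 8 - 4 * ζ ^ 9
      - ζ ^ 10 - 4 * ζ ^ 11 + 3 * ζ ^ 12 + ζ ^ 13 - 3 * ζ ^ 14 - ζ ^ 15 + 3 * ζ ^ 16 - ζ ^ 17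
      + 2 * ζ ^ 18 + 2 * ζ ^ 19 + ζ ^ 20 + ζ ^ 21 - 4 * ζ ^ 22 - ζ ^ 23 - 4 * ζ ^ 24 + 3 * ζ ^ 25
      + ζ ^ 26 - 3 * ζ ^ 27) * h1
  have s8 : (1 - 2 * ζ + ζ ^ 2 + 5 * ζ ^ 3 - 6 * ζ ^ 4 + 4 * ζ ^ 6 + 6 * ζ ^ 7 - ζ ^ 8 + ζ ^ 9
    - 6 * ζ ^ 10 - 7 * ζ ^ 11 + 5 * ζ ^ 12) * (1 + ζ ^ 8 - (ζ ^ 8) ^ 4) = -5 + 3 * ζ + 6 * ζ ^ 2
    + 10 * ζ ^ 3 + 2 * ζ ^ 4 - 11 * ζ ^ 5 - 4 * ζ ^ 6 + 13 * ζ ^ 7 - ζ ^ 8 - 6 * ζ ^ 9 + ζ ^ 10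
    - 2 * ζ ^ 11 - 5 * ζ ^ 12 := by
    linear_combination (-6 + 5 * ζ + 5 * ζ ^ 2 + 5 * ζ ^ 3 + 8 * ζ ^ 4 - 11 * ζ ^ 5 - 8 * ζ ^ 6
      + 7 * ζ ^ 7 - ζ ^ 8 - 5 * ζ ^ 9 + 6 * ζ ^ 10 - 4 * ζ ^ 12 - 6 * ζ ^ 13 + ζ ^ 14 - ζ ^ 15
      + 6 * ζ ^ 16 + 7 * ζ ^ 17 - 5 * ζ ^ 18 - ζ ^ 19 + 2 * ζ ^ 20 - ζ ^ 21 - 5 * ζ ^ 22
      + 6 * ζ ^ 23 - 4 * ζ ^ 25 - 6 * ζ ^ 26 + ζ ^ 27 - ζ ^ 28 + 6 * ζ ^ 29 + 7 * ζ ^ 30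
      - 5 * ζ ^ 31) * h1
  have s9 : (-5 + 3 * ζ + 6 * ζ ^ 2 + 10 * ζ ^ 3 + 2 * ζ ^ 4 - 11 * ζ ^ 5 - 4 * ζ ^ 6 + 13 * ζ ^ 7
    - ζ ^ 8 - 6 * ζ ^ 9 + ζ ^ 10 - 2 * ζ ^ 11 - 5 * ζ ^ 12) * (1 + ζ ^ 9 - (ζ ^ 9) ^ 4) = -13
    - 10 * ζ + 13 * ζ ^ 2 + 27 * ζ ^ 3 - 12 * ζ ^ 4 - 16 * ζ ^ 5 + 3 * ζ ^ 6 + 10 * ζ ^ 7
    - 4 * ζ ^ 8 - 6 * ζ ^ 9 + 9 * ζ ^ 10 + ζ ^ 11 - ζ ^ 12 := by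
    linear_combination (-8 - 13 * ζ + 7 * ζ ^ 2 + 17 * ζ ^ 3 - 14 * ζ ^ 4 - 5 * ζ ^ 5 + 7 * ζ ^ 6
      - 3 * ζ ^ 7 - 3 * ζ ^ 8 + 5 * ζ ^ 9 + 5 * ζ ^ 10 - 3 * ζ ^ 11 - 6 * ζ ^ 12 - 10 * ζ ^ 13
      - 2 * ζ ^ 14 + 11 * ζ ^ 15 + 4 * ζ ^ 16 - 13 * ζ ^ 17 + ζ ^ 18 + 6 * ζ ^ 19 - ζ ^ 20
      + 2 * ζ ^ 21 + 5 * ζ ^ 22 + 5 * ζ ^ 23 - 3 * ζ ^ 24 - 6 * ζ ^ 25 - 10 * ζ ^ 26 - 2 * ζ ^ 27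
      + 11 * ζ ^ 28 + 4 * ζ ^ 29 - 13 * ζ ^ 30 + ζ ^ 31 + 6 * ζ ^ 32 - ζ ^ 33 + 2 * ζ ^ 34
      + 5 * ζ ^ 35) * h1
  have s10 : (-13 - 10 * ζ + 13 * ζ ^ 2 + 27 * ζ ^ 3 - 12 * ζ ^ 4 - 16 * ζ ^ 5 + 3 * ζ ^ 6
    + 10 * ζ ^ 7 - 4 * ζ ^ 8 - 6 * ζ ^ 9 + 9 * ζ ^ 10 + ζ ^ 11 - ζ ^ 12) * (1 + ζ ^ 10
    - (ζ ^ 10) ^ 4) = 15 - 9 * ζ + 7 * ζ ^ 2 + 17 * ζ ^ 3 - 29 * ζ ^ 4 - 8 * ζ ^ 5 + 13 * ζ ^ 6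
    + 16 * ζ ^ 7 - 13 * ζ ^ 8 - 3 * ζ ^ 9 + 2 * ζ ^ 10 - 18 * ζ ^ 11 + 11 * ζ ^ 12 := by
    linear_combination (28 + ζ - 6 * ζ ^ 2 - 10 * ζ ^ 3 - 17 * ζ ^ 4 + 8 * ζ ^ 5 + 10 * ζ ^ 6
      + 6 * ζ ^ 7 - 9 * ζ ^ 8 + 3 * ζ ^ 9 + 6 * ζ ^ 10 - 9 * ζ ^ 11 - ζ ^ 12 + ζ ^ 13
      + 13 * ζ ^ 14 + 10 * ζ ^ 15 - 13 * ζ ^ 16 - 27 * ζ ^ 17 + 12 * ζ ^ 18 + 16 * ζ ^ 19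
      - 3 * ζ ^ 20 - 10 * ζ ^ 21 + 4 * ζ ^ 22 + 6 * ζ ^ 23 - 9 * ζ ^ 24 - ζ ^ 25 + ζ ^ 26
      + 13 * ζ ^ 27 + 10 * ζ ^ 28 - 13 * ζ ^ 29 - 27 * ζ ^ 30 + 12 * ζ ^ 31 + 16 * ζ ^ 32
      - 3 * ζ ^ 33 - 10 * ζ ^ 34 + 4 * ζ ^ 35 + 6 * ζ ^ 36 - 9 * ζ ^ 37 - ζ ^ 38 + ζ ^ 39) * h1
  have s11 : (15 - 9 * ζ + 7 * ζ ^ 2 + 17 * ζ ^ 3 - 29 * ζ ^ 4 - 8 * ζ ^ 5 + 13 * ζ ^ 6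
    + 16 * ζ ^ 7 - 13 * ζ ^ 8 - 3 * ζ ^ 9 + 2 * ζ ^ 10 - 18 * ζ ^ 11 + 11 * ζ ^ 12) * (1 + ζ ^ 11
    - (ζ ^ 11) ^ 4) = 35 + 11 * ζ - 24 * ζ ^ 2 + 27 * ζ ^ 3 - 27 * ζ ^ 4 - 7 * ζ ^ 5 + 9 * ζ ^ 6
    + 6 * ζ ^ 7 - 28 * ζ ^ 8 + 8 * ζ ^ 9 + 21 * ζ ^ 10 - 16 * ζ ^ 11 - 14 * ζ ^ 12 := by
    linear_combination (20 + 20 * ζ - 31 * ζ ^ 2 + 10 * ζ ^ 3 + 2 * ζ ^ 4 + ζ ^ 5 - 4 * ζ ^ 6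
      - 10 * ζ ^ 7 - 15 * ζ ^ 8 + 11 * ζ ^ 9 + 19 * ζ ^ 10 - 13 * ζ ^ 11 - 16 * ζ ^ 12
      + 13 * ζ ^ 13 + 3 * ζ ^ 14 - 2 * ζ ^ 15 + 18 * ζ ^ 16 - 11 * ζ ^ 17 - 15 * ζ ^ 18
      + 9 * ζ ^ 19 - 7 * ζ ^ 20 - 17 * ζ ^ 21 + 29 * ζ ^ 22 + 8 * ζ ^ 23 - 13 * ζ ^ 24
      - 16 * ζ ^ 25 + 13 * ζ ^ 26 + 3 * ζ ^ 27 - 2 * ζ ^ 28 + 18 * ζ ^ 29 - 11 * ζ ^ 30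
      - 15 * ζ ^ 31 + 9 * ζ ^ 32 - 7 * ζ ^ 33 - 17 * ζ ^ 34 + 29 * ζ ^ 35 + 8 * ζ ^ 36
      - 13 * ζ ^ 37 - 16 * ζ ^ 38 + 13 * ζ ^ 39 + 3 * ζ ^ 40 - 2 * ζ ^ 41 + 18 * ζ ^ 42
      - 11 * ζ ^ 43) * h1
  have s12 : (35 + 11 * ζ - 24 * ζ ^ 2 + 27 * ζ ^ 3 - 27 * ζ ^ 4 - 7 * ζ ^ 5 + 9 * ζ ^ 6
    + 6 * ζ ^ 7 - 28 * ζ ^ 8 + 8 * ζ ^ 9 + 21 * ζ ^ 10 - 16 * ζ ^ 11 - 14 * ζ ^ 12) * (1 + ζ ^ 12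
    - (ζ ^ 12) ^ 4) = 73 - 6 * ζ - 6 * ζ ^ 2 - 6 * ζ ^ 3 - 6 * ζ ^ 4 - 6 * ζ ^ 5 - 6 * ζ ^ 6
    - 6 * ζ ^ 7 - 6 * ζ ^ 8 - 6 * ζ ^ 9 - 6 * ζ ^ 10 - 6 * ζ ^ 11 - 6 * ζ ^ 12 := by
    linear_combination (38 - 17 * ζ + 18 * ζ ^ 2 - 33 * ζ ^ 3 + 21 * ζ ^ 4 + ζ ^ 5 - 15 * ζ ^ 6
      - 12 * ζ ^ 7 + 22 * ζ ^ 8 - 14 * ζ ^ 9 - 27 * ζ ^ 10 + 10 * ζ ^ 11 - 27 * ζ ^ 12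
      + 27 * ζ ^ 13 + 7 * ζ ^ 14 - 9 * ζ ^ 15 - 6 * ζ ^ 16 + 28 * ζ ^ 17 - 8 * ζ ^ 18
      - 21 * ζ ^ 19 + 16 * ζ ^ 20 + 14 * ζ ^ 21 - 35 * ζ ^ 22 - 11 * ζ ^ 23 + 24 * ζ ^ 24
      - 27 * ζ ^ 25 + 27 * ζ ^ 26 + 7 * ζ ^ 27 - 9 * ζ ^ 28 - 6 * ζ ^ 29 + 28 * ζ ^ 30
      - 8 * ζ ^ 31 - 21 * ζ ^ 32 + 16 * ζ ^ 33 + 14 * ζ ^ 34 - 35 * ζ ^ 35 - 11 * ζ ^ 36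
      + 24 * ζ ^ 37 - 27 * ζ ^ 38 + 27 * ζ ^ 39 + 7 * ζ ^ 40 - 9 * ζ ^ 41 - 6 * ζ ^ 42
      + 28 * ζ ^ 43 - 8 * ζ ^ 44 - 21 * ζ ^ 45 + 16 * ζ ^ 46 + 14 * ζ ^ 47) * h1
  rw [s2, s3, s4, s5, s6, s7, s8, s9, s10, s11, s12]
  linear_combination (-6 : R) * h2

/-- There is an element of norm `79` in `ℤ[ζ_13]`, namely `1 + ζ - ζ ^ 4`. -/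
theorem exists_norm_79 {K : Type*} [Field K] [NumberField K]
    [IsCyclotomicExtension {13} ℚ K] :
    ∃ α : 𝓞 K, (Algebra.norm ℤ α).natAbs = 79 := by
  have : Fact (Nat.Prime 13) := ⟨by norm_num⟩
  refine exists_norm_of_prod_eq (p := 13)
    (1 + Polynomial.X - Polynomial.X ^ 4 : Polynomial ℤ) 79 ?_
  intro ζ hζ
  have h := cert_79 ζ hζ.pow_eq_one (hζ.geom_sum_eq_zero (by norm_num))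
  simp only [Finset.prod_range_succ, Finset.prod_range_zero, one_mul, zero_add, Nat.reduceAdd,
    Nat.reduceSub, pow_one, map_add, map_sub, map_one, map_pow, Polynomial.aeval_X, Nat.cast_ofNat]
  exact h

/-- Certificate: the product of the conjugates of `1 - ζ - ζ ^ 3` is `131`
(using only `ζ ^ 13 = 1` and `1 + ζ + ⋯ + ζ ^ 12 = 0`). -/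
theorem cert_131 {R : Type*} [CommRing R] (ζ : R) (h1 : ζ ^ 13 = 1)
    (h2 : ∑ i ∈ Finset.range 13, ζ ^ i = 0) :
    (1 - ζ - ζ ^ 3) * (1 - ζ ^ 2 - (ζ ^ 2) ^ 3) * (1 - ζ ^ 3 - (ζ ^ 3) ^ 3) * (1 - ζ ^ 4
      - (ζ ^ 4) ^ 3) * (1 - ζ ^ 5 - (ζ ^ 5) ^ 3) * (1 - ζ ^ 6 - (ζ ^ 6) ^ 3) * (1 - ζ ^ 7
      - (ζ ^ 7) ^ 3) * (1 - ζ ^ 8 - (ζ ^ 8) ^ 3) * (1 - ζ ^ 9 - (ζ ^ 9) ^ 3) * (1 - ζ ^ 10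
      - (ζ ^ 10) ^ 3) * (1 - ζ ^ 11 - (ζ ^ 11) ^ 3) * (1 - ζ ^ 12 - (ζ ^ 12) ^ 3) = 131 := by
  simp only [Finset.sum_range_succ, Finset.sum_range_zero] at h2
  have s2 : (1 - ζ - ζ ^ 3) * (1 - ζ ^ 2 - (ζ ^ 2) ^ 3) = 1 - ζ - ζ ^ 2 + ζ ^ 5 - ζ ^ 6 + ζ ^ 7
    + ζ ^ 9 := by
    ring
  have s3 : (1 - ζ - ζ ^ 2 + ζ ^ 5 - ζ ^ 6 + ζ ^ 7 + ζ ^ 9) * (1 - ζ ^ 3 - (ζ ^ 3) ^ 3) = 1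
    - 2 * ζ - 2 * ζ ^ 3 + ζ ^ 4 + ζ ^ 5 - ζ ^ 6 + ζ ^ 7 - ζ ^ 8 + ζ ^ 9 + ζ ^ 11 - ζ ^ 12 := by
    linear_combination (-ζ + ζ ^ 2 - ζ ^ 3 - ζ ^ 5) * h1
  have s4 : (1 - 2 * ζ - 2 * ζ ^ 3 + ζ ^ 4 + ζ ^ 5 - ζ ^ 6 + ζ ^ 7 - ζ ^ 8 + ζ ^ 9 + ζ ^ 11
    - ζ ^ 12) * (1 - ζ ^ 4 - (ζ ^ 4) ^ 3) = 2 - 2 * ζ + ζ ^ 2 - 2 * ζ ^ 3 - ζ ^ 4 + 4 * ζ ^ 5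
    - 2 * ζ ^ 6 + 4 * ζ ^ 7 - 3 * ζ ^ 8 + ζ ^ 11 - ζ ^ 12 := by
    linear_combination (1 + ζ ^ 2 - ζ ^ 4 + ζ ^ 5 - ζ ^ 6 + ζ ^ 7 - ζ ^ 8 - ζ ^ 10 + ζ ^ 11) * h1
  have s5 : (2 - 2 * ζ + ζ ^ 2 - 2 * ζ ^ 3 - ζ ^ 4 + 4 * ζ ^ 5 - 2 * ζ ^ 6 + 4 * ζ ^ 7 - 3 * ζ ^ 8
    + ζ ^ 11 - ζ ^ 12) * (1 - ζ ^ 5 - (ζ ^ 5) ^ 3) = 4 - ζ - ζ ^ 2 - ζ ^ 3 - ζ ^ 4 + 4 * ζ ^ 5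
    + ζ ^ 6 - ζ ^ 7 + ζ ^ 8 - 3 * ζ ^ 9 - ζ ^ 10 + 3 * ζ ^ 11 - 5 * ζ ^ 12 := by
    linear_combination (2 + ζ - 2 * ζ ^ 2 + ζ ^ 3 + 2 * ζ ^ 5 + ζ ^ 6 - 4 * ζ ^ 7 + 2 * ζ ^ 8
      - 4 * ζ ^ 9 + 3 * ζ ^ 10 - ζ ^ 13 + ζ ^ 14) * h1
  have s6 : (4 - ζ - ζ ^ 2 - ζ ^ 3 - ζ ^ 4 + 4 * ζ ^ 5 + ζ ^ 6 - ζ ^ 7 + ζ ^ 8 - 3 * ζ ^ 9
    - ζ ^ 10 + 3 * ζ ^ 11 - 5 * ζ ^ 12) * (1 - ζ ^ 6 - (ζ ^ 6) ^ 3) = 4 + ζ + 3 * ζ ^ 2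
    - 3 * ζ ^ 3 + ζ ^ 4 + 5 * ζ ^ 5 - 2 * ζ ^ 6 + ζ ^ 7 + 3 * ζ ^ 8 - ζ ^ 9 - 4 * ζ ^ 10
    - 2 * ζ ^ 11 - 5 * ζ ^ 12 := by
    linear_combination (2 * ζ + 4 * ζ ^ 2 - 2 * ζ ^ 3 + 2 * ζ ^ 4 + ζ ^ 5 + ζ ^ 6 + ζ ^ 7 + ζ ^ 8
      + ζ ^ 9 - 4 * ζ ^ 10 - ζ ^ 11 + ζ ^ 12 - ζ ^ 13 + 3 * ζ ^ 14 + ζ ^ 15 - 3 * ζ ^ 16
      + 5 * ζ ^ 17) * h1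
  have s7 : (4 + ζ + 3 * ζ ^ 2 - 3 * ζ ^ 3 + ζ ^ 4 + 5 * ζ ^ 5 - 2 * ζ ^ 6 + ζ ^ 7 + 3 * ζ ^ 8
    - ζ ^ 9 - 4 * ζ ^ 10 - 2 * ζ ^ 11 - 5 * ζ ^ 12) * (1 - ζ ^ 7 - (ζ ^ 7) ^ 3) = 1 + 2 * ζ
    - ζ ^ 2 - 5 * ζ ^ 3 + 6 * ζ ^ 4 + 11 * ζ ^ 5 + 5 * ζ ^ 6 + 2 * ζ ^ 7 - 2 * ζ ^ 8 - 5 * ζ ^ 9
    - 4 * ζ ^ 10 - 11 * ζ ^ 12 := by
    linear_combination (-3 + ζ - 4 * ζ ^ 2 - 2 * ζ ^ 3 + 5 * ζ ^ 4 + 6 * ζ ^ 5 + 7 * ζ ^ 6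
      + 5 * ζ ^ 7 - 4 * ζ ^ 8 - ζ ^ 9 - 3 * ζ ^ 10 + 3 * ζ ^ 11 - ζ ^ 12 - 5 * ζ ^ 13 + 2 * ζ ^ 14
      - ζ ^ 15 - 3 * ζ ^ 16 + ζ ^ 17 + 4 * ζ ^ 18 + 2 * ζ ^ 19 + 5 * ζ ^ 20) * h1
  have s8 : (1 + 2 * ζ - ζ ^ 2 - 5 * ζ ^ 3 + 6 * ζ ^ 4 + 11 * ζ ^ 5 + 5 * ζ ^ 6 + 2 * ζ ^ 7
    - 2 * ζ ^ 8 - 5 * ζ ^ 9 - 4 * ζ ^ 10 - 11 * ζ ^ 12) * (1 - ζ ^ 8 - (ζ ^ 8) ^ 3) = -9 + 2 * ζ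
    - 9 * ζ ^ 2 - 14 * ζ ^ 3 + 6 * ζ ^ 4 + 13 * ζ ^ 5 + 7 * ζ ^ 6 + 18 * ζ ^ 7 + ζ ^ 8 - 7 * ζ ^ 9
    + 8 * ζ ^ 10 + 4 * ζ ^ 11 - 19 * ζ ^ 12 := by
    linear_combination (-10 - 8 * ζ ^ 2 - 9 * ζ ^ 3 + 2 * ζ ^ 5 + 2 * ζ ^ 6 + 16 * ζ ^ 7
      + 4 * ζ ^ 8 + 11 * ζ ^ 10 - ζ ^ 11 - 2 * ζ ^ 12 + ζ ^ 13 + 5 * ζ ^ 14 - 6 * ζ ^ 15
      - 11 * ζ ^ 16 - 5 * ζ ^ 17 - 2 * ζ ^ 18 + 2 * ζ ^ 19 + 5 * ζ ^ 20 + 4 * ζ ^ 21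
      + 11 * ζ ^ 23) * h1
  have s9 : (-9 + 2 * ζ - 9 * ζ ^ 2 - 14 * ζ ^ 3 + 6 * ζ ^ 4 + 13 * ζ ^ 5 + 7 * ζ ^ 6 + 18 * ζ ^ 7
    + ζ ^ 8 - 7 * ζ ^ 9 + 8 * ζ ^ 10 + 4 * ζ ^ 11 - 19 * ζ ^ 12) * (1 - ζ ^ 9 - (ζ ^ 9) ^ 3) = 4
    - 2 * ζ - 18 * ζ ^ 2 - 23 * ζ ^ 3 + 19 * ζ ^ 4 + 14 * ζ ^ 5 - 14 * ζ ^ 6 + 7 * ζ ^ 7
    + 2 * ζ ^ 8 + ζ ^ 9 + 13 * ζ ^ 10 + 5 * ζ ^ 11 - 9 * ζ ^ 12 := by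
    linear_combination (13 - 4 * ζ - 9 * ζ ^ 2 - 9 * ζ ^ 3 + 13 * ζ ^ 4 + ζ ^ 5 - 21 * ζ ^ 6
      - 11 * ζ ^ 7 + ζ ^ 8 - ζ ^ 9 + 7 * ζ ^ 10 - 8 * ζ ^ 11 - 4 * ζ ^ 12 + 19 * ζ ^ 13
      + 9 * ζ ^ 14 - 2 * ζ ^ 15 + 9 * ζ ^ 16 + 14 * ζ ^ 17 - 6 * ζ ^ 18 - 13 * ζ ^ 19 - 7 * ζ ^ 20
      - 18 * ζ ^ 21 - ζ ^ 22 + 7 * ζ ^ 23 - 8 * ζ ^ 24 - 4 * ζ ^ 25 + 19 * ζ ^ 26) * h1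
  have s10 : (4 - 2 * ζ - 18 * ζ ^ 2 - 23 * ζ ^ 3 + 19 * ζ ^ 4 + 14 * ζ ^ 5 - 14 * ζ ^ 6
    + 7 * ζ ^ 7 + 2 * ζ ^ 8 + ζ ^ 9 + 13 * ζ ^ 10 + 5 * ζ ^ 11 - 9 * ζ ^ 12) * (1 - ζ ^ 10
    - (ζ ^ 10) ^ 3) = 26 - 34 * ζ - 37 * ζ ^ 2 + 8 * ζ ^ 4 + 14 * ζ ^ 5 + 3 * ζ ^ 6 + 17 * ζ ^ 7
    - 22 * ζ ^ 8 - 4 * ζ ^ 9 + 23 * ζ ^ 10 + 7 * ζ ^ 12 := by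
    linear_combination (22 - 32 * ζ - 19 * ζ ^ 2 + 23 * ζ ^ 3 - 11 * ζ ^ 4 + 17 * ζ ^ 6
      + 10 * ζ ^ 7 - 24 * ζ ^ 8 - 5 * ζ ^ 9 + 14 * ζ ^ 10 - 7 * ζ ^ 11 - 2 * ζ ^ 12 - ζ ^ 13
      - 13 * ζ ^ 14 - 5 * ζ ^ 15 + 9 * ζ ^ 16 - 4 * ζ ^ 17 + 2 * ζ ^ 18 + 18 * ζ ^ 19
      + 23 * ζ ^ 20 - 19 * ζ ^ 21 - 14 * ζ ^ 22 + 14 * ζ ^ 23 - 7 * ζ ^ 24 - 2 * ζ ^ 25 - ζ ^ 26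
      - 13 * ζ ^ 27 - 5 * ζ ^ 28 + 9 * ζ ^ 29) * h1
  have s11 : (26 - 34 * ζ - 37 * ζ ^ 2 + 8 * ζ ^ 4 + 14 * ζ ^ 5 + 3 * ζ ^ 6 + 17 * ζ ^ 7
    - 22 * ζ ^ 8 - 4 * ζ ^ 9 + 23 * ζ ^ 10 + 7 * ζ ^ 12) * (1 - ζ ^ 11 - (ζ ^ 11) ^ 3) = 60
    - 51 * ζ - 23 * ζ ^ 2 - 10 * ζ ^ 3 - 18 * ζ ^ 4 - 3 * ζ ^ 5 + 18 * ζ ^ 6 - 5 * ζ ^ 7
    - 11 * ζ ^ 8 + 33 * ζ ^ 9 + 16 * ζ ^ 10 - 34 * ζ ^ 11 + 27 * ζ ^ 12 := by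
    linear_combination (34 - 17 * ζ + 14 * ζ ^ 2 - 10 * ζ ^ 3 - 26 * ζ ^ 4 - 17 * ζ ^ 5
      + 15 * ζ ^ 6 - 22 * ζ ^ 7 + 11 * ζ ^ 8 + 37 * ζ ^ 9 - 7 * ζ ^ 10 - 8 * ζ ^ 11 - 14 * ζ ^ 12
      - 3 * ζ ^ 13 - 17 * ζ ^ 14 + 22 * ζ ^ 15 + 4 * ζ ^ 16 - 23 * ζ ^ 17 - 7 * ζ ^ 19
      - 26 * ζ ^ 20 + 34 * ζ ^ 21 + 37 * ζ ^ 22 - 8 * ζ ^ 24 - 14 * ζ ^ 25 - 3 * ζ ^ 26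
      - 17 * ζ ^ 27 + 22 * ζ ^ 28 + 4 * ζ ^ 29 - 23 * ζ ^ 30 - 7 * ζ ^ 32) * h1
  have s12 : (60 - 51 * ζ - 23 * ζ ^ 2 - 10 * ζ ^ 3 - 18 * ζ ^ 4 - 3 * ζ ^ 5 + 18 * ζ ^ 6
    - 5 * ζ ^ 7 - 11 * ζ ^ 8 + 33 * ζ ^ 9 + 16 * ζ ^ 10 - 34 * ζ ^ 11 + 27 * ζ ^ 12) * (1 - ζ ^ 12
    - (ζ ^ 12) ^ 3) = 121 - 10 * ζ - 10 * ζ ^ 2 - 10 * ζ ^ 3 - 10 * ζ ^ 4 - 10 * ζ ^ 5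
    - 10 * ζ ^ 6 - 10 * ζ ^ 7 - 10 * ζ ^ 8 - 10 * ζ ^ 9 - 10 * ζ ^ 10 - 10 * ζ ^ 11 - 10 * ζ ^ 12
    := by
    linear_combination (61 + 41 * ζ + 13 * ζ ^ 2 + 8 * ζ ^ 4 - 7 * ζ ^ 5 - 28 * ζ ^ 6 - 5 * ζ ^ 7
      + ζ ^ 8 - 43 * ζ ^ 9 - 26 * ζ ^ 10 + 24 * ζ ^ 11 + 23 * ζ ^ 12 + 10 * ζ ^ 13 + 18 * ζ ^ 14
      + 3 * ζ ^ 15 - 18 * ζ ^ 16 + 5 * ζ ^ 17 + 11 * ζ ^ 18 - 33 * ζ ^ 19 - 16 * ζ ^ 20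
      + 34 * ζ ^ 21 - 27 * ζ ^ 22 - 60 * ζ ^ 23 + 51 * ζ ^ 24 + 23 * ζ ^ 25 + 10 * ζ ^ 26
      + 18 * ζ ^ 27 + 3 * ζ ^ 28 - 18 * ζ ^ 29 + 5 * ζ ^ 30 + 11 * ζ ^ 31 - 33 * ζ ^ 32
      - 16 * ζ ^ 33 + 34 * ζ ^ 34 - 27 * ζ ^ 35) * h1
  rw [s2, s3, s4, s5, s6, s7, s8, s9, s10, s11, s12]
  linear_combination (-10 : R) * h2

/-- There is an element of norm `131` in `ℤ[ζ_13]`, namely `1 - ζ - ζ ^ 3`. -/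
theorem exists_norm_131 {K : Type*} [Field K] [NumberField K]
    [IsCyclotomicExtension {13} ℚ K] :
    ∃ α : 𝓞 K, (Algebra.norm ℤ α).natAbs = 131 := by
  have : Fact (Nat.Prime 13) := ⟨by norm_num⟩
  refine exists_norm_of_prod_eq (p := 13)
    (1 - Polynomial.X - Polynomial.X ^ 3 : Polynomial ℤ) 131 ?_
  intro ζ hζ
  have h := cert_131 ζ hζ.pow_eq_one (hζ.geom_sum_eq_zero (by norm_num))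
  simp only [Finset.prod_range_succ, Finset.prod_range_zero, one_mul, zero_add, Nat.reduceAdd,
    Nat.reduceSub, pow_one, map_sub, map_one, map_pow, Polynomial.aeval_X, Nat.cast_ofNat]
  exact h

/-- Certificate: the product of the conjugates of `1 - ζ + ζ ^ 2 + ζ ^ 4` is `157`
(using only `ζ ^ 13 = 1` and `1 + ζ + ⋯ + ζ ^ 12 = 0`). -/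
theorem cert_157 {R : Type*} [CommRing R] (ζ : R) (h1 : ζ ^ 13 = 1)
    (h2 : ∑ i ∈ Finset.range 13, ζ ^ i = 0) :
    (1 - ζ + ζ ^ 2 + ζ ^ 4) * (1 - ζ ^ 2 + (ζ ^ 2) ^ 2 + (ζ ^ 2) ^ 4) * (1 - ζ ^ 3 + (ζ ^ 3) ^ 2
      + (ζ ^ 3) ^ 4) * (1 - ζ ^ 4 + (ζ ^ 4) ^ 2 + (ζ ^ 4) ^ 4) * (1 - ζ ^ 5 + (ζ ^ 5) ^ 2
      + (ζ ^ 5) ^ 4) * (1 - ζ ^ 6 + (ζ ^ 6) ^ 2 + (ζ ^ 6) ^ 4) * (1 - ζ ^ 7 + (ζ ^ 7) ^ 2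
      + (ζ ^ 7) ^ 4) * (1 - ζ ^ 8 + (ζ ^ 8) ^ 2 + (ζ ^ 8) ^ 4) * (1 - ζ ^ 9 + (ζ ^ 9) ^ 2
      + (ζ ^ 9) ^ 4) * (1 - ζ ^ 10 + (ζ ^ 10) ^ 2 + (ζ ^ 10) ^ 4) * (1 - ζ ^ 11 + (ζ ^ 11) ^ 2
      + (ζ ^ 11) ^ 4) * (1 - ζ ^ 12 + (ζ ^ 12) ^ 2 + (ζ ^ 12) ^ 4) = 157 := by
  simp only [Finset.sum_range_succ, Finset.sum_range_zero] at h2
  have s2 : (1 - ζ + ζ ^ 2 + ζ ^ 4) * (1 - ζ ^ 2 + (ζ ^ 2) ^ 2 + (ζ ^ 2) ^ 4) = 1 - ζ + ζ ^ 3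
    + ζ ^ 4 - ζ ^ 5 + 2 * ζ ^ 8 - ζ ^ 9 + ζ ^ 10 + ζ ^ 12 := by
    ring
  have s3 : (1 - ζ + ζ ^ 3 + ζ ^ 4 - ζ ^ 5 + 2 * ζ ^ 8 - ζ ^ 9 + ζ ^ 10 + ζ ^ 12) * (1 - ζ ^ 3
    + (ζ ^ 3) ^ 2 + (ζ ^ 3) ^ 4) = -1 + ζ - ζ ^ 2 + 2 * ζ ^ 3 + ζ ^ 4 + 2 * ζ ^ 8 + ζ ^ 9
    + 2 * ζ ^ 10 - 2 * ζ ^ 11 + 3 * ζ ^ 12 := by
    linear_combination (-2 + 2 * ζ - ζ ^ 2 + 2 * ζ ^ 3 - ζ ^ 4 + ζ ^ 5 + 2 * ζ ^ 7 - ζ ^ 8 + ζ ^ 9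
      + ζ ^ 11) * h1
  have s4 : (-1 + ζ - ζ ^ 2 + 2 * ζ ^ 3 + ζ ^ 4 + 2 * ζ ^ 8 + ζ ^ 9 + 2 * ζ ^ 10 - 2 * ζ ^ 11
    + 3 * ζ ^ 12) * (1 - ζ ^ 4 + (ζ ^ 4) ^ 2 + (ζ ^ 4) ^ 4) = -3 * ζ + 4 * ζ ^ 2 + 4 * ζ ^ 4
    + ζ ^ 6 + 2 * ζ ^ 7 + 2 * ζ ^ 9 + ζ ^ 10 + 2 * ζ ^ 11 + 3 * ζ ^ 12 := by
    linear_combination (1 - 4 * ζ + 5 * ζ ^ 2 - 2 * ζ ^ 3 + 2 * ζ ^ 4 + ζ ^ 5 + 4 * ζ ^ 7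
      + 2 * ζ ^ 11 + ζ ^ 12 + 2 * ζ ^ 13 - 2 * ζ ^ 14 + 3 * ζ ^ 15) * h1
  have s5 : (-3 * ζ + 4 * ζ ^ 2 + 4 * ζ ^ 4 + ζ ^ 6 + 2 * ζ ^ 7 + 2 * ζ ^ 9 + ζ ^ 10 + 2 * ζ ^ 11
    + 3 * ζ ^ 12) * (1 - ζ ^ 5 + (ζ ^ 5) ^ 2 + (ζ ^ 5) ^ 4) = 1 + ζ + 3 * ζ ^ 2 + ζ ^ 3
    + 4 * ζ ^ 4 + 2 * ζ ^ 5 + 9 * ζ ^ 6 - ζ ^ 7 - ζ ^ 8 + 5 * ζ ^ 9 + ζ ^ 10 + 2 * ζ ^ 11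
    + 5 * ζ ^ 12 := by
    linear_combination (1 + 4 * ζ - ζ ^ 2 + ζ ^ 3 + 2 * ζ ^ 5 + 5 * ζ ^ 6 + ζ ^ 7 - ζ ^ 8
      + 7 * ζ ^ 9 + 4 * ζ ^ 11 + ζ ^ 13 + 2 * ζ ^ 14 + 2 * ζ ^ 16 + ζ ^ 17 + 2 * ζ ^ 18
      + 3 * ζ ^ 19) * h1
  have s6 : (1 + ζ + 3 * ζ ^ 2 + ζ ^ 3 + 4 * ζ ^ 4 + 2 * ζ ^ 5 + 9 * ζ ^ 6 - ζ ^ 7 - ζ ^ 8
    + 5 * ζ ^ 9 + ζ ^ 10 + 2 * ζ ^ 11 + 5 * ζ ^ 12) * (1 - ζ ^ 6 + (ζ ^ 6) ^ 2 + (ζ ^ 6) ^ 4) = 6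
    + 6 * ζ + 3 * ζ ^ 2 + 6 * ζ ^ 3 + 13 * ζ ^ 4 + 5 * ζ ^ 5 + 6 * ζ ^ 6 + 2 * ζ ^ 7 + 2 * ζ ^ 8
    + 7 * ζ ^ 9 + 4 * ζ ^ 10 + 6 * ζ ^ 11 - 2 * ζ ^ 12 := by
    linear_combination (5 + 5 * ζ + 5 * ζ ^ 3 + 9 * ζ ^ 4 + 3 * ζ ^ 5 - 2 * ζ ^ 6 + 4 * ζ ^ 7
      + 6 * ζ ^ 8 + 3 * ζ ^ 9 + 7 * ζ ^ 10 + 6 * ζ ^ 11 + ζ ^ 12 + 3 * ζ ^ 13 + ζ ^ 14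
      + 4 * ζ ^ 15 + 2 * ζ ^ 16 + 9 * ζ ^ 17 - ζ ^ 18 - ζ ^ 19 + 5 * ζ ^ 20 + ζ ^ 21 + 2 * ζ ^ 22
      + 5 * ζ ^ 23) * h1
  have s7 : (6 + 6 * ζ + 3 * ζ ^ 2 + 6 * ζ ^ 3 + 13 * ζ ^ 4 + 5 * ζ ^ 5 + 6 * ζ ^ 6 + 2 * ζ ^ 7
    + 2 * ζ ^ 8 + 7 * ζ ^ 9 + 4 * ζ ^ 10 + 6 * ζ ^ 11 - 2 * ζ ^ 12) * (1 - ζ ^ 7 + (ζ ^ 7) ^ 2
    + (ζ ^ 7) ^ 4) = 4 + 8 * ζ + 13 * ζ ^ 2 + 8 * ζ ^ 3 + 18 * ζ ^ 4 + 18 * ζ ^ 5 + 26 * ζ ^ 6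
    + 7 * ζ ^ 7 + 4 * ζ ^ 8 + 8 * ζ ^ 9 + 7 * ζ ^ 10 + 4 * ζ ^ 11 + 3 * ζ ^ 12 := by
    linear_combination (-2 + 2 * ζ + 10 * ζ ^ 2 + 2 * ζ ^ 3 + 5 * ζ ^ 4 + 13 * ζ ^ 5 + 20 * ζ ^ 6
      + 11 * ζ ^ 7 + 8 * ζ ^ 8 + 4 * ζ ^ 9 + 9 * ζ ^ 10 + 11 * ζ ^ 11 + 10 * ζ ^ 12 + 4 * ζ ^ 13
      - 2 * ζ ^ 14 + 6 * ζ ^ 15 + 6 * ζ ^ 16 + 3 * ζ ^ 17 + 6 * ζ ^ 18 + 13 * ζ ^ 19 + 5 * ζ ^ 20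
      + 6 * ζ ^ 21 + 2 * ζ ^ 22 + 2 * ζ ^ 23 + 7 * ζ ^ 24 + 4 * ζ ^ 25 + 6 * ζ ^ 26
      - 2 * ζ ^ 27) * h1
  have s8 : (4 + 8 * ζ + 13 * ζ ^ 2 + 8 * ζ ^ 3 + 18 * ζ ^ 4 + 18 * ζ ^ 5 + 26 * ζ ^ 6 + 7 * ζ ^ 7
    + 4 * ζ ^ 8 + 8 * ζ ^ 9 + 7 * ζ ^ 10 + 4 * ζ ^ 11 + 3 * ζ ^ 12) * (1 - ζ ^ 8 + (ζ ^ 8) ^ 2
    + (ζ ^ 8) ^ 4) = -10 * ζ + 17 * ζ ^ 2 + 15 * ζ ^ 3 + 22 * ζ ^ 4 + 27 * ζ ^ 5 + 34 * ζ ^ 6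
    + 30 * ζ ^ 7 + 31 * ζ ^ 8 + 34 * ζ ^ 9 + 19 * ζ ^ 10 + 18 * ζ ^ 11 + 19 * ζ ^ 12 := by
    linear_combination (-4 - 18 * ζ + 4 * ζ ^ 2 + 7 * ζ ^ 3 + 4 * ζ ^ 4 + 9 * ζ ^ 5 + 8 * ζ ^ 6
      + 23 * ζ ^ 7 + 31 * ζ ^ 8 + 34 * ζ ^ 9 + 25 * ζ ^ 10 + 22 * ζ ^ 11 + 34 * ζ ^ 12
      + 14 * ζ ^ 13 + 8 * ζ ^ 14 + 11 * ζ ^ 15 + 7 * ζ ^ 16 + 4 * ζ ^ 17 + 3 * ζ ^ 18 + 4 * ζ ^ 19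
      + 8 * ζ ^ 20 + 13 * ζ ^ 21 + 8 * ζ ^ 22 + 18 * ζ ^ 23 + 18 * ζ ^ 24 + 26 * ζ ^ 25
      + 7 * ζ ^ 26 + 4 * ζ ^ 27 + 8 * ζ ^ 28 + 7 * ζ ^ 29 + 4 * ζ ^ 30 + 3 * ζ ^ 31) * h1
  have s9 : (-10 * ζ + 17 * ζ ^ 2 + 15 * ζ ^ 3 + 22 * ζ ^ 4 + 27 * ζ ^ 5 + 34 * ζ ^ 6 + 30 * ζ ^ 7
    + 31 * ζ ^ 8 + 34 * ζ ^ 9 + 19 * ζ ^ 10 + 18 * ζ ^ 11 + 19 * ζ ^ 12) * (1 - ζ ^ 9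
    + (ζ ^ 9) ^ 2 + (ζ ^ 9) ^ 4) = 24 + 19 * ζ + 29 * ζ ^ 2 + 37 * ζ ^ 3 + 40 * ζ ^ 4 + 24 * ζ ^ 5
    + 39 * ζ ^ 6 + 48 * ζ ^ 7 + 45 * ζ ^ 8 + 75 * ζ ^ 9 + 56 * ζ ^ 10 + 25 * ζ ^ 11 + 51 * ζ ^ 12
    := by
    linear_combination (24 + 29 * ζ + 12 * ζ ^ 2 + 22 * ζ ^ 3 + 18 * ζ ^ 4 - 3 * ζ ^ 5 + 5 * ζ ^ 6
      + 18 * ζ ^ 7 + 14 * ζ ^ 8 + 41 * ζ ^ 9 + 27 * ζ ^ 10 + 24 * ζ ^ 11 + 47 * ζ ^ 12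
      + 46 * ζ ^ 13 + 56 * ζ ^ 14 + 46 * ζ ^ 15 + 52 * ζ ^ 16 + 49 * ζ ^ 17 + 31 * ζ ^ 18
      + 34 * ζ ^ 19 + 19 * ζ ^ 20 + 18 * ζ ^ 21 + 19 * ζ ^ 22 - 10 * ζ ^ 24 + 17 * ζ ^ 25
      + 15 * ζ ^ 26 + 22 * ζ ^ 27 + 27 * ζ ^ 28 + 34 * ζ ^ 29 + 30 * ζ ^ 30 + 31 * ζ ^ 31
      + 34 * ζ ^ 32 + 19 * ζ ^ 33 + 18 * ζ ^ 34 + 19 * ζ ^ 35) * h1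
  have s10 : (24 + 19 * ζ + 29 * ζ ^ 2 + 37 * ζ ^ 3 + 40 * ζ ^ 4 + 24 * ζ ^ 5 + 39 * ζ ^ 6
    + 48 * ζ ^ 7 + 45 * ζ ^ 8 + 75 * ζ ^ 9 + 56 * ζ ^ 10 + 25 * ζ ^ 11 + 51 * ζ ^ 12) * (1
    - ζ ^ 10 + (ζ ^ 10) ^ 2 + (ζ ^ 10) ^ 4) = 77 + 51 * ζ + 69 * ζ ^ 2 + 102 * ζ ^ 3 + 85 * ζ ^ 4
    + 44 * ζ ^ 5 + 39 * ζ ^ 6 + 55 * ζ ^ 7 + 87 * ζ ^ 8 + 98 * ζ ^ 9 + 144 * ζ ^ 10 + 102 * ζ ^ 11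
    + 71 * ζ ^ 12 := by
    linear_combination (53 + 32 * ζ + 40 * ζ ^ 2 + 65 * ζ ^ 3 + 45 * ζ ^ 4 + 20 * ζ ^ 5
      + 7 * ζ ^ 7 + 42 * ζ ^ 8 + 23 * ζ ^ 9 + 112 * ζ ^ 10 + 96 * ζ ^ 11 + 49 * ζ ^ 12
      + 90 * ζ ^ 13 + 72 * ζ ^ 14 + 64 * ζ ^ 15 + 104 * ζ ^ 16 + 93 * ζ ^ 17 + 65 * ζ ^ 18
      + 75 * ζ ^ 19 + 39 * ζ ^ 20 + 48 * ζ ^ 21 + 45 * ζ ^ 22 + 75 * ζ ^ 23 + 56 * ζ ^ 24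
      + 25 * ζ ^ 25 + 51 * ζ ^ 26 + 24 * ζ ^ 27 + 19 * ζ ^ 28 + 29 * ζ ^ 29 + 37 * ζ ^ 30
      + 40 * ζ ^ 31 + 24 * ζ ^ 32 + 39 * ζ ^ 33 + 48 * ζ ^ 34 + 45 * ζ ^ 35 + 75 * ζ ^ 36
      + 56 * ζ ^ 37 + 25 * ζ ^ 38 + 51 * ζ ^ 39) * h1
  have s11 : (77 + 51 * ζ + 69 * ζ ^ 2 + 102 * ζ ^ 3 + 85 * ζ ^ 4 + 44 * ζ ^ 5 + 39 * ζ ^ 6
    + 55 * ζ ^ 7 + 87 * ζ ^ 8 + 98 * ζ ^ 9 + 144 * ζ ^ 10 + 102 * ζ ^ 11 + 71 * ζ ^ 12) * (1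
    - ζ ^ 11 + (ζ ^ 11) ^ 2 + (ζ ^ 11) ^ 4) = 180 + 91 * ζ + 167 * ζ ^ 2 + 215 * ζ ^ 3
    + 204 * ζ ^ 4 + 164 * ζ ^ 5 + 147 * ζ ^ 6 + 128 * ζ ^ 7 + 116 * ζ ^ 8 + 158 * ζ ^ 9
    + 168 * ζ ^ 10 + 133 * ζ ^ 11 + 177 * ζ ^ 12 := by
    linear_combination (103 + 40 * ζ + 98 * ζ ^ 2 + 113 * ζ ^ 3 + 119 * ζ ^ 4 + 120 * ζ ^ 5
      + 108 * ζ ^ 6 + 73 * ζ ^ 7 + 29 * ζ ^ 8 + 60 * ζ ^ 9 + 24 * ζ ^ 10 + 108 * ζ ^ 11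
      + 157 * ζ ^ 12 + 172 * ζ ^ 13 + 142 * ζ ^ 14 + 183 * ζ ^ 15 + 157 * ζ ^ 16 + 158 * ζ ^ 17
      + 175 * ζ ^ 18 + 195 * ζ ^ 19 + 171 * ζ ^ 20 + 173 * ζ ^ 21 + 85 * ζ ^ 22 + 44 * ζ ^ 23
      + 39 * ζ ^ 24 + 55 * ζ ^ 25 + 87 * ζ ^ 26 + 98 * ζ ^ 27 + 144 * ζ ^ 28 + 102 * ζ ^ 29
      + 71 * ζ ^ 30 + 77 * ζ ^ 31 + 51 * ζ ^ 32 + 69 * ζ ^ 33 + 102 * ζ ^ 34 + 85 * ζ ^ 35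
      + 44 * ζ ^ 36 + 39 * ζ ^ 37 + 55 * ζ ^ 38 + 87 * ζ ^ 39 + 98 * ζ ^ 40 + 144 * ζ ^ 41
      + 102 * ζ ^ 42 + 71 * ζ ^ 43) * h1
  have s12 : (180 + 91 * ζ + 167 * ζ ^ 2 + 215 * ζ ^ 3 + 204 * ζ ^ 4 + 164 * ζ ^ 5 + 147 * ζ ^ 6
    + 128 * ζ ^ 7 + 116 * ζ ^ 8 + 158 * ζ ^ 9 + 168 * ζ ^ 10 + 133 * ζ ^ 11 + 177 * ζ ^ 12) * (1
    - ζ ^ 12 + (ζ ^ 12) ^ 2 + (ζ ^ 12) ^ 4) = 460 + 303 * ζ + 303 * ζ ^ 2 + 303 * ζ ^ 3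
    + 303 * ζ ^ 4 + 303 * ζ ^ 5 + 303 * ζ ^ 6 + 303 * ζ ^ 7 + 303 * ζ ^ 8 + 303 * ζ ^ 9
    + 303 * ζ ^ 10 + 303 * ζ ^ 11 + 303 * ζ ^ 12 := by
    linear_combination (280 + 212 * ζ + 136 * ζ ^ 2 + 88 * ζ ^ 3 + 99 * ζ ^ 4 + 139 * ζ ^ 5
      + 156 * ζ ^ 6 + 175 * ζ ^ 7 + 187 * ζ ^ 8 + 145 * ζ ^ 9 + 135 * ζ ^ 10 + 170 * ζ ^ 11
      + 306 * ζ ^ 12 + 371 * ζ ^ 13 + 379 * ζ ^ 14 + 351 * ζ ^ 15 + 292 * ζ ^ 16 + 263 * ζ ^ 17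
      + 286 * ζ ^ 18 + 284 * ζ ^ 19 + 291 * ζ ^ 20 + 345 * ζ ^ 21 + 313 * ζ ^ 22 + 268 * ζ ^ 23
      + 167 * ζ ^ 24 + 215 * ζ ^ 25 + 204 * ζ ^ 26 + 164 * ζ ^ 27 + 147 * ζ ^ 28 + 128 * ζ ^ 29
      + 116 * ζ ^ 30 + 158 * ζ ^ 31 + 168 * ζ ^ 32 + 133 * ζ ^ 33 + 177 * ζ ^ 34 + 180 * ζ ^ 35
      + 91 * ζ ^ 36 + 167 * ζ ^ 37 + 215 * ζ ^ 38 + 204 * ζ ^ 39 + 164 * ζ ^ 40 + 147 * ζ ^ 41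
      + 128 * ζ ^ 42 + 116 * ζ ^ 43 + 158 * ζ ^ 44 + 168 * ζ ^ 45 + 133 * ζ ^ 46
      + 177 * ζ ^ 47) * h1
  rw [s2, s3, s4, s5, s6, s7, s8, s9, s10, s11, s12]
  linear_combination (303 : R) * h2

/-- There is an element of norm `157` in `ℤ[ζ_13]`, namely `1 - ζ + ζ ^ 2 + ζ ^ 4`. -/
theorem exists_norm_157 {K : Type*} [Field K] [NumberField K]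
    [IsCyclotomicExtension {13} ℚ K] :
    ∃ α : 𝓞 K, (Algebra.norm ℤ α).natAbs = 157 := by
  have : Fact (Nat.Prime 13) := ⟨by norm_num⟩
  refine exists_norm_of_prod_eq (p := 13)
    (1 - Polynomial.X + Polynomial.X ^ 2 + Polynomial.X ^ 4 : Polynomial ℤ) 157 ?_
  intro ζ hζ
  have h := cert_157 ζ hζ.pow_eq_one (hζ.geom_sum_eq_zero (by norm_num))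
  simp only [Finset.prod_range_succ, Finset.prod_range_zero, one_mul, zero_add, Nat.reduceAdd,
    Nat.reduceSub, pow_one, map_add, map_sub, map_one, map_pow, Polynomial.aeval_X, Nat.cast_ofNat]
  exact h

end Fermat.Agent.Lib.CyclotomicNormCert
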