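import Mathlib

/-!
# Class number one for `ℚ(ζ₇)`, `ℚ(ζ₁₁)`, `ℚ(ζ₁₃)` from Minkowski's bound

We prove that the ring of integers of the `p`-th cyclotomic field is a principal ideal domain for
`p = 7` (unconditionally) and for `p = 11, 13` assuming the existence of elements of prescribed
norm (which generate the prime ideals of small norm).
-/

open NumberField

namespace Fermat.Agent.Lib.CyclotomicPIDFrame

/-- For distinct primes `ℓ ≠ p`, the order of `ℓ` modulo `p` is positive. -/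
theorem orderOf_natCast_pos {p ℓ : ℕ} [Fact p.Prime] [Fact ℓ.Prime] (hℓp : ℓ ≠ p) :
    0 < orderOf ((ℓ : ℕ) : ZMod p) := by
  have hp : p.Prime := Fact.out
  have hℓ : ℓ.Prime := Fact.out
  have h0 : ((ℓ : ℕ) : ZMod p) ≠ 0 := by
    intro h
    rw [ZMod.natCast_eq_zero_iff] at h
    exact hℓp ((Nat.prime_dvd_prime_iff_eq hp hℓ).mp h).symm
  rw [orderOf_pos_iff, isOfFinOrder_iff_pow_eq_one]
  exact ⟨p - 1, Nat.sub_pos_of_lt hp.one_lt, ZMod.pow_card_sub_one_eq_one h0⟩

/-- For a prime `p` and `f` the order of `ℓ` modulo `p`, we have `ℓ ^ f ≡ 1 mod p`. -/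
theorem pow_orderOf_mod {p ℓ : ℕ} [Fact p.Prime] :
    (ℓ ^ orderOf ((ℓ : ℕ) : ZMod p)) % p = 1 := by
  have hp : p.Prime := Fact.out
  have h1 : ((ℓ ^ orderOf ((ℓ : ℕ) : ZMod p) : ℕ) : ZMod p) = ((1 : ℕ) : ZMod p) := by
    rw [Nat.cast_pow, pow_orderOf_eq_one, Nat.cast_one]
  rw [ZMod.natCast_eq_natCast_iff'] at h1
  rw [h1, Nat.one_mod_eq_one]
  exact hp.ne_one

/-- For distinct primes `ℓ ≠ p`, with `f` the order of `ℓ` modulo `p`, we have `1 < ℓ ^ f`. -/
theorem one_lt_pow_orderOf {p ℓ : ℕ} [Fact p.Prime] [Fact ℓ.Prime] (hℓp : ℓ ≠ p) :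
    1 < ℓ ^ orderOf ((ℓ : ℕ) : ZMod p) :=
  Nat.one_lt_pow (orderOf_natCast_pos hℓp).ne' (Fact.out : ℓ.Prime).one_lt

/-- A power of a prime is not divisible by two distinct primes. -/
theorem false_of_two_primes {ℓ f q : ℕ} (hℓ : ℓ.Prime) (h : ℓ ^ f = q) (r₁ r₂ : ℕ)
    (h₁ : r₁.Prime) (h₂ : r₂.Prime) (h₁₂ : r₁ ≠ r₂) (d₁ : r₁ ∣ q) (d₂ : r₂ ∣ q) : False := by
  subst h
  have e₁ := (Nat.prime_dvd_prime_iff_eq h₁ hℓ).mp (h₁.dvd_of_dvd_pow d₁)
  have e₂ := (Nat.prime_dvd_prime_iff_eq h₂ hℓ).mp (h₂.dvd_of_dvd_pow d₂)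
  exact h₁₂ (e₁.trans e₂.symm)

/-- If `ℓ ≠ p` are primes and `α` is an algebraic integer of the `p`-th cyclotomic field whose
norm is, up to sign, `ℓ ^ f` with `f` the order of `ℓ` modulo `p`, then `α` generates a prime
ideal above `ℓ`. -/
theorem principal_prime_of_norm {p ℓ : ℕ} [Fact p.Prime] [Fact ℓ.Prime] (hℓp : ℓ ≠ p)
    {K : Type*} [Field K] [NumberField K] [IsCyclotomicExtension {p} ℚ K] (α : 𝓞 K)
    (hα : (Algebra.norm ℤ α).natAbs = ℓ ^ orderOf (ℓ : ZMod p)) :
    ∃ P ∈ Ideal.primesOver (Ideal.span {(ℓ : ℤ)}) (𝓞 K), Submodule.IsPrincipal P := by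
  have hp : p.Prime := Fact.out
  have hℓ : ℓ.Prime := Fact.out
  have hf : 0 < orderOf ((ℓ : ℕ) : ZMod p) := orderOf_natCast_pos hℓp
  have hI : Ideal.absNorm (Ideal.span {α}) = ℓ ^ orderOf (ℓ : ZMod p) := by
    rw [Ideal.absNorm_span_singleton, hα]
  obtain ⟨P, hPmax, hPunder, hPdvd⟩ :=
    Ideal.exists_isMaximal_dvd_of_dvd_absNorm' hℓ (Ideal.span {α})
      (by rw [hI]; exact dvd_pow_self ℓ hf.ne')
  have hPprime : P.IsPrime := hPmax.isPrime
  have hPlies : P.LiesOver (Ideal.span {(ℓ : ℤ)}) := ⟨hPunder.symm⟩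
  have hdeg : P.inertiaDeg ℤ = orderOf (ℓ : ZMod p) :=
    IsCyclotomicExtension.Rat.inertiaDeg_eq_of_not_dvd ℓ K P
      (fun h => hℓp ((Nat.prime_dvd_prime_iff_eq hℓ hp).mp h))
  have hPnorm : Ideal.absNorm P = ℓ ^ orderOf (ℓ : ZMod p) := by
    rw [← hdeg, ← Ideal.natAbs_pow_inertiaDeg (ℓ : ℤ) P, Int.natAbs_natCast]
  obtain ⟨J, hJ⟩ := hPdvd
  have hJnorm : Ideal.absNorm J = 1 := by
    have h := congrArg Ideal.absNorm hJ
    rw [map_mul, hI, hPnorm] at h
    have hpos : 0 < ℓ ^ orderOf (ℓ : ZMod p) := pow_pos hℓ.pos _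
    exact (Nat.eq_of_mul_eq_mul_left hpos (by rw [mul_one]; exact h)).symm
  rw [Ideal.absNorm_eq_one_iff] at hJnorm
  rw [hJnorm, Ideal.mul_top] at hJ
  exact ⟨P, ⟨hPprime, hPlies⟩, ⟨α, hJ.symm⟩⟩

/-- The ideal `(ζ - 1)` lies above `p` in the `p`-th cyclotomic field. -/
theorem liesOver_span_zeta_sub_one_prime (p : ℕ) [Fact p.Prime]
    {K : Type*} [Field K] [NumberField K] [hK : IsCyclotomicExtension {p} ℚ K] {ζ : K}
    (hζ : IsPrimitiveRoot ζ p) :
    (Ideal.span {hζ.toInteger - 1}).LiesOver (Ideal.span {(p : ℤ)}) := by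
  rw [← pow_one p] at hK hζ
  exact IsCyclotomicExtension.Rat.liesOver_span_zeta_sub_one p 0 hζ

/-- The prime ideal `(ζ - 1)` above `p` in the `p`-th cyclotomic field is principal. -/
theorem exists_principal_prime_over_self (p : ℕ) [Fact p.Prime]
    {K : Type*} [Field K] [NumberField K] [IsCyclotomicExtension {p} ℚ K] :
    ∃ P ∈ Ideal.primesOver (Ideal.span {(p : ℤ)}) (𝓞 K), Submodule.IsPrincipal P := by
  have hζ := IsCyclotomicExtension.zeta_spec p ℚ K
  exact ⟨Ideal.span {hζ.toInteger - 1},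
    ⟨IsCyclotomicExtension.Rat.isPrime_span_zeta_sub_one' p hζ,
      liesOver_span_zeta_sub_one_prime p hζ⟩, ⟨_, rfl⟩⟩

/-- The general criterion: if `B` is an upper bound for the floor of the Minkowski bound of the
`p`-th cyclotomic field `K`, and for every prime `ℓ ≠ p` with `ℓ ^ f ≤ B` (`f` the order of `ℓ`
modulo `p`) there is an element of norm `± ℓ ^ f`, then `𝓞 K` is a principal ideal domain. -/
theorem pid_of_cert (p : ℕ) [Fact p.Prime]
    {K : Type*} [Field K] [NumberField K] [IsCyclotomicExtension {p} ℚ K] (B : ℕ)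
    (hB : ⌊(4 / Real.pi) ^ InfinitePlace.nrComplexPlaces K *
      ((Module.finrank ℚ K).factorial / (Module.finrank ℚ K) ^ (Module.finrank ℚ K) *
        √|(discr K : ℝ)|)⌋₊ ≤ B)
    (h : ∀ ℓ : ℕ, ℓ.Prime → ℓ ≠ p → ℓ ^ orderOf (ℓ : ZMod p) ≤ B →
      ∃ α : 𝓞 K, (Algebra.norm ℤ α).natAbs = ℓ ^ orderOf (ℓ : ZMod p)) :
    IsPrincipalIdealRing (𝓞 K) := by
  have hp : p.Prime := Fact.out
  have : IsGalois ℚ K := IsCyclotomicExtension.isGalois {p} ℚ K
  apply RingOfIntegers.isPrincipalIdealRing_of_isPrincipal_of_lt_or_isPrincipal_of_mem_primesOver_of_mem_Icc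
  intro ℓ _ hℓ
  by_cases hℓp : ℓ = p
  · subst hℓp
    obtain ⟨P, hP, hPp⟩ := exists_principal_prime_over_self ℓ (K := K)
    exact ⟨P, hP, Or.inr hPp⟩
  · have : Fact ℓ.Prime := ⟨hℓ⟩
    obtain ⟨⟨P, hP1, hP2⟩⟩ := Ideal.nonempty_primesOver (S := 𝓞 K) (Ideal.span {(ℓ : ℤ)})
    have hdeg : P.inertiaDeg ℤ = orderOf (ℓ : ZMod p) :=
      IsCyclotomicExtension.Rat.inertiaDeg_eq_of_not_dvd ℓ K P
        (fun h => hℓp ((Nat.prime_dvd_prime_iff_eq hℓ hp).mp h))
    by_cases hlt : ⌊(4 / Real.pi) ^ InfinitePlace.nrComplexPlaces K *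
      ((Module.finrank ℚ K).factorial / (Module.finrank ℚ K) ^ (Module.finrank ℚ K) *
        √|(discr K : ℝ)|)⌋₊ < ℓ ^ orderOf (ℓ : ZMod p)
    · exact ⟨P, ⟨hP1, hP2⟩, Or.inl (hdeg ▸ hlt)⟩
    · obtain ⟨α, hα⟩ := h ℓ hℓ hℓp (le_trans (not_lt.mp hlt) hB)
      obtain ⟨Q, hQ, hQp⟩ := principal_prime_of_norm hℓp α hα
      exact ⟨Q, hQ, Or.inr hQp⟩

/-- A numerical upper bound for the floor of a Minkowski-type expression, using `π > 3.14` and a
rational upper bound `s` for the square root. -/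
theorem floor_bound (k : ℕ) (c s d : ℝ) (B : ℕ) (hc : 0 ≤ c) (hs : 0 ≤ s) (hd : d ≤ s ^ 2)
    (h : (4 / 3.14) ^ k * (c * s) < B + 1) :
    ⌊(4 / Real.pi) ^ k * (c * √d)⌋₊ ≤ B := by
  have hsqrt : √d ≤ s := (Real.sqrt_le_left hs).mpr hd
  have hpi : (4 : ℝ) / Real.pi ≤ 4 / 3.14 := by
    have := Real.pi_gt_d2
    gcongr
  have h1 : (4 / Real.pi) ^ k * (c * √d) ≤ (4 / 3.14) ^ k * (c * s) := by
    have h0 : (0 : ℝ) ≤ 4 / Real.pi := by positivity
    gcongr
  have h2 : (4 / Real.pi) ^ k * (c * √d) < ((B + 1 : ℕ) : ℝ) := by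
    push_cast
    exact lt_of_le_of_lt h1 h
  have h3 : 0 ≤ (4 / Real.pi) ^ k * (c * √d) := by positivity
  exact Nat.lt_succ_iff.mp ((Nat.floor_lt h3).mpr h2)

/-- The Minkowski bound of `ℚ(ζ₇)` is less than `5`. -/
theorem minkowski_seven {K : Type*} [Field K] [NumberField K] [IsCyclotomicExtension {7} ℚ K] :
    ⌊(4 / Real.pi) ^ InfinitePlace.nrComplexPlaces K *
      ((Module.finrank ℚ K).factorial / (Module.finrank ℚ K) ^ (Module.finrank ℚ K) *
        √|(discr K : ℝ)|)⌋₊ ≤ 4 := by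
  have : Fact (Nat.Prime 7) := ⟨by norm_num⟩
  rw [IsCyclotomicExtension.Rat.discr_prime 7 K,
    IsCyclotomicExtension.finrank (n := 7) K (Polynomial.cyclotomic.irreducible_rat (by simp)),
    IsCyclotomicExtension.Rat.nrComplexPlaces_eq_totient_div_two 7,
    Nat.totient_prime (by norm_num : Nat.Prime 7)]
  have e : |((((-1 : ℤ) ^ ((7 - 1) / 2) * ((7 : ℕ) : ℤ) ^ (7 - 2) : ℤ)) : ℝ)| = 16807 := by
    norm_num
  rw [e]
  refine floor_bound _ _ 130 _ _ (by positivity) (by norm_num) (by norm_num) ?_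
  norm_num [Nat.factorial]

/-- The Minkowski bound of `ℚ(ζ₁₁)` is less than `60`. -/
theorem minkowski_eleven {K : Type*} [Field K] [NumberField K]
    [IsCyclotomicExtension {11} ℚ K] :
    ⌊(4 / Real.pi) ^ InfinitePlace.nrComplexPlaces K *
      ((Module.finrank ℚ K).factorial / (Module.finrank ℚ K) ^ (Module.finrank ℚ K) *
        √|(discr K : ℝ)|)⌋₊ ≤ 59 := by
  have : Fact (Nat.Prime 11) := ⟨by norm_num⟩
  rw [IsCyclotomicExtension.Rat.discr_prime 11 K,
    IsCyclotomicExtension.finrank (n := 11) K (Polynomial.cyclotomic.irreducible_rat (by simp)),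
    IsCyclotomicExtension.Rat.nrComplexPlaces_eq_totient_div_two 11,
    Nat.totient_prime (by norm_num : Nat.Prime 11)]
  have e : |((((-1 : ℤ) ^ ((11 - 1) / 2) * ((11 : ℕ) : ℤ) ^ (11 - 2) : ℤ)) : ℝ)|
      = 2357947691 := by
    norm_num
  rw [e]
  refine floor_bound _ _ 48559 _ _ (by positivity) (by norm_num) (by norm_num) ?_
  norm_num [Nat.factorial]

/-- The Minkowski bound of `ℚ(ζ₁₃)` is less than `308`. -/
theorem minkowski_thirteen {K : Type*} [Field K] [NumberField K]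
    [IsCyclotomicExtension {13} ℚ K] :
    ⌊(4 / Real.pi) ^ InfinitePlace.nrComplexPlaces K *
      ((Module.finrank ℚ K).factorial / (Module.finrank ℚ K) ^ (Module.finrank ℚ K) *
        √|(discr K : ℝ)|)⌋₊ ≤ 307 := by
  have : Fact (Nat.Prime 13) := ⟨by norm_num⟩
  rw [IsCyclotomicExtension.Rat.discr_prime 13 K,
    IsCyclotomicExtension.finrank (n := 13) K (Polynomial.cyclotomic.irreducible_rat (by simp)),
    IsCyclotomicExtension.Rat.nrComplexPlaces_eq_totient_div_two 13,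
    Nat.totient_prime (by norm_num : Nat.Prime 13)]
  have e : |((((-1 : ℤ) ^ ((13 - 1) / 2) * ((13 : ℕ) : ℤ) ^ (13 - 2) : ℤ)) : ℝ)|
      = 1792160394037 := by
    norm_num
  rw [e]
  refine floor_bound _ _ 1338716 _ _ (by positivity) (by norm_num) (by norm_num) ?_
  norm_num [Nat.factorial]

/-- The ring of integers of the `7`-th cyclotomic field is a principal ideal domain. -/
theorem pid_seven {K : Type*} [Field K] [NumberField K] [IsCyclotomicExtension {7} ℚ K] :
    IsPrincipalIdealRing (𝓞 K) := by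
  have : Fact (Nat.Prime 7) := ⟨by norm_num⟩
  refine pid_of_cert 7 4 minkowski_seven (fun ℓ hℓ hℓp hle => ?_)
  have : Fact ℓ.Prime := ⟨hℓ⟩
  have hmod := pow_orderOf_mod (p := 7) (ℓ := ℓ)
  have hlt := one_lt_pow_orderOf hℓp
  omega

/-- The ring of integers of the `11`-th cyclotomic field is a principal ideal domain, provided
that it contains an element of norm `± 23`. -/
theorem pid_eleven_of_norm {K : Type*} [Field K] [NumberField K] [IsCyclotomicExtension {11} ℚ K]
    (h23 : ∃ α : 𝓞 K, (Algebra.norm ℤ α).natAbs = 23) : IsPrincipalIdealRing (𝓞 K) := by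
  have : Fact (Nat.Prime 11) := ⟨by norm_num⟩
  refine pid_of_cert 11 59 minkowski_eleven (fun ℓ hℓ hℓp hle => ?_)
  have : Fact ℓ.Prime := ⟨hℓ⟩
  have hmod := pow_orderOf_mod (p := 11) (ℓ := ℓ)
  have hlt := one_lt_pow_orderOf hℓp
  generalize hq : ℓ ^ orderOf ((ℓ : ℕ) : ZMod 11) = q at hle hmod hlt ⊢
  obtain ⟨j, rfl⟩ : ∃ j, q = 11 * j + 1 := ⟨q / 11, by omega⟩
  have hj1 : 1 ≤ j := by omega
  have hj2 : j ≤ 5 := by omega
  interval_cases j
  · exact (false_of_two_primes hℓ hq 2 3 (by norm_num) (by norm_num) (by norm_num)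
      (by norm_num) (by norm_num)).elim
  · exact h23
  · exact (false_of_two_primes hℓ hq 2 17 (by norm_num) (by norm_num) (by norm_num)
      (by norm_num) (by norm_num)).elim
  · exact (false_of_two_primes hℓ hq 3 5 (by norm_num) (by norm_num) (by norm_num)
      (by norm_num) (by norm_num)).elim
  · exact (false_of_two_primes hℓ hq 2 7 (by norm_num) (by norm_num) (by norm_num)
      (by norm_num) (by norm_num)).elim

/-- The ring of integers of the `13`-th cyclotomic field is a principal ideal domain, provided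
that it contains elements of norm `± 27`, `± 53`, `± 79`, `± 131` and `± 157`. -/
theorem pid_thirteen_of_norm {K : Type*} [Field K] [NumberField K]
    [IsCyclotomicExtension {13} ℚ K]
    (h27 : ∃ α : 𝓞 K, (Algebra.norm ℤ α).natAbs = 27)
    (h53 : ∃ α : 𝓞 K, (Algebra.norm ℤ α).natAbs = 53)
    (h79 : ∃ α : 𝓞 K, (Algebra.norm ℤ α).natAbs = 79)
    (h131 : ∃ α : 𝓞 K, (Algebra.norm ℤ α).natAbs = 131)
    (h157 : ∃ α : 𝓞 K, (Algebra.norm ℤ α).natAbs = 157) : IsPrincipalIdealRing (𝓞 K) := by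
  have : Fact (Nat.Prime 13) := ⟨by norm_num⟩
  refine pid_of_cert 13 307 minkowski_thirteen (fun ℓ hℓ hℓp hle => ?_)
  have : Fact ℓ.Prime := ⟨hℓ⟩
  have hmod := pow_orderOf_mod (p := 13) (ℓ := ℓ)
  have hlt := one_lt_pow_orderOf hℓp
  generalize hq : ℓ ^ orderOf ((ℓ : ℕ) : ZMod 13) = q at hle hmod hlt ⊢
  obtain ⟨j, rfl⟩ : ∃ j, q = 13 * j + 1 := ⟨q / 13, by omega⟩
  have hj1 : 1 ≤ j := by omega
  have hj2 : j ≤ 23 := by omega
  interval_cases j
  · exact (false_of_two_primes hℓ hq 2 7 (by norm_num) (by norm_num) (by norm_num)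
      (by norm_num) (by norm_num)).elim
  · exact h27
  · exact (false_of_two_primes hℓ hq 2 5 (by norm_num) (by norm_num) (by norm_num)
      (by norm_num) (by norm_num)).elim
  · exact h53
  · exact (false_of_two_primes hℓ hq 2 3 (by norm_num) (by norm_num) (by norm_num)
      (by norm_num) (by norm_num)).elim
  · exact h79
  · exact (false_of_two_primes hℓ hq 2 23 (by norm_num) (by norm_num) (by norm_num)
      (by norm_num) (by norm_num)).elim
  · exact (false_of_two_primes hℓ hq 3 5 (by norm_num) (by norm_num) (by norm_num)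
      (by norm_num) (by norm_num)).elim
  · exact (false_of_two_primes hℓ hq 2 59 (by norm_num) (by norm_num) (by norm_num)
      (by norm_num) (by norm_num)).elim
  · exact h131
  · exact (false_of_two_primes hℓ hq 2 3 (by norm_num) (by norm_num) (by norm_num)
      (by norm_num) (by norm_num)).elim
  · exact h157
  · exact (false_of_two_primes hℓ hq 2 5 (by norm_num) (by norm_num) (by norm_num)
      (by norm_num) (by norm_num)).elim
  · exact (false_of_two_primes hℓ hq 3 61 (by norm_num) (by norm_num) (by norm_num)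
      (by norm_num) (by norm_num)).elim
  · exact (false_of_two_primes hℓ hq 2 7 (by norm_num) (by norm_num) (by norm_num)
      (by norm_num) (by norm_num)).elim
  · exact (false_of_two_primes hℓ hq 11 19 (by norm_num) (by norm_num) (by norm_num)
      (by norm_num) (by norm_num)).elim
  · exact (false_of_two_primes hℓ hq 2 3 (by norm_num) (by norm_num) (by norm_num)
      (by norm_num) (by norm_num)).elim
  · exact (false_of_two_primes hℓ hq 5 47 (by norm_num) (by norm_num) (by norm_num)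
      (by norm_num) (by norm_num)).elim
  · exact (false_of_two_primes hℓ hq 2 31 (by norm_num) (by norm_num) (by norm_num)
      (by norm_num) (by norm_num)).elim
  · exact (false_of_two_primes hℓ hq 3 29 (by norm_num) (by norm_num) (by norm_num)
      (by norm_num) (by norm_num)).elim
  · exact (false_of_two_primes hℓ hq 2 137 (by norm_num) (by norm_num) (by norm_num)
      (by norm_num) (by norm_num)).elim
  · exact (false_of_two_primes hℓ hq 7 41 (by norm_num) (by norm_num) (by norm_num)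
      (by norm_num) (by norm_num)).elim
  · exact (false_of_two_primes hℓ hq 2 3 (by norm_num) (by norm_num) (by norm_num)
      (by norm_num) (by norm_num)).elim

end Fermat.Agent.Lib.CyclotomicPIDFrame
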