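import Mathlib

/-!
# Class number one for `ℚ(ζ₇)`, `ℚ(ζ₁₁)`, `ℚ(ζ₁₃)` from Minkowski's bound

We prove that the ring of integers of the `p`-th cyclotomic field is a principal ideal ring for
`p = 7` (unconditionally) and for `p = 11, 13` assuming the existence of elements of prescribed
norms (these generate the prime ideals of small norm).

The method is the standard one: by Minkowski's bound it suffices to show that, for every rational
prime `ℓ` below the bound, some prime ideal above `ℓ` either has norm exceeding the bound or is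
principal.  The norm of a prime above `ℓ ≠ p` is `ℓ ^ f` with `f` the order of `ℓ` modulo `p`,
which is congruent to `1` modulo `p`.
-/

open NumberField

namespace Fermat.Agent.Lib.CyclotomicPIDFrameB

open scoped nonZeroDivisors Real

open Module NumberField InfinitePlace Ideal Nat

local notation "M " K:70 => (4 / π) ^ nrComplexPlaces K *
  ((finrank ℚ K)! / (finrank ℚ K) ^ (finrank ℚ K) * √|discr K|)

/-- `orderOf (ℓ : ZMod p)` is positive when `ℓ ≠ p` are primes. -/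
theorem orderOf_pos_of_ne {p ℓ : ℕ} [Fact p.Prime] [Fact ℓ.Prime] (hℓp : ℓ ≠ p) :
    0 < orderOf (ℓ : ZMod p) := by
  have hne : (ℓ : ZMod p) ≠ 0 := by
    intro h
    rw [ZMod.natCast_eq_zero_iff] at h
    exact hℓp ((Nat.prime_dvd_prime_iff_eq (Fact.out : p.Prime) (Fact.out : ℓ.Prime)).mp h).symm
  rw [orderOf_pos_iff, isOfFinOrder_iff_pow_eq_one]
  exact ⟨p - 1, Nat.sub_pos_of_lt (Fact.out : p.Prime).one_lt, ZMod.pow_card_sub_one_eq_one hne⟩

/-- An element of norm `ℓ ^ f`, with `f` the order of `ℓ` modulo `p`, generates a prime ideal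
above `ℓ` in the `p`-th cyclotomic ring of integers. -/
theorem principal_prime_of_norm {p ℓ : ℕ} [Fact p.Prime] [Fact ℓ.Prime] (hℓp : ℓ ≠ p)
    {K : Type*} [Field K] [NumberField K] [IsCyclotomicExtension {p} ℚ K] (α : 𝓞 K)
    (hα : (Algebra.norm ℤ α).natAbs = ℓ ^ orderOf (ℓ : ZMod p)) :
    ∃ P ∈ Ideal.primesOver (Ideal.span {(ℓ : ℤ)}) (𝓞 K), Submodule.IsPrincipal P := by
  have hp : p.Prime := Fact.out
  have hℓ : ℓ.Prime := Fact.out
  have hf : 0 < orderOf (ℓ : ZMod p) := orderOf_pos_of_ne hℓp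
  have hndvd : ¬ ℓ ∣ p := fun h ↦ hℓp ((Nat.prime_dvd_prime_iff_eq hℓ hp).mp h)
  set I : Ideal (𝓞 K) := Ideal.span {α} with hI
  have hIN : Ideal.absNorm I = ℓ ^ orderOf (ℓ : ZMod p) := by
    rw [hI, Ideal.absNorm_span_singleton, hα]
  have hItop : I ≠ ⊤ := by
    intro h
    rw [← Ideal.absNorm_eq_one_iff, hIN] at h
    exact (Nat.one_lt_pow hf.ne' hℓ.one_lt).ne' h
  obtain ⟨P, hPmax, hIP⟩ := Ideal.exists_le_maximal I hItop
  have hPprime : P.IsPrime := hPmax.isPrime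
  have hℓP : (ℓ : 𝓞 K) ∈ P := by
    have h1 : ((Ideal.absNorm I : ℕ) : 𝓞 K) ∈ P := hIP (Ideal.absNorm_mem I)
    rw [hIN, Nat.cast_pow] at h1
    exact hPprime.mem_of_pow_mem _ h1
  have hlies : P.LiesOver (Ideal.span {(ℓ : ℤ)}) := by
    rw [Ideal.liesOver_iff]
    refine Ideal.IsMaximal.eq_of_le (Int.ideal_span_isMaximal_of_prime ℓ) Ideal.IsPrime.ne_top' ?_
    rw [Ideal.span_singleton_le_iff_mem, Ideal.mem_comap, algebraMap_int_eq, map_natCast]
    exact hℓP
  have hdeg : P.inertiaDeg ℤ = orderOf (ℓ : ZMod p) :=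
    IsCyclotomicExtension.Rat.inertiaDeg_eq_of_not_dvd ℓ K P hndvd
  have hPN : Ideal.absNorm P = ℓ ^ orderOf (ℓ : ZMod p) := by
    rw [← hdeg, Ideal.pow_inertiaDeg ℓ P]
  obtain ⟨J, hJ⟩ := Ideal.dvd_iff_le.mpr hIP
  have hJN : Ideal.absNorm J = 1 := by
    have h2 := congrArg Ideal.absNorm hJ
    rw [map_mul, hIN, hPN] at h2
    have hpos : 0 < ℓ ^ orderOf (ℓ : ZMod p) := Nat.pow_pos hℓ.pos
    exact (Nat.eq_of_mul_eq_mul_left hpos (by rw [mul_one]; exact h2)).symm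
  rw [Ideal.absNorm_eq_one_iff] at hJN
  rw [hJN, Ideal.mul_top] at hJ
  exact ⟨P, ⟨hPprime, hlies⟩, ⟨α, by rw [← hJ]⟩⟩

/-- A number with two distinct prime divisors is not a prime power. -/
theorem not_prime_pow_of_two_primes {ℓ f N : ℕ} (q₁ q₂ : ℕ) (hℓ : ℓ.Prime) (h : ℓ ^ f = N)
    (h₁ : q₁.Prime) (h₂ : q₂.Prime) (hne : q₁ ≠ q₂) (hd₁ : q₁ ∣ N) (hd₂ : q₂ ∣ N) : False := by
  subst h
  have e₁ := (Nat.prime_dvd_prime_iff_eq h₁ hℓ).mp (h₁.dvd_of_dvd_pow hd₁)
  have e₂ := (Nat.prime_dvd_prime_iff_eq h₂ hℓ).mp (h₂.dvd_of_dvd_pow hd₂)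
  exact hne (e₁.trans e₂.symm)

/-- The general criterion: the ring of integers of the `p`-th cyclotomic field is a PID as soon
as every prime power `ℓ ^ f = p * j + 1` below (an upper bound for) the Minkowski bound is the
absolute value of the norm of some integer. -/
theorem pid_of_bound {p : ℕ} [Fact p.Prime] {K : Type*} [Field K] [NumberField K]
    [IsCyclotomicExtension {p} ℚ K] (B : ℕ) (hB : ⌊M K⌋₊ ≤ B)
    (h : ∀ ℓ : ℕ, ℓ.Prime → ∀ f j : ℕ, 1 ≤ j → p * j + 1 ≤ B → ℓ ^ f = p * j + 1 →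
      ∃ α : 𝓞 K, (Algebra.norm ℤ α).natAbs = p * j + 1) :
    IsPrincipalIdealRing (𝓞 K) := by
  have hp : p.Prime := Fact.out
  have : IsGalois ℚ K := IsCyclotomicExtension.isGalois {p} ℚ K
  refine RingOfIntegers.isPrincipalIdealRing_of_isPrincipal_of_lt_or_isPrincipal_of_mem_primesOver_of_mem_Icc
    (fun ℓ _ hℓ ↦ ?_)
  by_cases hℓp : ℓ = p
  · subst hℓp
    obtain ⟨⟨P, hP1, hP2⟩⟩ := (Ideal.span {(ℓ : ℤ)}).nonempty_primesOver (S := 𝓞 K)
    refine ⟨P, ⟨hP1, hP2⟩, Or.inr ?_⟩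
    rw [IsCyclotomicExtension.Rat.eq_span_zeta_sub_one_of_liesOver' ℓ K
      (IsCyclotomicExtension.zeta_spec ℓ ℚ K) P]
    exact ⟨⟨_, rfl⟩⟩
  · have : Fact ℓ.Prime := ⟨hℓ⟩
    have hndvd : ¬ ℓ ∣ p := fun h ↦ hℓp ((Nat.prime_dvd_prime_iff_eq hℓ hp).mp h)
    by_cases hlt : ⌊M K⌋₊ < ℓ ^ orderOf (ℓ : ZMod p)
    · obtain ⟨⟨P, hP1, hP2⟩⟩ := (Ideal.span {(ℓ : ℤ)}).nonempty_primesOver (S := 𝓞 K)
      refine ⟨P, ⟨hP1, hP2⟩, Or.inl ?_⟩
      rw [IsCyclotomicExtension.Rat.inertiaDeg_eq_of_not_dvd ℓ K P hndvd]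
      exact hlt
    · have hf : 0 < orderOf (ℓ : ZMod p) := orderOf_pos_of_ne hℓp
      have hNB : ℓ ^ orderOf (ℓ : ZMod p) ≤ B := (not_lt.mp hlt).trans hB
      have hN2 : 1 < ℓ ^ orderOf (ℓ : ZMod p) := Nat.one_lt_pow hf.ne' hℓ.one_lt
      have hmod : ℓ ^ orderOf (ℓ : ZMod p) % p = 1 := by
        have h1 : ((ℓ ^ orderOf (ℓ : ZMod p) : ℕ) : ZMod p) = ((1 : ℕ) : ZMod p) := by
          rw [Nat.cast_pow, pow_orderOf_eq_one, Nat.cast_one]
        rw [ZMod.natCast_eq_natCast_iff'] at h1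
        rw [h1]
        exact Nat.one_mod_eq_one.mpr hp.ne_one
      have hNeq : ℓ ^ orderOf (ℓ : ZMod p) = p * (ℓ ^ orderOf (ℓ : ZMod p) / p) + 1 := by
        conv_lhs => rw [← Nat.div_add_mod (ℓ ^ orderOf (ℓ : ZMod p)) p, hmod]
      have hj1 : 1 ≤ ℓ ^ orderOf (ℓ : ZMod p) / p := by
        rcases Nat.eq_zero_or_pos (ℓ ^ orderOf (ℓ : ZMod p) / p) with h0 | h0
        · rw [h0, mul_zero, zero_add] at hNeq
          exact absurd hNeq hN2.ne'
        · exact h0
      obtain ⟨α, hα⟩ := h ℓ hℓ _ _ hj1 (hNeq ▸ hNB) hNeq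
      obtain ⟨P, hP, hprinc⟩ := principal_prime_of_norm hℓp α (hα.trans hNeq.symm)
      exact ⟨P, hP, Or.inr hprinc⟩

/-- A rational upper bound for `4 / π`. -/
theorem four_div_pi_le : 4 / π ≤ 200 / 157 := by
  rw [div_le_div_iff₀ Real.pi_pos (by norm_num)]
  nlinarith [Real.pi_gt_d2]

/-- The Minkowski bound of `ℚ(ζ₁₃)` is less than `313`. -/
theorem minkowski_thirteen_le {K : Type*} [Field K] [NumberField K]
    [IsCyclotomicExtension {13} ℚ K] : ⌊M K⌋₊ ≤ 312 := by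
  have : Fact (Nat.Prime 13) := ⟨by norm_num⟩
  rw [IsCyclotomicExtension.Rat.discr_prime 13 K, IsCyclotomicExtension.Rat.finrank 13 K,
    IsCyclotomicExtension.Rat.nrComplexPlaces_eq_totient_div_two 13,
    totient_prime (by norm_num)]
  apply Nat.floor_le_of_le
  have e1 : ((13 - 1) / 2 : ℕ) = 6 := rfl
  have e2 : (13 - 1 : ℕ) = 12 := rfl
  have e3 : (13 - 2 : ℕ) = 11 := rfl
  have e4 : ((12 ! : ℕ) : ℝ) = 479001600 := by
    have : (12 ! : ℕ) = 479001600 := by decide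
    rw [this]; norm_num
  rw [e1, e2, e3, e4]
  have hsqrt : √|(((-1) ^ 6 * ((13 : ℕ) : ℤ) ^ 11 : ℤ) : ℝ)| ≤ 13 ^ 5 * 3.606 := by
    rw [Real.sqrt_le_left (by positivity)]
    norm_num
  have hpi := four_div_pi_le
  calc (4 / π) ^ 6 * (479001600 / ((12 : ℕ) : ℝ) ^ 12 *
          √|(((-1) ^ 6 * ((13 : ℕ) : ℤ) ^ 11 : ℤ) : ℝ)|)
      ≤ (200 / 157) ^ 6 * (479001600 / ((12 : ℕ) : ℝ) ^ 12 * (13 ^ 5 * 3.606)) := by
        gcongr
    _ ≤ ((312 : ℕ) : ℝ) := by norm_num

/-- The Minkowski bound of `ℚ(ζ₁₁)` is less than `67`. -/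
theorem minkowski_eleven_le {K : Type*} [Field K] [NumberField K]
    [IsCyclotomicExtension {11} ℚ K] : ⌊M K⌋₊ ≤ 66 := by
  have : Fact (Nat.Prime 11) := ⟨by norm_num⟩
  rw [IsCyclotomicExtension.Rat.discr_prime 11 K, IsCyclotomicExtension.Rat.finrank 11 K,
    IsCyclotomicExtension.Rat.nrComplexPlaces_eq_totient_div_two 11,
    totient_prime (by norm_num)]
  apply Nat.floor_le_of_le
  have e1 : ((11 - 1) / 2 : ℕ) = 5 := rfl
  have e2 : (11 - 1 : ℕ) = 10 := rfl
  have e3 : (11 - 2 : ℕ) = 9 := rfl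
  have e4 : ((10 ! : ℕ) : ℝ) = 3628800 := by
    have : (10 ! : ℕ) = 3628800 := by decide
    rw [this]; norm_num
  rw [e1, e2, e3, e4]
  have hsqrt : √|(((-1) ^ 5 * ((11 : ℕ) : ℤ) ^ 9 : ℤ) : ℝ)| ≤ 11 ^ 4 * 3.317 := by
    rw [Real.sqrt_le_left (by positivity)]
    norm_num
  have hpi := four_div_pi_le
  calc (4 / π) ^ 5 * (3628800 / ((10 : ℕ) : ℝ) ^ 10 *
          √|(((-1) ^ 5 * ((11 : ℕ) : ℤ) ^ 9 : ℤ) : ℝ)|)
      ≤ (200 / 157) ^ 5 * (3628800 / ((10 : ℕ) : ℝ) ^ 10 * (11 ^ 4 * 3.317)) := by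
        gcongr
    _ ≤ ((66 : ℕ) : ℝ) := by norm_num

/-- The Minkowski bound of `ℚ(ζ₇)` is less than `8`. -/
theorem minkowski_seven_le {K : Type*} [Field K] [NumberField K]
    [IsCyclotomicExtension {7} ℚ K] : ⌊M K⌋₊ ≤ 7 := by
  have : Fact (Nat.Prime 7) := ⟨by norm_num⟩
  rw [IsCyclotomicExtension.Rat.discr_prime 7 K, IsCyclotomicExtension.Rat.finrank 7 K,
    IsCyclotomicExtension.Rat.nrComplexPlaces_eq_totient_div_two 7,
    totient_prime (by norm_num)]
  apply Nat.floor_le_of_le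
  have e1 : ((7 - 1) / 2 : ℕ) = 3 := rfl
  have e2 : (7 - 1 : ℕ) = 6 := rfl
  have e3 : (7 - 2 : ℕ) = 5 := rfl
  have e4 : ((6 ! : ℕ) : ℝ) = 720 := by
    have : (6 ! : ℕ) = 720 := by decide
    rw [this]; norm_num
  rw [e1, e2, e3, e4]
  have hsqrt : √|(((-1) ^ 3 * ((7 : ℕ) : ℤ) ^ 5 : ℤ) : ℝ)| ≤ 7 ^ 2 * 2.646 := by
    rw [Real.sqrt_le_left (by positivity)]
    norm_num
  have hpi := four_div_pi_le
  calc (4 / π) ^ 3 * (720 / ((6 : ℕ) : ℝ) ^ 6 *
          √|(((-1) ^ 3 * ((7 : ℕ) : ℤ) ^ 5 : ℤ) : ℝ)|)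
      ≤ (200 / 157) ^ 3 * (720 / ((6 : ℕ) : ℝ) ^ 6 * (7 ^ 2 * 2.646)) := by
        gcongr
    _ ≤ ((7 : ℕ) : ℝ) := by norm_num

/-- The ring of integers of `ℚ(ζ₁₃)` is a principal ideal ring, given elements of norms
`27, 53, 79, 131, 157`. -/
theorem pid_thirteen_of_norm {K : Type*} [Field K] [NumberField K] [IsCyclotomicExtension {13} ℚ K]
    (h27 : ∃ α : 𝓞 K, (Algebra.norm ℤ α).natAbs = 27)
    (h53 : ∃ α : 𝓞 K, (Algebra.norm ℤ α).natAbs = 53)
    (h79 : ∃ α : 𝓞 K, (Algebra.norm ℤ α).natAbs = 79)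
    (h131 : ∃ α : 𝓞 K, (Algebra.norm ℤ α).natAbs = 131)
    (h157 : ∃ α : 𝓞 K, (Algebra.norm ℤ α).natAbs = 157) : IsPrincipalIdealRing (𝓞 K) := by
  have : Fact (Nat.Prime 13) := ⟨by norm_num⟩
  refine pid_of_bound (p := 13) 312 minkowski_thirteen_le (fun ℓ hℓ f j hj1 hjB hpow ↦ ?_)
  have hj23 : j ≤ 23 := by omega
  interval_cases j
  · exact (not_prime_pow_of_two_primes 2 7 hℓ hpow (by norm_num) (by norm_num)
      (by norm_num) (by norm_num) (by norm_num)).elim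
  · exact h27
  · exact (not_prime_pow_of_two_primes 2 5 hℓ hpow (by norm_num) (by norm_num)
      (by norm_num) (by norm_num) (by norm_num)).elim
  · exact h53
  · exact (not_prime_pow_of_two_primes 2 3 hℓ hpow (by norm_num) (by norm_num)
      (by norm_num) (by norm_num) (by norm_num)).elim
  · exact h79
  · exact (not_prime_pow_of_two_primes 2 23 hℓ hpow (by norm_num) (by norm_num)
      (by norm_num) (by norm_num) (by norm_num)).elim
  · exact (not_prime_pow_of_two_primes 3 5 hℓ hpow (by norm_num) (by norm_num)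
      (by norm_num) (by norm_num) (by norm_num)).elim
  · exact (not_prime_pow_of_two_primes 2 59 hℓ hpow (by norm_num) (by norm_num)
      (by norm_num) (by norm_num) (by norm_num)).elim
  · exact h131
  · exact (not_prime_pow_of_two_primes 2 3 hℓ hpow (by norm_num) (by norm_num)
      (by norm_num) (by norm_num) (by norm_num)).elim
  · exact h157
  · exact (not_prime_pow_of_two_primes 2 5 hℓ hpow (by norm_num) (by norm_num)
      (by norm_num) (by norm_num) (by norm_num)).elim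
  · exact (not_prime_pow_of_two_primes 3 61 hℓ hpow (by norm_num) (by norm_num)
      (by norm_num) (by norm_num) (by norm_num)).elim
  · exact (not_prime_pow_of_two_primes 2 7 hℓ hpow (by norm_num) (by norm_num)
      (by norm_num) (by norm_num) (by norm_num)).elim
  · exact (not_prime_pow_of_two_primes 11 19 hℓ hpow (by norm_num) (by norm_num)
      (by norm_num) (by norm_num) (by norm_num)).elim
  · exact (not_prime_pow_of_two_primes 2 3 hℓ hpow (by norm_num) (by norm_num)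
      (by norm_num) (by norm_num) (by norm_num)).elim
  · exact (not_prime_pow_of_two_primes 5 47 hℓ hpow (by norm_num) (by norm_num)
      (by norm_num) (by norm_num) (by norm_num)).elim
  · exact (not_prime_pow_of_two_primes 2 31 hℓ hpow (by norm_num) (by norm_num)
      (by norm_num) (by norm_num) (by norm_num)).elim
  · exact (not_prime_pow_of_two_primes 3 29 hℓ hpow (by norm_num) (by norm_num)
      (by norm_num) (by norm_num) (by norm_num)).elim
  · exact (not_prime_pow_of_two_primes 2 137 hℓ hpow (by norm_num) (by norm_num)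
      (by norm_num) (by norm_num) (by norm_num)).elim
  · exact (not_prime_pow_of_two_primes 7 41 hℓ hpow (by norm_num) (by norm_num)
      (by norm_num) (by norm_num) (by norm_num)).elim
  · exact (not_prime_pow_of_two_primes 2 3 hℓ hpow (by norm_num) (by norm_num)
      (by norm_num) (by norm_num) (by norm_num)).elim

/-- The ring of integers of `ℚ(ζ₁₁)` is a principal ideal ring, given an element of norm `23`. -/
theorem pid_eleven_of_norm {K : Type*} [Field K] [NumberField K] [IsCyclotomicExtension {11} ℚ K]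
    (h23 : ∃ α : 𝓞 K, (Algebra.norm ℤ α).natAbs = 23) : IsPrincipalIdealRing (𝓞 K) := by
  have : Fact (Nat.Prime 11) := ⟨by norm_num⟩
  refine pid_of_bound (p := 11) 66 minkowski_eleven_le (fun ℓ hℓ f j hj1 hjB hpow ↦ ?_)
  have hj5 : j ≤ 5 := by omega
  interval_cases j
  · exact (not_prime_pow_of_two_primes 2 3 hℓ hpow (by norm_num) (by norm_num)
      (by norm_num) (by norm_num) (by norm_num)).elim
  · exact h23
  · exact (not_prime_pow_of_two_primes 2 17 hℓ hpow (by norm_num) (by norm_num)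
      (by norm_num) (by norm_num) (by norm_num)).elim
  · exact (not_prime_pow_of_two_primes 3 5 hℓ hpow (by norm_num) (by norm_num)
      (by norm_num) (by norm_num) (by norm_num)).elim
  · exact (not_prime_pow_of_two_primes 2 7 hℓ hpow (by norm_num) (by norm_num)
      (by norm_num) (by norm_num) (by norm_num)).elim

/-- The ring of integers of `ℚ(ζ₇)` is a principal ideal ring. -/
theorem pid_seven {K : Type*} [Field K] [NumberField K] [IsCyclotomicExtension {7} ℚ K] :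
    IsPrincipalIdealRing (𝓞 K) := by
  have : Fact (Nat.Prime 7) := ⟨by norm_num⟩
  refine pid_of_bound (p := 7) 7 minkowski_seven_le (fun ℓ hℓ f j hj1 hjB hpow ↦ ?_)
  omega

end Fermat.Agent.Lib.CyclotomicPIDFrameB
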