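/-
Shared library file (helper9, for S11 / S10): ring homomorphisms out of the ring of integers of a
prime cyclotomic field.  `𝓞 K = ℤ[ζ] ≅ ℤ[X]/(1 + X + ⋯ + X^(p-1))`, so a ring hom `𝓞 K →+* S`
sending `ζ` to `y` exists as soon as `1 + y + ⋯ + y^(p-1) = 0` in the commutative ring `S`.
-/
import Mathlib

set_option autoImplicit false

namespace Fermat.Agent.Lib.CyclotomicRingHom

open NumberField Polynomial

/-- Ring homs out of `𝓞 K` for `K` the `p`-th cyclotomic field (`p` prime): for every `y` in a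
commutative ring `S` with `∑ i < p, y ^ i = 0` there is a ring hom `𝓞 K →+* S` mapping `ζ` to `y`. -/
theorem exists_ringHom_of_root {p : ℕ} [hp : Fact p.Prime] {K : Type*} [Field K] [NumberField K]
    [IsCyclotomicExtension {p} ℚ K] {ζ : K} (hζ : IsPrimitiveRoot ζ p)
    {S : Type*} [CommRing S] (y : S) (hy : ∑ i ∈ Finset.range p, y ^ i = 0) :
    ∃ φ : 𝓞 K →+* S, φ hζ.toInteger = y := by
  have : NeZero p := ⟨hp.out.ne_zero⟩
  have hmin : minpoly ℤ hζ.integralPowerBasis.gen = cyclotomic p ℤ := by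
    rw [hζ.integralPowerBasis_gen, cyclotomic_eq_minpoly hζ hp.out.pos,
      ← RingOfIntegers.minpoly_coe hζ.toInteger]
    rfl
  have hy' : aeval y (minpoly ℤ hζ.integralPowerBasis.gen) = 0 := by
    rw [hmin, cyclotomic_prime]
    simpa using hy
  refine ⟨(hζ.integralPowerBasis.lift y hy').toRingHom, ?_⟩
  have := hζ.integralPowerBasis.lift_gen y hy'
  rw [hζ.integralPowerBasis_gen] at this
  exact this

end Fermat.Agent.Lib.CyclotomicRingHom
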