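import Mathlib

/-!
Wiring lemma: Fermat's Last Theorem for an odd prime exponent `p` (coprime form over `ℤ`)
follows from case I (`p ∤ abc`) and case II in the normalised form `p ∣ c`.
-/

namespace Fermat.Agent.Lib.FLTWiring

theorem isCoprime_of_add_pow_eq {p : ℕ} (hp : 0 < p) {a b c : ℤ} (hab : IsCoprime a b)
    (h : a ^ p + b ^ p = c ^ p) : IsCoprime c b := by
  have h1 : IsCoprime (a ^ p) b := (IsCoprime.pow_left_iff hp).mpr hab
  have h2 : IsCoprime (a ^ p + b * b ^ (p - 1)) b := h1.add_mul_left_left (b ^ (p - 1))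
  have h3 : b * b ^ (p - 1) = b ^ p := by
    rw [← pow_succ']
    congr 1
    omega
  rw [h3, h] at h2
  exact (IsCoprime.pow_left_iff hp).mp h2

theorem flt_of_caseI_caseII {p : ℕ} (hp : p.Prime) (hodd : p ≠ 2)
    (hI : ∀ a b c : ℤ, IsCoprime a b → ¬ (p : ℤ) ∣ a * b * c → a ^ p + b ^ p ≠ c ^ p)
    (hII : ∀ a b c : ℤ, IsCoprime a b → c ≠ 0 → (p : ℤ) ∣ c → a ^ p + b ^ p ≠ c ^ p)
    {a b c : ℤ} (ha : a ≠ 0) (hb : b ≠ 0) (hc : c ≠ 0) (hab : IsCoprime a b) :
    a ^ p + b ^ p ≠ c ^ p := by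
  intro h
  have hodd' : Odd p := hp.odd_of_ne_two hodd
  have hcb : IsCoprime c b := isCoprime_of_add_pow_eq hp.pos hab h
  have hca : IsCoprime c a :=
    isCoprime_of_add_pow_eq hp.pos hab.symm (by rw [add_comm]; exact h)
  by_cases hdiv : (p : ℤ) ∣ a * b * c
  · have hpp : Prime (p : ℤ) := Nat.prime_iff_prime_int.mp hp
    rcases hpp.dvd_or_dvd hdiv with h1 | h1
    · rcases hpp.dvd_or_dvd h1 with h2 | h2
      · exact hII c (-b) a hcb.neg_right ha h2 (by rw [hodd'.neg_pow]; linarith)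
      · exact hII c (-a) b hca.neg_right hb h2 (by rw [hodd'.neg_pow]; linarith)
    · exact hII a b c hab hc h1 h
  · exact hI a b c hab hdiv h

end Fermat.Agent.Lib.FLTWiring
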