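import Mathlib

/-!
# Kummer's descent for case II of Fermat's Last Theorem (generic in `p`)

Abstract setting: a principal ideal domain `R` with a primitive `p`-th root of unity `ζ`
such that `ζ - 1` is prime, `(ζ - 1)^(p-1) ~ p`, every element is congruent to a rational integer
modulo `ζ - 1`, every `p`-th power is congruent to a rational integer modulo `p`, and
Kummer's lemma holds.
-/

open Polynomial Finset

namespace Fermat.Agent.Lib.KummerCaseII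

/-- The abstract hypotheses for Kummer's descent. -/
structure Setting {R : Type*} [CommRing R] (p : ℕ) (ζ : R) : Prop where
  prime : p.Prime
  odd : Odd p
  prim : IsPrimitiveRoot ζ p
  lam_prime : Prime (ζ - 1)
  assoc : Associated ((ζ - 1) ^ (p - 1)) (p : R)
  mod_lam : ∀ x : R, ∃ n : ℤ, ζ - 1 ∣ x - n
  int_dvd : ∀ n : ℤ, ζ - 1 ∣ (n : R) → (p : ℤ) ∣ n
  pow_int : ∀ x : R, ∃ n : ℤ, (p : R) ∣ x ^ p - n
  kummer : ∀ u : Rˣ, (∃ n : ℤ, (p : R) ∣ (u : R) - n) → ∃ v : Rˣ, u = v ^ p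

/-- A solution of the generalised Fermat equation at level `m`. -/
def Sol {R : Type*} [CommRing R] (p : ℕ) (ζ : R) (m : ℕ) : Prop :=
  ∃ (x y z : R) (ε : Rˣ), ¬ (ζ - 1) ∣ y ∧ ¬ (ζ - 1) ∣ z ∧ IsCoprime x y ∧
    x ^ p + y ^ p = ε * (ζ - 1) ^ (p * m) * z ^ p

section descent

variable {R : Type*} [CommRing R] [IsDomain R] {p : ℕ} {ζ : R}

/-- `ζ - 1` divides the difference of two `p`-th roots of unity. -/
theorem lam_dvd_sub (S : Setting p ζ) {η₁ η₂ : R} (h₁ : η₁ ∈ nthRootsFinset p (1 : R))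
    (h₂ : η₂ ∈ nthRootsFinset p (1 : R)) : ζ - 1 ∣ η₁ - η₂ :=
  S.prim.sub_one_dvd_sub S.prime h₁ h₂

theorem one_mem (S : Setting p ζ) : (1 : R) ∈ nthRootsFinset p (1 : R) :=
  one_mem_nthRootsFinset S.prime.pos

theorem zeta_mem (S : Setting p ζ) : ζ ∈ nthRootsFinset p (1 : R) :=
  (mem_nthRootsFinset S.prime.pos 1).2 S.prim.pow_eq_one

theorem zeta_pow_mem (S : Setting p ζ) (k : ℕ) : ζ ^ k ∈ nthRootsFinset p (1 : R) := by
  rw [mem_nthRootsFinset S.prime.pos 1, ← pow_mul, mul_comm, pow_mul, S.prim.pow_eq_one, one_pow]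

/-- Step A: `ζ - 1` divides every factor `x + η y`. -/
theorem stepA (S : Setting p ζ) {x y z : R} {ε : Rˣ} {m : ℕ} (hm : 1 ≤ m)
    (h : x ^ p + y ^ p = ε * (ζ - 1) ^ (p * m) * z ^ p) {η : R}
    (hη : η ∈ nthRootsFinset p (1 : R)) : ζ - 1 ∣ x + η * y := by
  have hprod := S.prim.pow_add_pow_eq_prod_add_mul x y S.odd
  have hdvd : ζ - 1 ∣ ∏ η ∈ nthRootsFinset p (1 : R), (x + η * y) := by
    rw [← hprod, h]
    have : ζ - 1 ∣ (ζ - 1) ^ (p * m) :=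
      dvd_pow_self _ (Nat.mul_ne_zero S.prime.ne_zero (by omega))
    exact Dvd.dvd.mul_right (Dvd.dvd.mul_left this _) _
  obtain ⟨η₁, hη₁, hdiv⟩ := (Prime.dvd_finsetProd_iff S.lam_prime _).1 hdvd
  have h2 : ζ - 1 ∣ (η - η₁) * y := Dvd.dvd.mul_right (lam_dvd_sub S hη hη₁) _
  have : x + η * y = (x + η₁ * y) + (η - η₁) * y := by ring
  rw [this]
  exact dvd_add hdiv h2

theorem lam_dvd_p (S : Setting p ζ) : ζ - 1 ∣ (p : R) :=
  S.prim.sub_one_dvd_natCast S.prime.one_lt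

theorem lam_dvd_int (S : Setting p ζ) {n : ℤ} (h : (p : ℤ) ∣ n) : ζ - 1 ∣ (n : R) := by
  obtain ⟨c, rfl⟩ := h
  push_cast
  exact Dvd.dvd.mul_right (lam_dvd_p S) _

omit [IsDomain R] in
theorem lam_dvd_geom_sub (k : ℕ) : ζ - 1 ∣ (∑ i ∈ range k, ζ ^ i) - (k : R) := by
  induction k with
  | zero => simp
  | succ n ih =>
    rw [Finset.sum_range_succ]
    have h1 : ζ - 1 ∣ ζ ^ n - 1 := sub_one_dvd_pow_sub_one ζ n
    have : (∑ i ∈ range n, ζ ^ i + ζ ^ n) - ((n + 1 : ℕ) : R)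
        = ((∑ i ∈ range n, ζ ^ i) - (n : R)) + (ζ ^ n - 1) := by push_cast; ring
    rw [this]
    exact dvd_add ih h1

/-- Step B: some factor `x + ζ^k y` is divisible by `(ζ - 1)^2`. -/
theorem stepB (S : Setting p ζ) {x y : R} (hy : ¬ ζ - 1 ∣ y) (hxy : ζ - 1 ∣ x + y) :
    ∃ k : ℕ, (ζ - 1) ^ 2 ∣ x + ζ ^ k * y := by
  obtain ⟨t, ht⟩ := hxy
  obtain ⟨t₀, ht₀⟩ := S.mod_lam t
  obtain ⟨y₀, hy₀⟩ := S.mod_lam y
  have hpp : Prime (p : ℤ) := Nat.prime_iff_prime_int.mp S.prime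
  have hpy₀ : ¬ (p : ℤ) ∣ y₀ := by
    intro hdiv
    have h1 : ζ - 1 ∣ (y₀ : R) := lam_dvd_int S hdiv
    have h2 : ζ - 1 ∣ (y - y₀) + y₀ := dvd_add hy₀ h1
    rw [sub_add_cancel] at h2
    exact hy h2
  obtain ⟨r, s, hrs⟩ : IsCoprime (p : ℤ) y₀ := (Prime.coprime_iff_not_dvd hpp).2 hpy₀
  -- r * p + s * y₀ = 1 ; choose k ≡ - t₀ * s mod p
  set k : ℕ := ((-t₀ * s) % (p : ℤ)).toNat with hk
  have hpos : (0 : ℤ) < p := by exact_mod_cast S.prime.pos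
  have hkcast : (k : ℤ) = (-t₀ * s) % (p : ℤ) :=
    Int.toNat_of_nonneg (Int.emod_nonneg _ hpos.ne')
  have hkdvd : (p : ℤ) ∣ t₀ + k * y₀ := by
    have h1 : (p : ℤ) ∣ (-t₀ * s) - (k : ℤ) := Int.dvd_self_sub_of_emod_eq hkcast.symm
    obtain ⟨d, hd⟩ := h1
    refine ⟨t₀ * r - d * y₀, ?_⟩
    linear_combination (-t₀) * hrs - y₀ * hd
  refine ⟨k, ?_⟩
  have hgeom : ζ ^ k - 1 = (ζ - 1) * ∑ i ∈ range k, ζ ^ i := (mul_geom_sum ζ k).symm
  have hrew : x + ζ ^ k * y = (ζ - 1) * (t + (∑ i ∈ range k, ζ ^ i) * y) := by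
    have : x + ζ ^ k * y = (x + y) + (ζ ^ k - 1) * y := by ring
    rw [this, ht, hgeom]; ring
  rw [hrew, pow_two]
  apply mul_dvd_mul_left
  have h3 : ζ - 1 ∣ ((t₀ + k * y₀ : ℤ) : R) := lam_dvd_int S hkdvd
  have h4 := lam_dvd_geom_sub (ζ := ζ) k
  have : t + (∑ i ∈ range k, ζ ^ i) * y
      = (t - t₀) + ((∑ i ∈ range k, ζ ^ i) - (k : R)) * y + (k : R) * (y - y₀)
        + ((t₀ + k * y₀ : ℤ) : R) := by push_cast; ring
  rw [this]
  exact dvd_add (dvd_add (dvd_add ht₀ (Dvd.dvd.mul_right h4 _)) (Dvd.dvd.mul_left hy₀ _)) h3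

/-- Step D: the cofactors are pairwise coprime. -/
theorem stepD (S : Setting p ζ) {x y : R} (hxy : IsCoprime x y) {c : R → R}
    (hc : ∀ η ∈ nthRootsFinset p (1 : R), x + η * y = (ζ - 1) * c η)
    {η₁ η₂ : R} (h₁ : η₁ ∈ nthRootsFinset p (1 : R)) (h₂ : η₂ ∈ nthRootsFinset p (1 : R))
    (hne : η₁ ≠ η₂) : IsCoprime (c η₁) (c η₂) := by
  obtain ⟨u, hu⟩ :=
    S.prim.nthRootsFinset_pairwise_associated_sub_one_sub_of_prime S.prime h₁ h₂ hne
  have hlam : ζ - 1 ≠ 0 := S.lam_prime.ne_zero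
  have e1 : c η₁ - c η₂ = u * y := by
    apply mul_left_cancel₀ hlam
    linear_combination (-1 : R) * hc η₁ h₁ + hc η₂ h₂ - y * hu
  have e2 : η₁ * c η₂ - η₂ * c η₁ = u * x := by
    apply mul_left_cancel₀ hlam
    linear_combination η₂ * hc η₁ h₁ - η₁ * hc η₂ h₂ - x * hu
  obtain ⟨r, s, hrs⟩ := hxy
  refine ⟨(s - r * η₂) * ↑u⁻¹, (r * η₁ - s) * ↑u⁻¹, ?_⟩
  have hu' : (u : R) * ↑u⁻¹ = 1 := Units.mul_inv u
  linear_combination (s * ↑u⁻¹) * e1 + (r * ↑u⁻¹) * e2 + (r * x + s * y) * hu' + hrs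

/-- In a PID, pairwise coprime factors of (a unit times) a `k`-th power are associated to
`k`-th powers. -/
theorem prod_assoc_pow [IsPrincipalIdealRing R] {ι : Type*} [DecidableEq ι] {s : Finset ι}
    {f : ι → R} {ε : Rˣ} {z : R} {k : ℕ}
    (hcop : ∀ i ∈ s, ∀ j ∈ s, i ≠ j → IsCoprime (f i) (f j))
    (hprod : ∏ i ∈ s, f i = ε * z ^ k) : ∀ i ∈ s, ∃ d : R, Associated (d ^ k) (f i) := by
  intro i hi
  have h1 : f i * ∏ j ∈ s.erase i, f j = ε * z ^ k := by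
    rw [Finset.mul_prod_erase s f hi, hprod]
  have h2 : IsCoprime (f i) (∏ j ∈ s.erase i, f j) :=
    IsCoprime.prod_right fun j hj =>
      hcop i hi j (Finset.mem_of_mem_erase hj) (Finset.ne_of_mem_erase hj).symm
  refine exists_associated_pow_of_associated_pow_mul h2 (c := z) ?_
  rw [h1]
  exact (associated_unit_mul_left _ _ ε.isUnit).symm

/-- The main descent step, after normalising so that `(ζ - 1)^2 ∣ x + y`. -/
theorem step_main [IsPrincipalIdealRing R] (S : Setting p ζ) {x y z : R} {ε : Rˣ} {m : ℕ}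
    (hm : 1 ≤ m) (hy : ¬ ζ - 1 ∣ y) (hz : ¬ ζ - 1 ∣ z) (hxy : IsCoprime x y)
    (h : x ^ p + y ^ p = ε * (ζ - 1) ^ (p * m) * z ^ p) (h0 : (ζ - 1) ^ 2 ∣ x + y) :
    2 ≤ m ∧ Sol p ζ (m - 1) := by
  classical
  have hp := S.prime
  have hlam := S.lam_prime
  have hlam0 : ζ - 1 ≠ 0 := hlam.ne_zero
  have hp3 : 3 ≤ p := by
    have h2 := hp.two_le
    obtain ⟨j, hj⟩ := S.odd
    omega
  set μ := nthRootsFinset p (1 : R) with hμ
  have h1μ : (1 : R) ∈ μ := one_mem S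
  have hA : ∀ η ∈ μ, ζ - 1 ∣ x + η * y := fun η hη => stepA S hm h hη
  choose! c hc using hA
  -- Step C
  have hC : ∀ η ∈ μ, η ≠ 1 → ¬ ζ - 1 ∣ c η := by
    intro η hη hne hdiv
    obtain ⟨u, hu⟩ :=
      S.prim.nthRootsFinset_pairwise_associated_sub_one_sub_of_prime hp hη h1μ hne
    obtain ⟨d, hd⟩ := hdiv
    obtain ⟨e, he⟩ := h0
    have h3 : (ζ - 1) * (u * y) = (ζ - 1) * ((ζ - 1) * (d - e)) := by
      have := hc η hη
      rw [hd] at this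
      linear_combination y * hu + this - he
    have h4 := mul_left_cancel₀ hlam0 h3
    exact hy ((IsUnit.dvd_mul_left u.isUnit).1 ⟨d - e, h4⟩)
  set Q := ∏ η ∈ μ.erase 1, c η with hQ
  have hQlam : ¬ ζ - 1 ∣ Q := by
    intro hdiv
    obtain ⟨η, hη, hd⟩ := (Prime.dvd_finsetProd_iff hlam _).1 hdiv
    exact hC η (Finset.mem_of_mem_erase hη) (Finset.ne_of_mem_erase hη) hd
  have hcard : μ.card = p := S.prim.card_nthRootsFinset
  have hprod : (x + y) * ((ζ - 1) ^ (p - 1) * Q) = ε * (ζ - 1) ^ (p * m) * z ^ p := by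
    rw [← h, S.prim.pow_add_pow_eq_prod_add_mul x y S.odd, ← Finset.mul_prod_erase μ _ h1μ,
      one_mul]
    congr 1
    calc (ζ - 1) ^ (p - 1) * Q = ∏ η ∈ μ.erase 1, ((ζ - 1) * c η) := by
          rw [Finset.prod_mul_distrib, Finset.prod_const, Finset.card_erase_of_mem h1μ, hcard]
      _ = ∏ η ∈ μ.erase 1, (x + η * y) :=
          Finset.prod_congr rfl fun η hη => (hc η (Finset.mem_of_mem_erase hη)).symm
  have hexp : p * m = (p - 1) + (p * (m - 1) + 1) := by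
    obtain ⟨m', rfl⟩ : ∃ m', m = m' + 1 := ⟨m - 1, by omega⟩
    simp only [Nat.add_sub_cancel]
    rw [Nat.mul_succ]
    omega
  have hprod2 : (x + y) * Q = (ζ - 1) ^ (p * (m - 1) + 1) * (ε * z ^ p) := by
    apply mul_left_cancel₀ (pow_ne_zero (p - 1) hlam0)
    rw [hexp, pow_add] at hprod
    linear_combination hprod
  have hdvd0 : (ζ - 1) ^ (p * (m - 1) + 1) ∣ x + y :=
    hlam.pow_dvd_of_dvd_mul_right _ hQlam ⟨_, hprod2⟩
  obtain ⟨c₀, hc₀⟩ := hdvd0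
  have hc₀Q : c₀ * Q = ε * z ^ p := by
    apply mul_left_cancel₀ (pow_ne_zero (p * (m - 1) + 1) hlam0)
    rw [← hprod2, hc₀]
    ring
  have hc₀lam : ¬ ζ - 1 ∣ c₀ := by
    intro hdiv
    have h1 : ζ - 1 ∣ (ε : R) * z ^ p := hc₀Q ▸ Dvd.dvd.mul_right hdiv Q
    exact hz (hlam.dvd_of_dvd_pow ((IsUnit.dvd_mul_left ε.isUnit).1 h1))
  have hm2 : 2 ≤ m := by
    by_contra hlt
    have hm1 : m = 1 := by omega
    subst hm1
    simp only [Nat.sub_self, mul_zero, zero_add, pow_one] at hc₀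
    obtain ⟨e, he⟩ := h0
    rw [hc₀, pow_two, mul_assoc] at he
    exact hc₀lam ⟨e, mul_left_cancel₀ hlam0 he⟩
  refine ⟨hm2, ?_⟩
  have hc1 : c 1 = (ζ - 1) ^ (p * (m - 1)) * c₀ := by
    apply mul_left_cancel₀ hlam0
    rw [← hc 1 h1μ, one_mul, hc₀, pow_succ]
    ring
  have hcop : ∀ η₁ ∈ μ, ∀ η₂ ∈ μ, η₁ ≠ η₂ → IsCoprime (c η₁) (c η₂) :=
    fun η₁ h₁ η₂ h₂ hne => stepD S hxy hc h₁ h₂ hne
  have hgdvd : ∀ η, Function.update c 1 c₀ η ∣ c η := by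
    intro η
    by_cases hη : η = 1
    · subst hη
      rw [Function.update_self, hc1]
      exact Dvd.intro_left _ rfl
    · rw [Function.update_of_ne hη]
  have hgcop : ∀ η₁ ∈ μ, ∀ η₂ ∈ μ, η₁ ≠ η₂ →
      IsCoprime (Function.update c 1 c₀ η₁) (Function.update c 1 c₀ η₂) :=
    fun η₁ h₁ η₂ h₂ hne => IsCoprime.of_isCoprime_of_dvd_left
      (IsCoprime.of_isCoprime_of_dvd_right (hcop η₁ h₁ η₂ h₂ hne) (hgdvd η₂)) (hgdvd η₁)
  have hgprod : ∏ η ∈ μ, Function.update c 1 c₀ η = ε * z ^ p := by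
    rw [Finset.prod_update_of_mem h1μ, Finset.sdiff_singleton_eq_erase, ← hQ, hc₀Q]
  have hpow := prod_assoc_pow hgcop hgprod
  have hζμ : ζ ∈ μ := zeta_mem S
  have hζ'μ : ζ ^ (p - 1) ∈ μ := zeta_pow_mem S _
  have hζ1 : ζ ≠ 1 := S.prim.ne_one hp.one_lt
  have hζ'1 : ζ ^ (p - 1) ≠ 1 := S.prim.pow_ne_one_of_pos_of_lt (by omega) (by omega)
  have hζζ' : ζ ≠ ζ ^ (p - 1) := by
    intro heq
    have := S.prim.pow_inj (i := 1) (j := p - 1) (by omega) (by omega) (by simpa using heq)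
    omega
  obtain ⟨ρ₁, ε₁, h₁⟩ := hpow ζ hζμ
  obtain ⟨ρ₂, ε₂, h₂⟩ := hpow (ζ ^ (p - 1)) hζ'μ
  obtain ⟨ρ₀, ε₀, h₀⟩ := hpow 1 h1μ
  rw [Function.update_of_ne hζ1] at h₁
  rw [Function.update_of_ne hζ'1] at h₂
  rw [Function.update_self] at h₀
  have E1 : x + ζ * y = (ζ - 1) * (ρ₁ ^ p * ε₁) := by rw [h₁]; exact hc ζ hζμ
  have E2 : x + ζ ^ (p - 1) * y = (ζ - 1) * (ρ₂ ^ p * ε₂) := by rw [h₂]; exact hc _ hζ'μ
  have E0 : x + y = (ζ - 1) ^ (p * (m - 1)) * (ζ - 1) * (ρ₀ ^ p * ε₀) := by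
    rw [h₀, ← pow_succ]; exact hc₀
  have hζp : ζ * ζ ^ (p - 1) = 1 := by
    rw [← pow_succ', Nat.sub_add_cancel hp.one_le, S.prim.pow_eq_one]
  have key0 : ρ₁ ^ p * ε₁ + ζ * (ρ₂ ^ p * ε₂)
      = (1 + ζ) * (ζ - 1) ^ (p * (m - 1)) * (ρ₀ ^ p * ε₀) := by
    apply mul_left_cancel₀ hlam0
    linear_combination (-1 : R) * E1 - ζ * E2 + (1 + ζ) * E0 + y * hζp
  -- units
  have hζu : IsUnit ζ := S.prim.isUnit hp.ne_zero
  have h1ζu : IsUnit (1 + ζ) := by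
    have h2p : Nat.Coprime 2 p := (Nat.coprime_primes Nat.prime_two hp).2 (by omega)
    have := S.prim.geom_sum_isUnit hp.two_le h2p
    simpa [Finset.sum_range_succ] using this
  set η : Rˣ := hζu.unit * ε₂ * ε₁⁻¹ with hη
  set ε' : Rˣ := h1ζu.unit * ε₀ * ε₁⁻¹ with hε'
  have hinv : (ε₁ : R) * ↑ε₁⁻¹ = 1 := Units.mul_inv ε₁
  have key1 : ρ₁ ^ p + η * ρ₂ ^ p = ε' * (ζ - 1) ^ (p * (m - 1)) * ρ₀ ^ p := by
    simp only [hη, hε', Units.val_mul, IsUnit.unit_spec]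
    linear_combination (↑ε₁⁻¹ : R) * key0 - ρ₁ ^ p * hinv
  -- Step F
  have hpdvd : (p : R) ∣ (ζ - 1) ^ (p * (m - 1)) := by
    refine S.assoc.symm.dvd.trans (pow_dvd_pow _ ?_)
    calc p - 1 ≤ p * 1 := by omega
      _ ≤ p * (m - 1) := Nat.mul_le_mul_left p (by omega)
  have hpsum : (p : R) ∣ ρ₁ ^ p + η * ρ₂ ^ p := by
    rw [key1]
    exact Dvd.dvd.mul_right (Dvd.dvd.mul_left hpdvd _) _
  have hρ₂lam : ¬ ζ - 1 ∣ ρ₂ := by
    intro hdiv
    apply hC _ hζ'μ hζ'1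
    rw [← h₂]
    exact Dvd.dvd.mul_right (dvd_pow hdiv hp.ne_zero) _
  obtain ⟨n₁, d₁, hd₁⟩ := S.pow_int ρ₁
  obtain ⟨n₂, d₂, hd₂⟩ := S.pow_int ρ₂
  obtain ⟨d₃, hd₃⟩ := hpsum
  have hpn₂ : ¬ (p : ℤ) ∣ n₂ := by
    intro hdiv
    have h1 : ζ - 1 ∣ (n₂ : R) := lam_dvd_int S hdiv
    have h2 : ζ - 1 ∣ ρ₂ ^ p - n₂ := hd₂ ▸ Dvd.dvd.mul_right (lam_dvd_p S) d₂
    have h3 : ζ - 1 ∣ (ρ₂ ^ p - n₂) + n₂ := dvd_add h2 h1
    rw [sub_add_cancel] at h3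
    exact hρ₂lam (hlam.dvd_of_dvd_pow h3)
  have hpp : Prime (p : ℤ) := Nat.prime_iff_prime_int.mp hp
  obtain ⟨r, s, hrs⟩ : IsCoprime (p : ℤ) n₂ := (Prime.coprime_iff_not_dvd hpp).2 hpn₂
  have hrs' : (r : R) * (p : R) + (s : R) * (n₂ : R) = 1 := by exact_mod_cast congrArg (Int.cast : ℤ → R) hrs
  have hηint : (p : R) ∣ (η : R) - ((-(s * n₁) : ℤ) : R) := by
    refine ⟨(η : R) * r + s * (d₃ - d₁ - η * d₂), ?_⟩
    push_cast
    linear_combination (-(η : R)) * hrs' + (s : R) * hd₃ - (s : R) * hd₁ - (s : R) * (η : R) * hd₂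
  obtain ⟨v, hv⟩ := S.kummer η ⟨-(s * n₁), hηint⟩
  refine ⟨ρ₁, v * ρ₂, ρ₀, ε', ?_, ?_, ?_, ?_⟩
  · exact fun hdiv => hρ₂lam ((IsUnit.dvd_mul_left v.isUnit).1 hdiv)
  · intro hdiv
    apply hc₀lam
    rw [← h₀]
    exact Dvd.dvd.mul_right (dvd_pow hdiv hp.ne_zero) _
  · have hd1 : ρ₁ ∣ c ζ := by
      rw [← h₁]; exact Dvd.dvd.mul_right (dvd_pow_self _ hp.ne_zero) _
    have hd2 : ρ₂ ∣ c (ζ ^ (p - 1)) := by
      rw [← h₂]; exact Dvd.dvd.mul_right (dvd_pow_self _ hp.ne_zero) _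
    have h12 : IsCoprime ρ₁ ρ₂ := IsCoprime.of_isCoprime_of_dvd_left
      (IsCoprime.of_isCoprime_of_dvd_right (hcop ζ hζμ _ hζ'μ hζζ') hd2) hd1
    exact (isCoprime_mul_unit_left_right v.isUnit ρ₁ ρ₂).2 h12
  · rw [mul_pow, ← Units.val_pow_eq_pow_val, ← hv, key1]

/-- One full descent step. -/
theorem descent_step [IsPrincipalIdealRing R] (S : Setting p ζ) {m : ℕ} (hm : 1 ≤ m)
    (hsol : Sol p ζ m) : 2 ≤ m ∧ Sol p ζ (m - 1) := by
  obtain ⟨x, y, z, ε, hy, hz, hxy, h⟩ := hsol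
  have hxy1 : ζ - 1 ∣ x + y := by simpa using stepA S hm h (one_mem S)
  obtain ⟨k, hk⟩ := stepB S hy hxy1
  have hu : IsUnit (ζ ^ k) := (S.prim.isUnit S.prime.ne_zero).pow k
  refine step_main S hm (y := ζ ^ k * y) (z := z) (ε := ε) ?_ hz ?_ ?_ hk
  · exact fun hdiv => hy ((IsUnit.dvd_mul_left hu).1 hdiv)
  · exact (isCoprime_mul_unit_left_right hu x y).2 hxy
  · rw [mul_pow, ← pow_mul, mul_comm k p, pow_mul, S.prim.pow_eq_one, one_pow, one_mul, h]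

theorem no_sol [IsPrincipalIdealRing R] (S : Setting p ζ) : ∀ m, 1 ≤ m → ¬ Sol p ζ m := by
  intro m
  induction m with
  | zero => intro h; omega
  | succ n ih =>
    intro _ hsol
    obtain ⟨h2, hsol'⟩ := descent_step S (by omega) hsol
    exact ih (by omega) (by simpa using hsol')

/-- Case II for integers, in the abstract setting. -/
theorem caseII_of_setting [IsPrincipalIdealRing R] (S : Setting p ζ) {a b c : ℤ}
    (hab : IsCoprime a b) (hc : c ≠ 0) (hpc : (p : ℤ) ∣ c) : a ^ p + b ^ p ≠ c ^ p := by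
  intro h
  have hp := S.prime
  have hpp : Prime (p : ℤ) := Nat.prime_iff_prime_int.mp hp
  have hpb : ¬ (p : ℤ) ∣ b := by
    intro hb
    have h1 : (p : ℤ) ∣ a ^ p := by
      have : a ^ p = c ^ p - b ^ p := by linarith
      rw [this]
      exact dvd_sub (dvd_pow hpc hp.ne_zero) (dvd_pow hb hp.ne_zero)
    exact hpp.not_isUnit (hab.isUnit_of_dvd' (hpp.dvd_of_dvd_pow h1) hb)
  have hfin : FiniteMultiplicity (p : ℤ) c :=
    Int.finiteMultiplicity_iff.2 ⟨by simpa using hp.ne_one, hc⟩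
  obtain ⟨c', hcc', hc'⟩ := hfin.exists_eq_pow_mul_and_not_dvd
  set k := multiplicity (p : ℤ) c with hk
  have hk1 : 1 ≤ k := by
    by_contra hlt
    have hk0 : k = 0 := by omega
    rw [hk0, pow_zero, one_mul] at hcc'
    exact hc' (hcc' ▸ hpc)
  obtain ⟨u, hu⟩ := S.assoc
  have h2 := hp.two_le
  refine no_sol S ((p - 1) * k) (Nat.mul_pos (by omega) hk1)
    ⟨a, b, c', u ^ (k * p), ?_, ?_, ?_, ?_⟩
  · exact fun hdiv => hpb (S.int_dvd b hdiv)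
  · exact fun hdiv => hc' (S.int_dvd c' hdiv)
  · exact hab.intCast
  · have h' : (a : R) ^ p + (b : R) ^ p = (c : R) ^ p := by
      exact_mod_cast congrArg (Int.cast : ℤ → R) h
    rw [h', hcc']
    push_cast
    rw [← hu]
    ring

end descent

section concrete

open NumberField

variable {p : ℕ} [hp : Fact p.Prime] {K : Type*} [Field K] [NumberField K]
  [IsCyclotomicExtension {p} ℚ K] {ζ : K}

theorem exists_aeval (hζ : IsPrimitiveRoot ζ p) (x : 𝓞 K) :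
    ∃ f : ℤ[X], x = aeval hζ.toInteger f := by
  have := hζ.integralPowerBasis.exists_eq_aeval' x
  rwa [hζ.integralPowerBasis_gen] at this

theorem mod_lam_int (hζ : IsPrimitiveRoot ζ p) (x : 𝓞 K) :
    ∃ n : ℤ, hζ.toInteger - 1 ∣ x - n := by
  obtain ⟨f, rfl⟩ := exists_aeval hζ x
  induction f using Polynomial.induction_on' with
  | add f g hf hg =>
    obtain ⟨n₁, h₁⟩ := hf
    obtain ⟨n₂, h₂⟩ := hg
    refine ⟨n₁ + n₂, ?_⟩
    have : aeval hζ.toInteger (f + g) - ((n₁ + n₂ : ℤ) : 𝓞 K)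
        = (aeval hζ.toInteger f - n₁) + (aeval hζ.toInteger g - n₂) := by
      rw [map_add]; push_cast; ring
    rw [this]
    exact dvd_add h₁ h₂
  | monomial i c =>
    refine ⟨c, ?_⟩
    have : aeval hζ.toInteger (monomial i c) - ((c : ℤ) : 𝓞 K)
        = (c : 𝓞 K) * (hζ.toInteger ^ i - 1) := by
      rw [aeval_monomial]
      simp only [algebraMap_int_eq, eq_intCast]
      ring
    rw [this]
    exact Dvd.dvd.mul_left (sub_one_dvd_pow_sub_one _ i) _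

theorem pow_int_int (hζ : IsPrimitiveRoot ζ p) (x : 𝓞 K) :
    ∃ n : ℤ, (p : 𝓞 K) ∣ x ^ p - n := by
  obtain ⟨f, rfl⟩ := exists_aeval hζ x
  induction f using Polynomial.induction_on' with
  | add f g hf hg =>
    obtain ⟨n₁, d₁, h₁⟩ := hf
    obtain ⟨n₂, d₂, h₂⟩ := hg
    obtain ⟨r, hr⟩ := exists_add_pow_prime_eq hp.out (aeval hζ.toInteger f) (aeval hζ.toInteger g)
    refine ⟨n₁ + n₂, d₁ + d₂ + aeval hζ.toInteger f * aeval hζ.toInteger g * r, ?_⟩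
    rw [map_add, hr]
    push_cast
    linear_combination h₁ + h₂
  | monomial i c =>
    refine ⟨c ^ p, 0, ?_⟩
    have h1 : (hζ.toInteger ^ i) ^ p = 1 := by
      rw [← pow_mul, mul_comm, pow_mul, hζ.toInteger_isPrimitiveRoot.pow_eq_one, one_pow]
    rw [aeval_monomial]
    simp only [algebraMap_int_eq, eq_intCast, mul_zero]
    push_cast
    rw [mul_pow, h1]
    ring

/-- The ring of integers of the `p`-th cyclotomic field satisfies the abstract hypotheses,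
given Kummer's lemma. -/
theorem setting_of_cyclotomic (hp5 : 5 ≤ p) (hζ : IsPrimitiveRoot ζ p)
    (hkummer : ∀ u : (𝓞 K)ˣ, (∃ n : ℤ, ((p : ℕ) : 𝓞 K) ∣ (u : 𝓞 K) - n) →
      ∃ v : (𝓞 K)ˣ, u = v ^ p) :
    Setting p hζ.toInteger where
  prime := hp.out
  odd := hp.out.odd_of_ne_two (by omega)
  prim := hζ.toInteger_isPrimitiveRoot
  lam_prime := hζ.zeta_sub_one_prime'
  assoc := IsCyclotomicExtension.Rat.associated_zeta_sub_one_pow_prime p hζ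
  mod_lam := mod_lam_int hζ
  int_dvd := fun _ h => (IsCyclotomicExtension.Rat.zeta_sub_one_dvd_intCast_iff' p hζ).1 h
  pow_int := pow_int_int hζ
  kummer := hkummer

end concrete

open NumberField in
/-- **Kummer's case II**: if `𝓞 K` is a PID and Kummer's lemma holds for the `p`-th cyclotomic
field `K`, then `a ^ p + b ^ p = c ^ p` has no solution in coprime integers with `p ∣ c ≠ 0`. -/
theorem caseII {p : ℕ} [Fact p.Prime] (hp5 : 5 ≤ p) {K : Type*} [Field K] [NumberField K]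
    [IsCyclotomicExtension {p} ℚ K]
    (hpid : IsPrincipalIdealRing (𝓞 K))
    (hkummer : ∀ u : (𝓞 K)ˣ, (∃ n : ℤ, ((p : ℕ) : 𝓞 K) ∣ (u : 𝓞 K) - n) → ∃ v : (𝓞 K)ˣ, u = v ^ p)
    {a b c : ℤ} (hab : IsCoprime a b) (hc : c ≠ 0) (hpc : (p : ℤ) ∣ c) :
    a ^ p + b ^ p ≠ c ^ p :=
  caseII_of_setting
    (setting_of_cyclotomic hp5 (IsCyclotomicExtension.zeta_spec p ℚ K) hkummer) hab hc hpc

end Fermat.Agent.Lib.KummerCaseII
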