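/-
Sophie Germain's theorem (first case of Fermat's Last Theorem via an auxiliary prime), and the
instances `p = 5, 7, 11, 13`.
-/
import Mathlib

set_option autoImplicit false

namespace Fermat.Agent.Lib.SophieGermainB

/-- If `u ^ p + v ^ p = w ^ p` with `u, v` coprime, `p` an odd prime not dividing `w`, then both
factors `u + v` and `∑ i < p, u ^ i * (-v) ^ (p - 1 - i)` of `u ^ p + v ^ p` are `p`-th powers. -/
theorem exists_pow_of_sum {p : ℕ} (hp : p.Prime) (hodd : p ≠ 2) {u v w : ℤ} (huv : IsCoprime u v)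
    (hw : ¬ (p : ℤ) ∣ w) (h : u ^ p + v ^ p = w ^ p) :
    (∃ A : ℤ, u + v = A ^ p) ∧
      ∃ α : ℤ, ∑ i ∈ Finset.range p, u ^ i * (-v) ^ (p - 1 - i) = α ^ p := by
  have hpodd : Odd p := hp.odd_of_ne_two hodd
  have hpZ : Prime (p : ℤ) := Nat.prime_iff_prime_int.mp hp
  have hmul : (u + v) * ∑ i ∈ Finset.range p, u ^ i * (-v) ^ (p - 1 - i) = w ^ p := by
    have := (Commute.all u (-v)).mul_geom_sum₂ p
    rw [hpodd.neg_pow, sub_neg_eq_add, sub_neg_eq_add] at this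
    rw [this, h]
  have hdvd : (u + v) ∣ (∑ i ∈ Finset.range p, u ^ i * (-v) ^ (p - 1 - i)) - p * u ^ (p - 1) := by
    rw [← geom_sum₂_self u p, ← Finset.sum_sub_distrib]
    refine Finset.dvd_sum fun i _ => ?_
    rw [← mul_sub]
    refine Dvd.dvd.mul_left ?_ _
    have := sub_dvd_pow_sub_pow (-v) u (p - 1 - i)
    rwa [show -v - u = -(u + v) by ring, neg_dvd] at this
  have hpuv : ¬ (p : ℤ) ∣ u + v := by
    intro hd
    apply hw
    have : (p : ℤ) ∣ w ^ p := by rw [← hmul]; exact Dvd.dvd.mul_right hd _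
    exact hpZ.dvd_of_dvd_pow this
  have hcop : IsCoprime (u + v) (∑ i ∈ Finset.range p, u ^ i * (-v) ^ (p - 1 - i)) := by
    obtain ⟨Q, hQ⟩ := hdvd
    have hΦeq : ∑ i ∈ Finset.range p, u ^ i * (-v) ^ (p - 1 - i)
        = p * u ^ (p - 1) + (u + v) * Q := by linarith
    rw [hΦeq]
    refine IsCoprime.add_mul_left_right ?_ _
    refine IsCoprime.mul_right ?_ ?_
    · exact (hpZ.coprime_iff_not_dvd.mpr hpuv).symm
    · refine IsCoprime.pow_right ?_
      have := huv.symm.add_mul_left_left 1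
      rwa [mul_one, add_comm] at this
  exact Int.eq_pow_of_mul_eq_pow_odd hcop hpodd hmul

/-- Core of Sophie Germain's theorem: the symmetric form with `q ∣ x`. -/
theorem core {p q : ℕ} (hp : p.Prime) (hodd : p ≠ 2) (hq : q.Prime)
    (h1 : ∀ x y z : ZMod q, x ^ p + y ^ p + z ^ p = 0 → x = 0 ∨ y = 0 ∨ z = 0)
    (h2 : ∀ x : ZMod q, x ^ p ≠ (p : ZMod q))
    {x y z : ℤ} (hxy : IsCoprime x y) (hyz : IsCoprime y z) (hzx : IsCoprime z x)
    (hpx : ¬ (p : ℤ) ∣ x) (hpy : ¬ (p : ℤ) ∣ y) (hpz : ¬ (p : ℤ) ∣ z)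
    (h : x ^ p + y ^ p + z ^ p = 0) (hqx : (q : ℤ) ∣ x) : False := by
  have : Fact q.Prime := ⟨hq⟩
  have hpodd : Odd p := hp.odd_of_ne_two hodd
  have hqunit : ¬ IsUnit (q : ℤ) := (Nat.prime_iff_prime_int.mp hq).not_isUnit
  have hqy : ¬ (q : ℤ) ∣ y := fun hqy => hqunit (hxy.isUnit_of_dvd' hqx hqy)
  have hqz : ¬ (q : ℤ) ∣ z := fun hqz => hqunit (hzx.isUnit_of_dvd' hqz hqx)
  obtain ⟨⟨A, hA⟩, ⟨α, hα⟩⟩ := exists_pow_of_sum hp hodd hyz (w := -x) (by rwa [dvd_neg])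
    (by rw [hpodd.neg_pow]; linarith)
  obtain ⟨⟨B, hB⟩, -⟩ := exists_pow_of_sum hp hodd hzx (w := -y) (by rwa [dvd_neg])
    (by rw [hpodd.neg_pow]; linarith)
  obtain ⟨⟨C, hC⟩, ⟨γ, hγ⟩⟩ := exists_pow_of_sum hp hodd hxy.symm (w := -z) (by rwa [dvd_neg])
    (by rw [hpodd.neg_pow]; linarith)
  have hx0 : ((x : ℤ) : ZMod q) = 0 := (ZMod.intCast_zmod_eq_zero_iff_dvd x q).mpr hqx
  have hy0 : ((y : ℤ) : ZMod q) ≠ 0 := fun h0 =>
    hqy ((ZMod.intCast_zmod_eq_zero_iff_dvd y q).mp h0)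
  have hz0 : ((z : ℤ) : ZMod q) ≠ 0 := fun h0 =>
    hqz ((ZMod.intCast_zmod_eq_zero_iff_dvd z q).mp h0)
  have hA' : ((y : ZMod q) + z) = (A : ZMod q) ^ p := by
    exact_mod_cast congrArg (Int.cast : ℤ → ZMod q) hA
  have hB' : ((z : ZMod q) + x) = (B : ZMod q) ^ p := by
    exact_mod_cast congrArg (Int.cast : ℤ → ZMod q) hB
  have hC' : ((y : ZMod q) + x) = (C : ZMod q) ^ p := by
    exact_mod_cast congrArg (Int.cast : ℤ → ZMod q) hC
  have hsum : (B : ZMod q) ^ p + (C : ZMod q) ^ p + (-(A : ZMod q)) ^ p = 0 := by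
    rw [hpodd.neg_pow, ← hA', ← hB', ← hC', hx0]; ring
  have hAz : (y : ZMod q) + z = 0 := by
    rcases h1 _ _ _ hsum with hB0 | hC0 | hA0
    · exfalso; apply hz0; rw [hB0, zero_pow hp.ne_zero, hx0, add_zero] at hB'; exact hB'
    · exfalso; apply hy0; rw [hC0, zero_pow hp.ne_zero, hx0, add_zero] at hC'; exact hC'
    · rw [hA', neg_eq_zero.mp hA0, zero_pow hp.ne_zero]
  have hα' : (α : ZMod q) ^ p = p * (y : ZMod q) ^ (p - 1) := by
    have hcast := congrArg (Int.cast : ℤ → ZMod q) hα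
    push_cast at hcast
    have hzy : -(z : ZMod q) = y := by linear_combination -hAz
    rw [← hcast, ← geom_sum₂_self, hzy]
  have hγ' : (γ : ZMod q) ^ p = (y : ZMod q) ^ (p - 1) := by
    have hcast := congrArg (Int.cast : ℤ → ZMod q) hγ
    push_cast at hcast
    rw [← hcast, hx0, neg_zero, Finset.sum_eq_single (p - 1)]
    · simp
    · intro i hi hne
      have : p - 1 - i ≠ 0 := by have := Finset.mem_range.mp hi; omega
      rw [zero_pow this, mul_zero]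
    · intro hn
      exfalso; apply hn; rw [Finset.mem_range]; have := hp.pos; omega
  have hypow : (y : ZMod q) ^ (p - 1) ≠ 0 := pow_ne_zero _ hy0
  have hγ0 : (γ : ZMod q) ^ p ≠ 0 := by rw [hγ']; exact hypow
  apply h2 ((α : ZMod q) / γ)
  rw [div_pow, hα', hγ', mul_div_assoc, div_self hypow, mul_one]

/-- **Sophie Germain's theorem** with an auxiliary prime `q`: the first case of Fermat's Last
Theorem for the odd prime exponent `p`. -/
theorem caseI_of_aux_prime {p q : ℕ} (hp : p.Prime) (hodd : p ≠ 2) (hq : q.Prime)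
    (h1 : ∀ x y z : ZMod q, x ^ p + y ^ p + z ^ p = 0 → x = 0 ∨ y = 0 ∨ z = 0)
    (h2 : ∀ x : ZMod q, x ^ p ≠ (p : ZMod q))
    {a b c : ℤ} (hab : IsCoprime a b) (h : ¬ (p : ℤ) ∣ a * b * c) : a ^ p + b ^ p ≠ c ^ p := by
  intro heq
  have : Fact q.Prime := ⟨hq⟩
  have hpodd : Odd p := hp.odd_of_ne_two hodd
  have hpa : ¬ (p : ℤ) ∣ a := fun hd => h (Dvd.dvd.mul_right (Dvd.dvd.mul_right hd b) c)
  have hpb : ¬ (p : ℤ) ∣ b := fun hd => h (Dvd.dvd.mul_right (Dvd.dvd.mul_left hd a) c)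
  have hpc : ¬ (p : ℤ) ∣ -c := fun hd => h (Dvd.dvd.mul_left ((dvd_neg).mp hd) (a * b))
  have hpow : ∀ t : ℤ, t * t ^ (p - 1) = t ^ p := fun t => by
    rw [← pow_succ', Nat.sub_add_cancel hp.one_le]
  have hbc : IsCoprime b (-c) := by
    have h3 : IsCoprime (a ^ p + b * b ^ (p - 1)) b := (hab.pow_left).add_mul_left_left _
    rw [hpow, heq] at h3
    exact ((IsCoprime.pow_left_iff hp.pos).mp h3).symm.neg_right
  have hca : IsCoprime (-c) a := by
    have h3 : IsCoprime (b ^ p + a * a ^ (p - 1)) a := (hab.symm.pow_left).add_mul_left_left _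
    rw [hpow, add_comm, heq] at h3
    exact ((IsCoprime.pow_left_iff hp.pos).mp h3).neg_left
  have hsum : a ^ p + b ^ p + (-c) ^ p = 0 := by rw [hpodd.neg_pow, heq]; ring
  have hcast : ((a : ℤ) : ZMod q) ^ p + (b : ZMod q) ^ p + ((-c : ℤ) : ZMod q) ^ p = 0 := by
    exact_mod_cast congrArg (Int.cast : ℤ → ZMod q) hsum
  rcases h1 _ _ _ hcast with h0 | h0 | h0
  · exact core hp hodd hq h1 h2 hab hbc hca hpa hpb hpc hsum
      ((ZMod.intCast_zmod_eq_zero_iff_dvd _ _).mp h0)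
  · exact core hp hodd hq h1 h2 hbc hca hab hpb hpc hpa (by linarith)
      ((ZMod.intCast_zmod_eq_zero_iff_dvd _ _).mp h0)
  · exact core hp hodd hq h1 h2 hca hab hbc hpc hpa hpb (by linarith)
      ((ZMod.intCast_zmod_eq_zero_iff_dvd _ _).mp h0)

/-- The hypothesis `h1` of `caseI_of_aux_prime` from a finite set `S` containing all nonzero
`p`-th powers of `ZMod q` and having no zero sum of three elements. -/
theorem h1_of_finset {p q : ℕ} (S : Finset (ZMod q)) (hS : ∀ x : ZMod q, x ≠ 0 → x ^ p ∈ S)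
    (hsum : ∀ a ∈ S, ∀ b ∈ S, ∀ c ∈ S, a + b + c ≠ 0) :
    ∀ x y z : ZMod q, x ^ p + y ^ p + z ^ p = 0 → x = 0 ∨ y = 0 ∨ z = 0 := by
  intro x y z h
  by_contra hne
  rw [not_or, not_or] at hne
  exact hsum _ (hS x hne.1) _ (hS y hne.2.1) _ (hS z hne.2.2) h

/-- First case of Fermat's Last Theorem for the exponent `11` (auxiliary prime `23`). -/
theorem caseI_eleven {a b c : ℤ} (hab : IsCoprime a b) (h : ¬ (11 : ℤ) ∣ a * b * c) :
    a ^ 11 + b ^ 11 ≠ c ^ 11 := by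
  have hS : ∀ x : ZMod 23, x ≠ 0 → x ^ 11 ∈ ({1, -1} : Finset (ZMod 23)) := by decide
  have hsum : ∀ a ∈ ({1, -1} : Finset (ZMod 23)), ∀ b ∈ ({1, -1} : Finset (ZMod 23)),
      ∀ c ∈ ({1, -1} : Finset (ZMod 23)), a + b + c ≠ 0 := by decide
  have h2 : ∀ x : ZMod 23, x ^ 11 ≠ ((11 : ℕ) : ZMod 23) := by decide
  exact caseI_of_aux_prime (p := 11) (q := 23) (by norm_num) (by norm_num) (by norm_num)
    (h1_of_finset _ hS hsum) h2 hab (by exact_mod_cast h)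

/-- First case of Fermat's Last Theorem for the exponent `5` (auxiliary prime `11`). -/
theorem caseI_five {a b c : ℤ} (hab : IsCoprime a b) (h : ¬ (5 : ℤ) ∣ a * b * c) :
    a ^ 5 + b ^ 5 ≠ c ^ 5 := by
  have hS : ∀ x : ZMod 11, x ≠ 0 → x ^ 5 ∈ ({1, -1} : Finset (ZMod 11)) := by decide
  have hsum : ∀ a ∈ ({1, -1} : Finset (ZMod 11)), ∀ b ∈ ({1, -1} : Finset (ZMod 11)),
      ∀ c ∈ ({1, -1} : Finset (ZMod 11)), a + b + c ≠ 0 := by decide
  have h2 : ∀ x : ZMod 11, x ^ 5 ≠ ((5 : ℕ) : ZMod 11) := by decide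
  exact caseI_of_aux_prime (p := 5) (q := 11) (by norm_num) (by norm_num) (by norm_num)
    (h1_of_finset _ hS hsum) h2 hab (by exact_mod_cast h)

/-- First case of Fermat's Last Theorem for the exponent `7` (auxiliary prime `29`). -/
theorem caseI_seven {a b c : ℤ} (hab : IsCoprime a b) (h : ¬ (7 : ℤ) ∣ a * b * c) :
    a ^ 7 + b ^ 7 ≠ c ^ 7 := by
  have hS : ∀ x : ZMod 29, x ≠ 0 → x ^ 7 ∈ ({1, -1, 12, -12} : Finset (ZMod 29)) := by decide
  have hsum : ∀ a ∈ ({1, -1, 12, -12} : Finset (ZMod 29)),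
      ∀ b ∈ ({1, -1, 12, -12} : Finset (ZMod 29)),
      ∀ c ∈ ({1, -1, 12, -12} : Finset (ZMod 29)), a + b + c ≠ 0 := by decide
  have h2 : ∀ x : ZMod 29, x ^ 7 ≠ ((7 : ℕ) : ZMod 29) := by decide
  exact caseI_of_aux_prime (p := 7) (q := 29) (by norm_num) (by norm_num) (by norm_num)
    (h1_of_finset _ hS hsum) h2 hab (by exact_mod_cast h)

/-- First case of Fermat's Last Theorem for the exponent `13` (auxiliary prime `53`). -/
theorem caseI_thirteen {a b c : ℤ} (hab : IsCoprime a b) (h : ¬ (13 : ℤ) ∣ a * b * c) :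
    a ^ 13 + b ^ 13 ≠ c ^ 13 := by
  have hS : ∀ x : ZMod 53, x ≠ 0 → x ^ 13 ∈ ({1, -1, 23, -23} : Finset (ZMod 53)) := by decide
  have hsum : ∀ a ∈ ({1, -1, 23, -23} : Finset (ZMod 53)),
      ∀ b ∈ ({1, -1, 23, -23} : Finset (ZMod 53)),
      ∀ c ∈ ({1, -1, 23, -23} : Finset (ZMod 53)), a + b + c ≠ 0 := by decide +kernel
  have h2 : ∀ x : ZMod 53, x ^ 13 ≠ ((13 : ℕ) : ZMod 53) := by decide
  exact caseI_of_aux_prime (p := 13) (q := 53) (by norm_num) (by norm_num) (by norm_num)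
    (h1_of_finset _ hS hsum) h2 hab (by exact_mod_cast h)

end Fermat.Agent.Lib.SophieGermainB
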