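import Mathlib
import Fermat.Agent.Lib.FLTWiring
import Fermat.Agent.Lib.KummerCaseII
import Fermat.Agent.Lib.SophieGermainB
import Fermat.Agent.Lib.CyclotomicPIDFrameB
import Fermat.Agent.Lib.CyclotomicNormCert

/-!
# Fermat's Last Theorem for the exponents 5, 7, 11, 13, assuming Kummer's lemma

For `p ∈ {5, 7, 11, 13}` and `K` a `p`-th cyclotomic field over `ℚ`: if every unit of `𝓞 K` that is
congruent to a rational integer modulo `p` is a `p`-th power (Kummer's lemma), then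
`a ^ p + b ^ p ≠ c ^ p` for nonzero coprime integers.

Ingredients: Sophie Germain's theorem (case I), Kummer's descent (case II), and the fact that
`𝓞 K` is a principal ideal domain (Minkowski bound plus explicit norm certificates).
-/

open NumberField

namespace Fermat.Agent.Lib.FLTSmallOfKummer

/-- `ℤ[ζ₇]` is a PID. -/
theorem pid_seven {K : Type*} [Field K] [NumberField K] [IsCyclotomicExtension {7} ℚ K] :
    IsPrincipalIdealRing (𝓞 K) :=
  CyclotomicPIDFrameB.pid_seven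

/-- `ℤ[ζ₁₁]` is a PID. -/
theorem pid_eleven {K : Type*} [Field K] [NumberField K] [IsCyclotomicExtension {11} ℚ K] :
    IsPrincipalIdealRing (𝓞 K) :=
  CyclotomicPIDFrameB.pid_eleven_of_norm CyclotomicNormCert.exists_norm_23

/-- `ℤ[ζ₁₃]` is a PID. -/
theorem pid_thirteen {K : Type*} [Field K] [NumberField K] [IsCyclotomicExtension {13} ℚ K] :
    IsPrincipalIdealRing (𝓞 K) :=
  CyclotomicPIDFrameB.pid_thirteen_of_norm CyclotomicNormCert.exists_norm_27
    CyclotomicNormCert.exists_norm_53 CyclotomicNormCert.exists_norm_79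
    CyclotomicNormCert.exists_norm_131 CyclotomicNormCert.exists_norm_157

theorem flt_five_of_kummer {K : Type*} [Field K] [NumberField K] [IsCyclotomicExtension {5} ℚ K]
    (hk : ∀ u : (𝓞 K)ˣ, (∃ n : ℤ, ((5 : ℕ) : 𝓞 K) ∣ (u : 𝓞 K) - n) → ∃ v : (𝓞 K)ˣ, u = v ^ 5)
    {a b c : ℤ} (ha : a ≠ 0) (hb : b ≠ 0) (hc : c ≠ 0) (hab : IsCoprime a b) :
    a ^ 5 + b ^ 5 ≠ c ^ 5 := by
  have hp : Fact (Nat.Prime 5) := ⟨by norm_num⟩
  refine FLTWiring.flt_of_caseI_caseII (p := 5) hp.out (by norm_num)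
    (fun a b c hab h => SophieGermainB.caseI_five hab (by exact_mod_cast h))
    (fun a b c hab hc hpc => ?_) ha hb hc hab
  exact KummerCaseII.caseII (p := 5) (K := K) (by norm_num)
    (IsCyclotomicExtension.Rat.five_pid K) hk hab hc hpc

theorem flt_seven_of_kummer {K : Type*} [Field K] [NumberField K] [IsCyclotomicExtension {7} ℚ K]
    (hk : ∀ u : (𝓞 K)ˣ, (∃ n : ℤ, ((7 : ℕ) : 𝓞 K) ∣ (u : 𝓞 K) - n) → ∃ v : (𝓞 K)ˣ, u = v ^ 7)
    {a b c : ℤ} (ha : a ≠ 0) (hb : b ≠ 0) (hc : c ≠ 0) (hab : IsCoprime a b) :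
    a ^ 7 + b ^ 7 ≠ c ^ 7 := by
  have hp : Fact (Nat.Prime 7) := ⟨by norm_num⟩
  refine FLTWiring.flt_of_caseI_caseII (p := 7) hp.out (by norm_num)
    (fun a b c hab h => SophieGermainB.caseI_seven hab (by exact_mod_cast h))
    (fun a b c hab hc hpc => ?_) ha hb hc hab
  exact KummerCaseII.caseII (p := 7) (K := K) (by norm_num) pid_seven hk hab hc hpc

theorem flt_eleven_of_kummer {K : Type*} [Field K] [NumberField K]
    [IsCyclotomicExtension {11} ℚ K]
    (hk : ∀ u : (𝓞 K)ˣ, (∃ n : ℤ, ((11 : ℕ) : 𝓞 K) ∣ (u : 𝓞 K) - n) → ∃ v : (𝓞 K)ˣ, u = v ^ 11)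
    {a b c : ℤ} (ha : a ≠ 0) (hb : b ≠ 0) (hc : c ≠ 0) (hab : IsCoprime a b) :
    a ^ 11 + b ^ 11 ≠ c ^ 11 := by
  have hp : Fact (Nat.Prime 11) := ⟨by norm_num⟩
  refine FLTWiring.flt_of_caseI_caseII (p := 11) hp.out (by norm_num)
    (fun a b c hab h => SophieGermainB.caseI_eleven hab (by exact_mod_cast h))
    (fun a b c hab hc hpc => ?_) ha hb hc hab
  exact KummerCaseII.caseII (p := 11) (K := K) (by norm_num) pid_eleven hk hab hc hpc

theorem flt_thirteen_of_kummer {K : Type*} [Field K] [NumberField K]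
    [IsCyclotomicExtension {13} ℚ K]
    (hk : ∀ u : (𝓞 K)ˣ, (∃ n : ℤ, ((13 : ℕ) : 𝓞 K) ∣ (u : 𝓞 K) - n) → ∃ v : (𝓞 K)ˣ, u = v ^ 13)
    {a b c : ℤ} (ha : a ≠ 0) (hb : b ≠ 0) (hc : c ≠ 0) (hab : IsCoprime a b) :
    a ^ 13 + b ^ 13 ≠ c ^ 13 := by
  have hp : Fact (Nat.Prime 13) := ⟨by norm_num⟩
  refine FLTWiring.flt_of_caseI_caseII (p := 13) hp.out (by norm_num)
    (fun a b c hab h => SophieGermainB.caseI_thirteen hab (by exact_mod_cast h))
    (fun a b c hab hc hpc => ?_) ha hb hc hab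
  exact KummerCaseII.caseII (p := 13) (K := K) (by norm_num) pid_thirteen hk hab hc hpc

end Fermat.Agent.Lib.FLTSmallOfKummer
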