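/-
Shared library file (owner: helper3).  Elementary facts about the Frey curve of a `FreyPackage`:

* `freyCurveInt_map`              : the integral Frey curve base-changes to `P.freyCurve` over `ℚ`;
* `freyCurveInt_isIntegralModelOf`: hence it is an integral model of `P.freyCurve`;
* `freyCurveInt_c₄`, `freyCurveInt_Δ`: closed formulas for `c₄` and `Δ`
  (`c₄ = A² + AB + B²`, `256 Δ = (A B C)²` with `A = a^p`, `B = b^p`, `C = c^p`);
* `freyCurveInt_Δ_ne_zero`, `freyCurveInt_isSemistableModel`;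
* `freyCurve_isModular_of_semistable_modularity`: the Frey curve is modular as soon as every
  semistable integral Weierstrass curve with nonzero discriminant is modular.
-/
import Mathlib
import Fermat.Prelude.Def_FLTPrelim_FreyPackage
import Fermat.Prelude.Def_FLTPrelim_Modularity

set_option autoImplicit false

namespace Fermat.Agent.Lib.FreyCurveSemistable

open WeierstrassCurve

/-- `a ^ p ≡ -1 mod 4` for a Frey package. -/
theorem four_dvd_a_pow_add_one (P : FreyPackage) : (4 : ℤ) ∣ P.a ^ P.p + 1 := by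
  have h1 : (4 : ℤ) ∣ P.a + 1 := by
    have h := P.ha4
    have h2 : ((P.a + 1 : ℤ) : ZMod 4) = 0 := by
      push_cast
      rw [h]
      decide
    exact (ZMod.intCast_zmod_eq_zero_iff_dvd _ 4).1 h2
  have h3 : P.a + 1 ∣ P.a ^ P.p + 1 := by
    have := Odd.add_dvd_pow_add_pow P.a 1 P.hp_odd
    simpa using this
  exact h1.trans h3

/-- `32 ∣ b ^ p` for a Frey package. -/
theorem thirtytwo_dvd_b_pow (P : FreyPackage) : (32 : ℤ) ∣ P.b ^ P.p := by
  have h2 : (2 : ℤ) ∣ P.b := (ZMod.intCast_zmod_eq_zero_iff_dvd P.b 2).1 P.hb2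
  have h5 : (2 : ℤ) ^ 5 ∣ P.b ^ 5 := pow_dvd_pow_of_dvd h2 5
  have h6 : P.b ^ 5 ∣ P.b ^ P.p := pow_dvd_pow _ P.hp5
  exact (by norm_num : (32 : ℤ) = 2 ^ 5) ▸ h5.trans h6

theorem four_dvd_a₂_num (P : FreyPackage) : (4 : ℤ) ∣ P.b ^ P.p - 1 - P.a ^ P.p := by
  have h1 := four_dvd_a_pow_add_one P
  have h2 : (4 : ℤ) ∣ P.b ^ P.p := Dvd.dvd.trans (by norm_num) (thirtytwo_dvd_b_pow P)
  have : P.b ^ P.p - 1 - P.a ^ P.p = P.b ^ P.p - (P.a ^ P.p + 1) := by ring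
  rw [this]
  exact dvd_sub h2 h1

theorem sixteen_dvd_a₄_num (P : FreyPackage) : (16 : ℤ) ∣ -(P.a ^ P.p) * (P.b ^ P.p) := by
  have h2 : (16 : ℤ) ∣ P.b ^ P.p := Dvd.dvd.trans (by norm_num) (thirtytwo_dvd_b_pow P)
  exact Dvd.dvd.mul_left h2 _

theorem four_mul_freyCurveInt_a₂ (P : FreyPackage) :
    4 * P.freyCurveInt.a₂ = P.b ^ P.p - 1 - P.a ^ P.p :=
  Int.mul_ediv_cancel' (four_dvd_a₂_num P)

theorem sixteen_mul_freyCurveInt_a₄ (P : FreyPackage) :
    16 * P.freyCurveInt.a₄ = -(P.a ^ P.p) * (P.b ^ P.p) :=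
  Int.mul_ediv_cancel' (sixteen_dvd_a₄_num P)

/-- The integral Frey curve base-changes to the rational Frey curve. -/
theorem freyCurveInt_map (P : FreyPackage) :
    P.freyCurveInt.map (Int.castRingHom ℚ) = P.freyCurve := by
  have h2 := four_mul_freyCurveInt_a₂ P
  have h4 := sixteen_mul_freyCurveInt_a₄ P
  have h2' : (4 : ℚ) * (P.freyCurveInt.a₂ : ℚ) = (P.b : ℚ) ^ P.p - 1 - (P.a : ℚ) ^ P.p := by
    exact_mod_cast h2
  have h4' : (16 : ℚ) * (P.freyCurveInt.a₄ : ℚ) = -((P.a : ℚ) ^ P.p) * ((P.b : ℚ) ^ P.p) := by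
    exact_mod_cast h4
  ext
  · simp [FreyPackage.freyCurveInt, FreyPackage.freyCurve]
  · change ((P.freyCurveInt.a₂ : ℤ) : ℚ) = ((P.b : ℚ) ^ P.p - 1 - (P.a : ℚ) ^ P.p) / 4
    rw [← h2']
    ring
  · simp [FreyPackage.freyCurveInt, FreyPackage.freyCurve]
  · change ((P.freyCurveInt.a₄ : ℤ) : ℚ) = -((P.a : ℚ) ^ P.p) * ((P.b : ℚ) ^ P.p) / 16
    rw [← h4']
    ring
  · simp [FreyPackage.freyCurveInt, FreyPackage.freyCurve]

/-- The integral Frey curve is an integral model of the rational Frey curve. -/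
theorem freyCurveInt_isIntegralModelOf (P : FreyPackage) :
    P.freyCurveInt.IsIntegralModelOf P.freyCurve :=
  ⟨1, by rw [one_smul, freyCurveInt_map]⟩

theorem freyCurveInt_c₄ (P : FreyPackage) :
    P.freyCurveInt.c₄ =
      (P.a ^ P.p) ^ 2 + P.a ^ P.p * P.b ^ P.p + (P.b ^ P.p) ^ 2 := by
  have h2 := four_mul_freyCurveInt_a₂ P
  have h4 := sixteen_mul_freyCurveInt_a₄ P
  have e1 : P.freyCurveInt.a₁ = 1 := rfl
  have e3 : P.freyCurveInt.a₃ = 0 := rfl
  simp only [WeierstrassCurve.c₄, WeierstrassCurve.b₂, WeierstrassCurve.b₄, e1, e3]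
  linear_combination (1 + 4 * P.freyCurveInt.a₂ + P.b ^ P.p - P.a ^ P.p) * h2 - 3 * h4

theorem freyCurveInt_Δ (P : FreyPackage) :
    256 * P.freyCurveInt.Δ = (P.a ^ P.p * P.b ^ P.p * P.c ^ P.p) ^ 2 := by
  have h2 := four_mul_freyCurveInt_a₂ P
  have h4 := sixteen_mul_freyCurveInt_a₄ P
  have e1 : P.freyCurveInt.a₁ = 1 := rfl
  have e3 : P.freyCurveInt.a₃ = 0 := rfl
  have e6 : P.freyCurveInt.a₆ = 0 := rfl
  rw [← P.hFLT]
  simp only [WeierstrassCurve.Δ, WeierstrassCurve.b₂, WeierstrassCurve.b₄, WeierstrassCurve.b₆,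
    WeierstrassCurve.b₈, e1, e3, e6]
  have h2' : 4 * P.freyCurveInt.a₂ = P.b ^ P.p - 1 - P.a ^ P.p := h2
  have h4' : 16 * P.freyCurveInt.a₄ = -(P.a ^ P.p) * (P.b ^ P.p) := h4
  generalize P.freyCurveInt.a₂ = x at h2' ⊢
  generalize P.freyCurveInt.a₄ = y at h4' ⊢
  generalize P.a ^ P.p = A at h2' h4' ⊢
  generalize P.b ^ P.p = B at h2' h4' ⊢
  have hx : B = 4 * x + 1 + A := by linarith
  subst hx
  have hy : A * (4 * x + 1 + A) = -16 * y := by linarith
  have : (A * (4 * x + 1 + A) * (A + (4 * x + 1 + A))) ^ 2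
      = (A * (4 * x + 1 + A)) ^ 2 * (A + (4 * x + 1 + A)) ^ 2 := by ring
  rw [this, hy]
  have hA : (A + (4 * x + 1 + A)) ^ 2 = (4 * x + 1) ^ 2 + 4 * (A * (4 * x + 1 + A)) := by ring
  rw [hA, hy]
  ring

theorem freyCurveInt_Δ_ne_zero (P : FreyPackage) : P.freyCurveInt.Δ ≠ 0 := by
  intro h
  have h1 := freyCurveInt_Δ P
  rw [h, mul_zero] at h1
  have h2 : P.a ^ P.p * P.b ^ P.p * P.c ^ P.p ≠ 0 :=
    mul_ne_zero (mul_ne_zero (pow_ne_zero _ P.ha0) (pow_ne_zero _ P.hb0)) (pow_ne_zero _ P.hc0)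
  exact pow_ne_zero 2 h2 h1.symm

/-- No prime divides both `a` and `b` in a Frey package. -/
theorem not_prime_dvd_a_and_b (P : FreyPackage) {q : ℤ} (hq : Prime q)
    (ha : q ∣ P.a) (hb : q ∣ P.b) : False := by
  have h : q ∣ gcd P.a P.b := dvd_gcd ha hb
  rw [P.hgcdab] at h
  exact hq.not_dvd_one h

/-- The integral Frey curve is semistable (in the prelude's sense). -/
theorem freyCurveInt_isSemistableModel (P : FreyPackage) : P.freyCurveInt.IsSemistableModel := by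
  intro q hq hΔ hc₄
  have hq' : Prime (q : ℤ) := Nat.prime_iff_prime_int.mp hq
  rw [freyCurveInt_c₄] at hc₄
  have h1 : (q : ℤ) ∣ (P.a ^ P.p * P.b ^ P.p * P.c ^ P.p) ^ 2 := by
    rw [← freyCurveInt_Δ]
    exact Dvd.dvd.mul_left hΔ _
  have h2 : (q : ℤ) ∣ P.a ^ P.p * P.b ^ P.p * P.c ^ P.p := hq'.dvd_of_dvd_pow h1
  -- it suffices to show that `q` divides both `a ^ p` and `b ^ p`
  suffices h : (q : ℤ) ∣ P.a ^ P.p ∧ (q : ℤ) ∣ P.b ^ P.p from
    not_prime_dvd_a_and_b P hq' (hq'.dvd_of_dvd_pow h.1) (hq'.dvd_of_dvd_pow h.2)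
  have key : ∀ A B : ℤ, (q : ℤ) ∣ A ^ 2 + A * B + B ^ 2 → (q : ℤ) ∣ A → (q : ℤ) ∣ B := by
    intro A B h hA
    have h3 : (q : ℤ) ∣ B ^ 2 := by
      have : B ^ 2 = (A ^ 2 + A * B + B ^ 2) - A * (A + B) := by ring
      rw [this]
      exact dvd_sub h (Dvd.dvd.mul_right hA _)
    exact hq'.dvd_of_dvd_pow h3
  rcases hq'.dvd_or_dvd h2 with h3 | h3
  · rcases hq'.dvd_or_dvd h3 with hA | hB
    · exact ⟨hA, key _ _ hc₄ hA⟩
    · refine ⟨key _ _ ?_ hB, hB⟩
      have : (P.b ^ P.p) ^ 2 + P.b ^ P.p * P.a ^ P.p + (P.a ^ P.p) ^ 2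
          = (P.a ^ P.p) ^ 2 + P.a ^ P.p * P.b ^ P.p + (P.b ^ P.p) ^ 2 := by ring
      rw [this]
      exact hc₄
  · -- `q ∣ c ^ p = a ^ p + b ^ p`
    rw [← P.hFLT] at h3
    have h4 : (q : ℤ) ∣ P.a ^ P.p * P.b ^ P.p := by
      have : P.a ^ P.p * P.b ^ P.p
          = (P.a ^ P.p + P.b ^ P.p) * (P.a ^ P.p + P.b ^ P.p)
            - ((P.a ^ P.p) ^ 2 + P.a ^ P.p * P.b ^ P.p + (P.b ^ P.p) ^ 2) := by ring
      rw [this]
      exact dvd_sub (Dvd.dvd.mul_right h3 _) hc₄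
    rcases hq'.dvd_or_dvd h4 with hA | hB
    · exact ⟨hA, (dvd_add_right hA).mp h3⟩
    · exact ⟨(dvd_add_left hB).mp h3, hB⟩

/-- The Frey curve is modular as soon as semistable integral Weierstrass curves with nonzero
discriminant are modular (the hypothesis is the type of the waypoint "modularity of semistable
models"). -/
theorem freyCurve_isModular_of_semistable_modularity
    (hmod : ∀ W : WeierstrassCurve ℤ, W.Δ ≠ 0 → W.IsSemistableModel →
      (W.map (Int.castRingHom ℚ)).IsModular)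
    (P : FreyPackage) : P.freyCurve.IsModular := by
  have h := hmod P.freyCurveInt (freyCurveInt_Δ_ne_zero P) (freyCurveInt_isSemistableModel P)
  rwa [freyCurveInt_map] at h

end Fermat.Agent.Lib.FreyCurveSemistable
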