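import Mathlib

set_option autoImplicit false

namespace Fermat.Agent.Lib.IntegralFraction

/-- A non-"non-unit" plus a non-unit of a valuation subring is not a non-unit. -/
theorem add_not_mem_nonunits {L : Type*} [Field L] (A : ValuationSubring L) {u m : L}
    (hu : u ∉ A.nonunits) (hm : m ∈ A.nonunits) : u + m ∉ A.nonunits := by
  intro h
  apply hu
  have hum : u = (u + m) - m := by ring
  rw [hum]
  exact A.nonunits.sub_mem h hm

/-- Key induction: a root `x ∈ A` of a polynomial with coefficients in the integral closure of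
`ℤ`, one of whose coefficients is a unit of the valuation subring `A`, is a fraction `a / s` of
integral elements with `s` a unit of `A`. -/
theorem exists_fraction_of_aeval_eq_zero {L : Type*} [Field L] (A : ValuationSubring L) {x : L}
    (hx : x ∈ A) :
    ∀ n : ℕ, ∀ g : Polynomial (integralClosure ℤ L), g.natDegree ≤ n →
      Polynomial.aeval x g = 0 →
      (∃ i, ((g.coeff i : integralClosure ℤ L) : L) ∉ A.nonunits) →
      ∃ a s : integralClosure ℤ L, (s : L) ∉ A.nonunits ∧ x * (s : L) = (a : L) := by
  intro n
  induction n with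
  | zero =>
    intro g hg hg0 ⟨i, hi⟩
    exfalso
    rw [Polynomial.eq_C_of_natDegree_le_zero hg] at hg0 hi
    rw [Polynomial.aeval_C] at hg0
    have h0 : g.coeff 0 = 0 := by
      apply Subtype.ext
      simpa using hg0
    apply hi
    rw [h0]
    simp
  | succ n ih =>
    intro g hg hg0 ⟨i, hi⟩
    by_cases hgn : g.natDegree ≤ n
    · exact ih g hgn hg0 ⟨i, hi⟩
    have hdeg : g.natDegree = n + 1 := by omega
    have hy : IsIntegral (integralClosure ℤ L) (g.leadingCoeff • x) :=
      isIntegral_leadingCoeff_smul g x hg0
    have hy' : g.leadingCoeff • x ∈ integralClosure ℤ L :=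
      (mem_integralClosure_iff ℤ L).mpr (isIntegral_trans _ hy)
    have hyx : g.leadingCoeff • x = (g.leadingCoeff : L) * x := rfl
    by_cases hc : ((g.leadingCoeff : integralClosure ℤ L) : L) ∈ A.nonunits
    · -- the leading coefficient is a non-unit
      have hyn : (g.leadingCoeff : L) * x ∈ A.nonunits := by
        rw [ValuationSubring.mem_nonunits_iff] at hc ⊢
        rw [map_mul]
        have hx1 : A.valuation x ≤ 1 := (A.valuation_le_one_iff x).mpr hx
        calc A.valuation (g.leadingCoeff : L) * A.valuation x
            ≤ A.valuation (g.leadingCoeff : L) * 1 := by gcongr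
          _ = A.valuation (g.leadingCoeff : L) := mul_one _
          _ < 1 := hc
      set y' : integralClosure ℤ L := ⟨g.leadingCoeff • x, hy'⟩ with hy'def
      have hy'coe : (y' : L) = (g.leadingCoeff : L) * x := rfl
      have hne : i ≠ n + 1 := by
        rintro rfl
        apply hi
        rw [← hdeg]
        exact hc
      refine ih (g.eraseLead + Polynomial.C y' * Polynomial.X ^ n) ?_ ?_ ⟨i, ?_⟩
      · refine (Polynomial.natDegree_add_le _ _).trans (max_le ?_ ?_)
        · have := Polynomial.eraseLead_natDegree_le g
          omega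
        · exact Polynomial.natDegree_C_mul_X_pow_le _ _
      · have h1 : Polynomial.aeval x g.eraseLead
            + (g.leadingCoeff : L) * x ^ (n + 1) = 0 := by
          have h2 := congrArg (Polynomial.aeval x) (Polynomial.eraseLead_add_C_mul_X_pow g)
          rw [hg0, hdeg] at h2
          simpa using h2
        have h3 : Polynomial.aeval x (g.eraseLead + Polynomial.C y' * Polynomial.X ^ n)
            = Polynomial.aeval x g.eraseLead + (g.leadingCoeff : L) * x * x ^ n := by
          simp [hy'coe]
        rw [h3, ← h1]
        ring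
      · rw [Polynomial.coeff_add, Polynomial.eraseLead_coeff, if_neg (by rw [hdeg]; exact hne),
          Polynomial.coeff_C_mul_X_pow]
        split_ifs with hin
        · have hcoe : ((g.coeff i + y' : integralClosure ℤ L) : L)
              = (g.coeff i : L) + (y' : L) := rfl
          rw [hcoe]
          exact add_not_mem_nonunits A hi hyn
        · simpa using hi
    · exact ⟨⟨g.leadingCoeff • x, hy'⟩, g.leadingCoeff, hc, mul_comm _ _⟩

/-- Every algebraic element `x` of a valuation subring `A` (of a characteristic-zero field) in which the prime `ℓ` is a non-unit can be written as `a / s` with `a`, `s` integral over `ℤ` and `s` a unit of `A`. -/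
theorem exists_integral_fraction {L : Type*} [Field L] [CharZero L] (A : ValuationSubring L)
    {ℓ : ℕ} (hℓ : ℓ.Prime) (hℓA : (ℓ : L) ∈ A.nonunits) {x : L} (hx : x ∈ A)
    (hxalg : IsAlgebraic ℤ x) :
    ∃ a s : L, IsIntegral ℤ a ∧ IsIntegral ℤ s ∧ s ∉ A.nonunits ∧ x * s = a := by
  obtain ⟨p, hp0, hpx⟩ := hxalg
  -- pass to the primitive part
  have hq0 : Polynomial.aeval x p.primPart = 0 := by
    have h1 := congrArg (Polynomial.aeval x) p.eq_C_content_mul_primPart
    rw [hpx, map_mul, Polynomial.aeval_C] at h1
    have hc : (algebraMap ℤ L) p.content ≠ 0 := by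
      simpa using Polynomial.content_eq_zero_iff.not.mpr hp0
    exact (mul_eq_zero.mp h1.symm).resolve_left hc
  have hprim : p.primPart.IsPrimitive := p.isPrimitive_primPart
  -- some coefficient is not divisible by `ℓ`
  obtain ⟨i, hi⟩ : ∃ i, ¬ ((ℓ : ℤ) ∣ p.primPart.coeff i) := by
    by_contra hcon
    push Not at hcon
    have hdvd : Polynomial.C (ℓ : ℤ) ∣ p.primPart :=
      (Polynomial.C_dvd_iff_dvd_coeff _ _).mpr hcon
    have hu : IsUnit (ℓ : ℤ) := hprim _ hdvd
    have h1 := Int.isUnit_iff.mp hu
    have h2 := hℓ.two_le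
    omega
  have hcop : IsCoprime (ℓ : ℤ) (p.primPart.coeff i) :=
    (Nat.prime_iff_prime_int.mp hℓ).coprime_iff_not_dvd.mpr hi
  obtain ⟨u, w, huw⟩ := hcop
  have hci : ((p.primPart.coeff i : ℤ) : L) ∉ A.nonunits := by
    intro hmem
    have h1 : (1 : L) ∈ A.nonunits := by
      have h2 : (1 : L) = u • (ℓ : L) + w • ((p.primPart.coeff i : ℤ) : L) := by
        have h3 := congrArg (Int.cast : ℤ → L) huw
        push_cast at h3
        rw [zsmul_eq_mul, zsmul_eq_mul]
        exact h3.symm
      rw [h2]
      exact A.nonunits.add_mem (A.nonunits.zsmul_mem hℓA u) (A.nonunits.zsmul_mem hmem w)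
    rw [ValuationSubring.mem_nonunits_iff, map_one] at h1
    exact lt_irrefl _ h1
  obtain ⟨a, s, hs, has⟩ := exists_fraction_of_aeval_eq_zero A hx _
    (p.primPart.map (algebraMap ℤ (integralClosure ℤ L))) le_rfl
    (by rw [Polynomial.aeval_map_algebraMap]; exact hq0)
    ⟨i, by rw [Polynomial.coeff_map]; simpa using hci⟩
  exact ⟨a, s, a.2, s.2, hs, has⟩

end Fermat.Agent.Lib.IntegralFraction
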