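import Fermat.Prelude.Def_EllipticCurve_FrobeniusTrace
import Fermat.Agent.Lib.IntegralFraction
import Mathlib

set_option autoImplicit false

namespace Fermat.Agent.Lib.FrobeniusExists

open scoped Pointwise

section General

variable {L : Type*} [Field L]

/-- Integral elements lie in every valuation subring. -/
theorem mem_of_isIntegral_int (A : ValuationSubring L) {x : L} (hx : IsIntegral ℤ x) : x ∈ A := by
  have h1 : IsIntegral A x := hx.tower_top
  obtain ⟨y, rfl⟩ := IsIntegrallyClosed.isIntegral_iff.mp h1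
  exact y.2

variable [Algebra ℚ L]

/-- The Galois action on the ring of algebraic integers of `L`. -/
@[instance_reducible]
noncomputable def integralClosureAction :
    MulSemiringAction (L ≃ₐ[ℚ] L) (integralClosure ℤ L) where
  smul g x := ⟨g x.1, map_isIntegral_int g x.2⟩
  one_smul _ := Subtype.ext rfl
  mul_smul _ _ _ := Subtype.ext rfl
  smul_zero g := Subtype.ext (map_zero g)
  smul_add g _ _ := Subtype.ext (map_add g _ _)
  smul_one g := Subtype.ext (map_one g)
  smul_mul g _ _ := Subtype.ext (map_mul g _ _)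

/-- Step 1: a Galois element stabilising the prime of the ring of algebraic integers cut out by
`A` and acting as the `ℓ`-power map modulo this prime. -/
theorem exists_frob_on_integers [IsAlgClosure ℚ L] (ℓ : ℕ) (hℓ : ℓ.Prime) (A : ValuationSubring L)
    (hA : (ℓ : L) ∈ A.nonunits) :
    ∃ σ : L ≃ₐ[ℚ] L, (∀ s : L, IsIntegral ℤ s → (σ s ∈ A.nonunits ↔ s ∈ A.nonunits)) ∧
      ∀ s : L, IsIntegral ℤ s → σ s - s ^ ℓ ∈ A.nonunits := by
  classical
  have : IsAlgClosed L := IsAlgClosure.isAlgClosed ℚ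
  have : Algebra.IsAlgebraic ℚ L := IsAlgClosure.isAlgebraic
  have : Fact ℓ.Prime := ⟨hℓ⟩
  let act : MulSemiringAction (L ≃ₐ[ℚ] L) (integralClosure ℤ L) := integralClosureAction
  let : TopologicalSpace (integralClosure ℤ L) := ⊥
  have : DiscreteTopology (integralClosure ℤ L) := ⟨rfl⟩
  have : ContinuousSMul (L ≃ₐ[ℚ] L) (integralClosure ℤ L) := by
    rw [continuousSMul_iff_stabilizer_isOpen]
    intro x
    have h := stabilizer_isOpen_of_isIntegral (K := ℚ) (x : L)
    convert h using 1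
    ext g
    simp only [SetLike.mem_coe, MulAction.mem_stabilizer_iff]
    exact ⟨fun h => congrArg Subtype.val h, fun h => Subtype.ext h⟩
  have : Algebra.IsInvariant ℤ (integralClosure ℤ L) (L ≃ₐ[ℚ] L) := by
    refine ⟨fun b hb => ?_⟩
    obtain ⟨q, hq⟩ := (InfiniteGalois.mem_range_algebraMap_iff_fixed (k := ℚ) (b : L)).mpr
      (fun g => congrArg Subtype.val (hb g))
    have hb2 : IsIntegral ℤ (b : L) := b.2
    rw [← hq, isIntegral_algebraMap_iff (FaithfulSMul.algebraMap_injective ℚ L)] at hb2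
    obtain ⟨n, hn⟩ := IsIntegrallyClosed.isIntegral_iff.mp hb2
    refine ⟨n, Subtype.ext ?_⟩
    rw [← hq, ← hn]
    simp
  -- the prime of the ring of integers cut out by `A`
  let ι : integralClosure ℤ L →+* A :=
    (algebraMap (integralClosure ℤ L) L).codRestrict A (fun s => mem_of_isIntegral_int A s.2)
  let Q : Ideal (integralClosure ℤ L) := (IsLocalRing.maximalIdeal A).comap ι
  have hQmem : ∀ s : integralClosure ℤ L, s ∈ Q ↔ (s : L) ∈ A.nonunits := by
    intro s
    show ι s ∈ IsLocalRing.maximalIdeal A ↔ _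
    rw [← ValuationSubring.coe_mem_nonunits_iff]
    rfl
  have hQprime : Q.IsPrime := Ideal.comap_isPrime ι _
  have : IsDomain (integralClosure ℤ L ⧸ Q) := Ideal.Quotient.isDomain Q
  -- the residue ring has characteristic `ℓ`
  have : CharP (integralClosure ℤ L ⧸ Q) ℓ := by
    rw [CharP.charP_iff_prime_eq_zero hℓ]
    have : ((ℓ : integralClosure ℤ L) : integralClosure ℤ L ⧸ Q) = 0 := by
      rw [Ideal.Quotient.eq_zero_iff_mem, hQmem]
      simpa using hA
    simpa using this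
  -- the Frobenius of the residue ring is bijective
  have hsurj : Function.Surjective (frobenius (integralClosure ℤ L ⧸ Q) ℓ) := by
    intro y
    obtain ⟨y, rfl⟩ := Ideal.Quotient.mk_surjective y
    obtain ⟨z, hz⟩ := IsAlgClosed.exists_pow_nat_eq (y : L) hℓ.pos
    have hzint : IsIntegral ℤ z := IsIntegral.of_pow hℓ.pos (hz ▸ y.2)
    refine ⟨Ideal.Quotient.mk Q ⟨z, hzint⟩, ?_⟩
    rw [frobenius_def, ← map_pow]
    congr 1
    exact Subtype.ext hz
  let P : Ideal ℤ := Q.under ℤ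
  let frobEquiv : (integralClosure ℤ L ⧸ Q) ≃+* (integralClosure ℤ L ⧸ Q) :=
    RingEquiv.ofBijective (frobenius (integralClosure ℤ L ⧸ Q) ℓ) ⟨frobenius_inj _ ℓ, hsurj⟩
  let φ : (integralClosure ℤ L ⧸ Q) ≃ₐ[ℤ ⧸ P] (integralClosure ℤ L ⧸ Q) :=
    AlgEquiv.ofRingEquiv (f := frobEquiv) (by
      intro r
      obtain ⟨n, rfl⟩ := Ideal.Quotient.mk_surjective r
      have := RingHom.congr_fun (Subsingleton.elim
        ((frobenius (integralClosure ℤ L ⧸ Q) ℓ).comp
          ((algebraMap (ℤ ⧸ P) (integralClosure ℤ L ⧸ Q)).comp (Ideal.Quotient.mk P)))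
        ((algebraMap (ℤ ⧸ P) (integralClosure ℤ L ⧸ Q)).comp (Ideal.Quotient.mk P))) n
      exact this)
  obtain ⟨⟨σ, hσQ⟩, hσ⟩ :=
    Ideal.Quotient.stabilizerHom_surjective_of_profinite (G := L ≃ₐ[ℚ] L) P Q φ
  refine ⟨σ, fun s hs => ?_, fun s hs => ?_⟩
  · have h1 : σ • Q = Q := hσQ
    have h2 : (σ • (⟨s, hs⟩ : integralClosure ℤ L)) ∈ σ • Q ↔
        (⟨s, hs⟩ : integralClosure ℤ L) ∈ Q := Ideal.smul_mem_pointwise_smul_iff
    rw [h1, hQmem, hQmem] at h2
    exact h2
  · have h2 : Ideal.Quotient.mk Q (σ • (⟨s, hs⟩ : integralClosure ℤ L)) =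
        Ideal.Quotient.mk Q ((⟨s, hs⟩ : integralClosure ℤ L) ^ ℓ) := by
      have h3 := congrArg (fun f => f (Ideal.Quotient.mk Q ⟨s, hs⟩)) hσ
      rw [map_pow]
      exact h3
    rw [Ideal.Quotient.eq, hQmem] at h2
    exact h2

/-- Step 2: a Galois element which preserves "being a non-unit of `A`" on algebraic integers maps
`A` into itself. -/
theorem map_mem_of_forall_integral [IsAlgClosure ℚ L] {ℓ : ℕ} (hℓ : ℓ.Prime)
    (A : ValuationSubring L) (hA : (ℓ : L) ∈ A.nonunits) (τ : L ≃ₐ[ℚ] L)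
    (hτ : ∀ s : L, IsIntegral ℤ s → (τ s ∈ A.nonunits ↔ s ∈ A.nonunits)) {x : L} (hx : x ∈ A) :
    τ x ∈ A := by
  have : Algebra.IsAlgebraic ℚ L := IsAlgClosure.isAlgebraic
  have : CharZero L := algebraRat.charZero L
  have hxalg : IsAlgebraic ℤ x :=
    (IsFractionRing.isAlgebraic_iff ℤ ℚ L).mpr (Algebra.IsAlgebraic.isAlgebraic x)
  obtain ⟨a, s, ha, hs, hsA, hxs⟩ :=
    Fermat.Agent.Lib.IntegralFraction.exists_integral_fraction A hℓ hA hx hxalg
  have hτs : A.valuation (τ s) = 1 := by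
    have h1 : A.valuation (τ s) ≤ 1 :=
      (A.valuation_le_one_iff _).mpr (mem_of_isIntegral_int A (map_isIntegral_int τ hs))
    have h2 : ¬ A.valuation (τ s) < 1 := fun h =>
      hsA ((hτ s hs).mp (A.mem_nonunits_iff.mpr h))
    exact le_antisymm h1 (not_lt.mp h2)
  have hτa : A.valuation (τ a) ≤ 1 :=
    (A.valuation_le_one_iff _).mpr (mem_of_isIntegral_int A (map_isIntegral_int τ ha))
  have h3 : τ x * τ s = τ a := by rw [← map_mul, hxs]
  rw [← A.valuation_le_one_iff]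
  calc A.valuation (τ x) = A.valuation (τ x) * A.valuation (τ s) := by rw [hτs, mul_one]
    _ = A.valuation (τ a) := by rw [← map_mul, h3]
    _ ≤ 1 := hτa

/-- Step 3: the Frobenius congruence extends from algebraic integers to all of `A`. -/
theorem frob_congr_of_forall_integral [IsAlgClosure ℚ L] {ℓ : ℕ} (hℓ : ℓ.Prime)
    (A : ValuationSubring L) (hA : (ℓ : L) ∈ A.nonunits) (σ : L ≃ₐ[ℚ] L)
    (hσ : ∀ s : L, IsIntegral ℤ s → (σ s ∈ A.nonunits ↔ s ∈ A.nonunits))
    (hfrob : ∀ s : L, IsIntegral ℤ s → σ s - s ^ ℓ ∈ A.nonunits) {x : L} (hx : x ∈ A) :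
    σ x - x ^ ℓ ∈ A.nonunits := by
  have : Algebra.IsAlgebraic ℚ L := IsAlgClosure.isAlgebraic
  have : CharZero L := algebraRat.charZero L
  have hxalg : IsAlgebraic ℤ x :=
    (IsFractionRing.isAlgebraic_iff ℤ ℚ L).mpr (Algebra.IsAlgebraic.isAlgebraic x)
  obtain ⟨a, s, ha, hs, hsA, hxs⟩ :=
    Fermat.Agent.Lib.IntegralFraction.exists_integral_fraction A hℓ hA hx hxalg
  have hv : ∀ t : L, IsIntegral ℤ t → A.valuation t ≤ 1 := fun t ht =>
    (A.valuation_le_one_iff _).mpr (mem_of_isIntegral_int A ht)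
  have hs1 : A.valuation s = 1 :=
    le_antisymm (hv s hs) (not_lt.mp fun h => hsA (A.mem_nonunits_iff.mpr h))
  have hσs1 : A.valuation (σ s) = 1 :=
    le_antisymm (hv _ (map_isIntegral_int σ hs))
      (not_lt.mp fun h => hsA ((hσ s hs).mp (A.mem_nonunits_iff.mpr h)))
  have hid : (σ x - x ^ ℓ) * (σ s * s ^ ℓ) =
      (σ a - a ^ ℓ) * s ^ ℓ - a ^ ℓ * (σ s - s ^ ℓ) := by
    have h1 : σ x * σ s = σ a := by rw [← map_mul, hxs]
    have h2 : x ^ ℓ * s ^ ℓ = a ^ ℓ := by rw [← mul_pow, hxs]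
    linear_combination (s ^ ℓ) * h1 - (σ s) * h2
  rw [A.mem_nonunits_iff]
  have h3 : A.valuation ((σ x - x ^ ℓ) * (σ s * s ^ ℓ)) < 1 := by
    rw [hid]
    apply Valuation.map_sub_lt
    · rw [map_mul, map_pow, hs1, one_pow, mul_one]
      exact A.mem_nonunits_iff.mp (hfrob a ha)
    · rw [map_mul]
      have h4 : A.valuation (a ^ ℓ) ≤ 1 := hv _ (ha.pow ℓ)
      have h5 : A.valuation (σ s - s ^ ℓ) < 1 := A.mem_nonunits_iff.mp (hfrob s hs)
      exact mul_lt_one_of_nonneg_of_lt_one_right h4 zero_le h5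
  rwa [map_mul, map_mul, map_pow, hs1, hσs1, one_pow, mul_one, mul_one] at h3

/-- Every valuation subring of an algebraic closure of `ℚ` in which the prime `ℓ` is a non-unit
admits a Frobenius element. -/
theorem exists_isFrobeniusAt_of_isAlgClosure [IsAlgClosure ℚ L] (ℓ : ℕ) (hℓ : ℓ.Prime)
    (A : ValuationSubring L) (hA : (ℓ : L) ∈ A.nonunits) :
    ∃ σ : L ≃ₐ[ℚ] L, A.IsFrobeniusAt σ ℓ := by
  obtain ⟨σ, hσ, hfrob⟩ := exists_frob_on_integers ℓ hℓ A hA
  have hσsymm : ∀ s : L, IsIntegral ℤ s → (σ.symm s ∈ A.nonunits ↔ s ∈ A.nonunits) := by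
    intro s hs
    have h := hσ (σ.symm s) (map_isIntegral_int σ.symm hs)
    rw [AlgEquiv.apply_symm_apply] at h
    exact h.symm
  have hmem : σ ∈ A.decompositionSubgroup ℚ := by
    rw [MulAction.mem_stabilizer_iff]
    refine SetLike.ext fun x => ?_
    rw [ValuationSubring.mem_pointwise_smul_iff_inv_smul_mem]
    constructor
    · intro h
      have h2 := map_mem_of_forall_integral hℓ A hA σ hσ h
      have h3 : σ (σ⁻¹ • x) = x := AlgEquiv.apply_symm_apply σ x
      rwa [h3] at h2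
    · intro h
      exact map_mem_of_forall_integral hℓ A hA σ.symm hσsymm h
  refine ⟨σ, hmem, fun x => ?_⟩
  obtain ⟨a, rfl⟩ := IsLocalRing.residue_surjective x
  rw [← IsLocalRing.ResidueField.residue_smul, ← map_pow]
  refine Ideal.Quotient.eq.mpr ?_
  rw [← ValuationSubring.coe_mem_nonunits_iff]
  exact frob_congr_of_forall_integral hℓ A hA σ hσ hfrob a.2

/-- In a field of characteristic zero there is a valuation subring in which a given prime number
is a non-unit. -/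
theorem exists_natCast_mem_nonunits (ℓ : ℕ) (hℓ : ℓ.Prime) :
    ∃ A : ValuationSubring L, (ℓ : L) ∈ A.nonunits := by
  have : CharZero L := algebraRat.charZero L
  have hI : Ideal.span {((ℓ : ℕ) : (⊥ : Subring L))} ≠ ⊤ := by
    rw [Ne, Ideal.span_singleton_eq_top]
    intro hu
    obtain ⟨b, hb⟩ := isUnit_iff_exists_inv.mp hu
    obtain ⟨n, hn⟩ := Subring.mem_bot.mp b.2
    have h1 : ((ℓ : ℤ) * n : ℤ) = 1 := by
      have h2 : ((ℓ : ℕ) : L) * (b : L) = 1 := congrArg Subtype.val hb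
      rw [← hn] at h2
      exact_mod_cast h2
    have h3 := Int.isUnit_iff.mp (IsUnit.of_mul_eq_one _ h1)
    have h4 := hℓ.two_le
    omega
  obtain ⟨B, -, hB⟩ := Ideal.image_subset_nonunits_valuationSubring _ hI
  exact ⟨B, hB ⟨_, Ideal.subset_span rfl, rfl⟩⟩

end General

/-- `AlgebraicClosure ℚ` is an algebraic closure of `ℚ` for the canonical `ℚ`-algebra structure of
a division ring (the one used in `AlgebraicClosure ℚ ≃ₐ[ℚ] AlgebraicClosure ℚ`). -/
theorem isAlgClosure_rat : IsAlgClosure ℚ (AlgebraicClosure ℚ) := by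
  have h : (AlgebraicClosure.instAlgebra ℚ : Algebra ℚ (AlgebraicClosure ℚ)) =
      DivisionRing.toRatAlgebra := Subsingleton.elim _ _
  rw [← h]
  infer_instance

/-- For every prime `ℓ` there is a valuation subring of `AlgebraicClosure ℚ` lying over `ℓ`. -/
theorem exists_liesOverPrime (ℓ : ℕ) (hℓ : ℓ.Prime) :
    ∃ A : ValuationSubring (AlgebraicClosure ℚ), A.LiesOverPrime ℓ :=
  exists_natCast_mem_nonunits ℓ hℓ

/-- Every valuation subring of `AlgebraicClosure ℚ` lying over a prime `ℓ` admits a Frobenius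
element. -/
theorem exists_isFrobeniusAt (ℓ : ℕ) (hℓ : ℓ.Prime) (A : ValuationSubring (AlgebraicClosure ℚ))
    (hA : A.LiesOverPrime ℓ) :
    ∃ σ : AlgebraicClosure ℚ ≃ₐ[ℚ] AlgebraicClosure ℚ, A.IsFrobeniusAt σ ℓ :=
  haveI := isAlgClosure_rat
  exists_isFrobeniusAt_of_isAlgClosure ℓ hℓ A hA

/-- For every prime `ℓ` there are a valuation subring of `AlgebraicClosure ℚ` lying over `ℓ` and a
Frobenius element for it. -/
theorem exists_frobenius (ℓ : ℕ) (hℓ : ℓ.Prime) :
    ∃ (A : ValuationSubring (AlgebraicClosure ℚ))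
      (σ : AlgebraicClosure ℚ ≃ₐ[ℚ] AlgebraicClosure ℚ),
      A.LiesOverPrime ℓ ∧ A.IsFrobeniusAt σ ℓ := by
  obtain ⟨A, hA⟩ := exists_liesOverPrime ℓ hℓ
  obtain ⟨σ, hσ⟩ := exists_isFrobeniusAt ℓ hℓ A hA
  exact ⟨A, σ, hA, hσ⟩

end Fermat.Agent.Lib.FrobeniusExists
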