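import Mathlib
import Fermat.Agent.Lib.CyclotomicRingHom

/-!
Kummer's logarithmic-derivative criterion modulo `p = 11` (Task B of Kummer's lemma).

If a product of powers of the cyclotomic units `ζ, 1 + ζ, 1 + ζ + ζ², …` times a `p`-th power of
a unit is congruent to a rational integer modulo `p`, then all exponents are divisible by `p`.

Proof: let `M = 𝔽_p[x]/(x^(p-2))` and let `D = M[ε]` be the dual numbers over `M`.  There is a
ring hom `Ψ : 𝓞 K → D` with `Ψ ζ = 1 + x + ε` (it is `f(ζ) ↦ f(1+x) + f'(1+x) ε`).  The map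
`U ↦ snd U / fst U` is a homomorphism `Dˣ → (M, +)` (logarithmic derivative) killing `p`-th
powers and the images of rational integers, so the hypothesis gives a linear relation
`∑ e_i w_i = 0` in `M` between explicit elements `w_i`; their coordinates in the basis
`1, x, …, x^(p-3)` form a matrix of rank `(p-1)/2` over `𝔽_p` (certificates computed offline).
-/

set_option autoImplicit false
namespace Fermat.Agent.Lib.KummerDlog11
open NumberField

section Aux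

open Polynomial

/-- In characteristic `p`, `1 + t + ⋯ + t^(p-1) = (t - 1)^(p-1)`. -/
theorem geom_sum_eq_sub_one_pow {R : Type*} [CommRing R] (p : ℕ) [hp : Fact p.Prime] [CharP R p]
    (t : R) : ∑ i ∈ Finset.range p, t ^ i = (t - 1) ^ (p - 1) := by
  have h1 : cyclotomic p R = (X - 1) ^ (p - 1) := by
    have h := cyclotomic_mul_prime_eq_pow_of_not_dvd R (p := p) (n := 1)
      (fun h => hp.out.one_lt.ne' (Nat.dvd_one.mp h))
    simpa [cyclotomic_one] using h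
  have h2 := congrArg (Polynomial.eval t) h1
  rw [cyclotomic_prime] at h2
  simpa [eval_finsetSum] using h2

theorem fst_mul_fst_inv {M : Type*} [CommRing M] (U : (TrivSqZeroExt M M)ˣ) :
    TrivSqZeroExt.fst (U : TrivSqZeroExt M M) *
      TrivSqZeroExt.fst ((U⁻¹ : (TrivSqZeroExt M M)ˣ) : TrivSqZeroExt M M) = 1 := by
  rw [← TrivSqZeroExt.fst_mul, Units.mul_inv, TrivSqZeroExt.fst_one]

/-- The logarithmic derivative `a + b ε ↦ b / a` on the units of the dual numbers over `M`,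
as a monoid hom to the additive group of `M`. -/
noncomputable def dlog (M : Type*) [CommRing M] : (TrivSqZeroExt M M)ˣ →* Multiplicative M where
  toFun U := Multiplicative.ofAdd
    (TrivSqZeroExt.snd (U : TrivSqZeroExt M M) *
      TrivSqZeroExt.fst ((U⁻¹ : (TrivSqZeroExt M M)ˣ) : TrivSqZeroExt M M))
  map_one' := by simp
  map_mul' U V := by
    rw [← ofAdd_add]
    congr 1
    rw [mul_inv_rev, Units.val_mul, Units.val_mul, TrivSqZeroExt.snd_mul, TrivSqZeroExt.fst_mul]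
    simp only [smul_eq_mul, MulOpposite.smul_eq_mul_unop, MulOpposite.unop_op]
    linear_combination
      (TrivSqZeroExt.snd (V : TrivSqZeroExt M M) *
        TrivSqZeroExt.fst ((V⁻¹ : (TrivSqZeroExt M M)ˣ) : TrivSqZeroExt M M)) *
          fst_mul_fst_inv U +
      (TrivSqZeroExt.snd (U : TrivSqZeroExt M M) *
        TrivSqZeroExt.fst ((U⁻¹ : (TrivSqZeroExt M M)ˣ) : TrivSqZeroExt M M)) *
          fst_mul_fst_inv V

theorem dlog_apply (M : Type*) [CommRing M] (U : (TrivSqZeroExt M M)ˣ) :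
    (dlog M U).toAdd = TrivSqZeroExt.snd (U : TrivSqZeroExt M M) *
      TrivSqZeroExt.fst ((U⁻¹ : (TrivSqZeroExt M M)ˣ) : TrivSqZeroExt M M) := rfl

/-- The logarithmic-derivative relation: if the `ε`-component of `(∏ U_i ^ e_i) * V ^ p`
vanishes in the dual numbers over a ring `M` with `p = 0`, then
`∑ e_i * snd U_i * ∏_{j ≠ i} fst U_j = 0`. -/
theorem dlog_relation {M : Type*} [CommRing M] {ι : Type*} [Fintype ι] [DecidableEq ι] (p : ℕ)
    (hp : (p : M) = 0) (U : ι → (TrivSqZeroExt M M)ˣ) (e : ι → ℤ) (V : (TrivSqZeroExt M M)ˣ)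
    (h : TrivSqZeroExt.snd
      (((∏ i, U i ^ e i) * V ^ p : (TrivSqZeroExt M M)ˣ) : TrivSqZeroExt M M) = 0) :
    ∑ i, (e i : M) * (TrivSqZeroExt.snd (U i : TrivSqZeroExt M M) *
      ∏ j ∈ Finset.univ.erase i, TrivSqZeroExt.fst (U j : TrivSqZeroExt M M)) = 0 := by
  have h1 : (dlog M ((∏ i, U i ^ e i) * V ^ p)).toAdd = 0 := by
    rw [dlog_apply, h, zero_mul]
  rw [map_mul, map_prod, toAdd_mul, toAdd_prod, map_pow, toAdd_pow] at h1
  simp only [map_zpow, toAdd_zpow, dlog_apply] at h1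
  have h2 : p • (TrivSqZeroExt.snd (V : TrivSqZeroExt M M) *
      TrivSqZeroExt.fst ((V⁻¹ : (TrivSqZeroExt M M)ˣ) : TrivSqZeroExt M M)) = 0 := by
    rw [nsmul_eq_mul, hp, zero_mul]
  rw [h2, add_zero] at h1
  have h3 := congrArg (fun m => m * ∏ j, TrivSqZeroExt.fst (U j : TrivSqZeroExt M M)) h1
  simp only [Finset.sum_mul, zero_mul] at h3
  rw [← h3]
  refine Finset.sum_congr rfl fun i _ => ?_
  rw [← Finset.mul_prod_erase Finset.univ _ (Finset.mem_univ i), zsmul_eq_mul]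
  linear_combination (-(e i : M) * TrivSqZeroExt.snd (U i : TrivSqZeroExt M M) *
    ∏ j ∈ Finset.univ.erase i, TrivSqZeroExt.fst (U j : TrivSqZeroExt M M)) * fst_mul_fst_inv (U i)

/-- `1 + x + ε` is a root of `1 + X + ⋯ + X^(p-1)` in the dual numbers over a ring `M` of
characteristic `p` in which `x ^ (p - 2) = 0`. -/
theorem sum_pow_eq_zero {M : Type*} [CommRing M] (p : ℕ) [hp : Fact p.Prime] [CharP M p] (x : M)
    (hx : x ^ (p - 2) = 0) :
    ∑ i ∈ Finset.range p,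
      (TrivSqZeroExt.inl (1 + x) + TrivSqZeroExt.inr 1 : TrivSqZeroExt M M) ^ i = 0 := by
  have : CharP (TrivSqZeroExt M M) p :=
    charP_of_injective_ringHom (f := TrivSqZeroExt.inlHom M M) TrivSqZeroExt.inl_injective p
  rw [geom_sum_eq_sub_one_pow p]
  have h1 : (TrivSqZeroExt.inl (1 + x) + TrivSqZeroExt.inr 1 : TrivSqZeroExt M M) - 1 =
      TrivSqZeroExt.inl x + TrivSqZeroExt.inr 1 := by
    ext <;> simp
  have h2 : x ^ (p - 1) = 0 := by
    have : p - 1 = (p - 2) + 1 := by have := hp.out.two_le; omega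
    rw [this, pow_succ, hx, zero_mul]
  have h3 : p - 1 - 1 = p - 2 := rfl
  rw [h1]
  ext
  · simp [h2]
  · simp [h3, hx]

/-- The `M`-component of the image of the `i`-th cyclotomic unit under `ζ ↦ 1 + x + ε`. -/
def unitFst {M : Type*} [CommRing M] (x : M) {m : ℕ} [NeZero m] (i : Fin m) : M :=
  if i = 0 then 1 + x else ∑ j ∈ Finset.range (i.val + 1), (1 + x) ^ j

/-- The `ε`-component of the image of the `i`-th cyclotomic unit under `ζ ↦ 1 + x + ε`. -/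
def unitSnd {M : Type*} [CommRing M] (x : M) {m : ℕ} [NeZero m] (i : Fin m) : M :=
  if i = 0 then 1 else ∑ j ∈ Finset.range (i.val + 1), (j : M) * (1 + x) ^ (j - 1)

/-- Generic form of the criterion (any prime `p`, any number `m` of units): the hypothesis yields
a linear relation between explicit elements of any commutative ring `M` of characteristic `p`
containing an element `x` with `x ^ (p - 2) = 0`. -/
theorem relation_of_congr_int {p : ℕ} [hp : Fact p.Prime] {K : Type*} [Field K] [NumberField K]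
    [IsCyclotomicExtension {p} ℚ K] {ζ : K} (hζ : IsPrimitiveRoot ζ p)
    {M : Type*} [CommRing M] [CharP M p] (x : M) (hx : x ^ (p - 2) = 0)
    {m : ℕ} [NeZero m] (g : Fin m → (𝓞 K)ˣ)
    (hg0 : (g 0 : 𝓞 K) = hζ.toInteger)
    (hg : ∀ i : Fin m, i ≠ 0 → (g i : 𝓞 K) = ∑ j ∈ Finset.range (i.val + 1), hζ.toInteger ^ j)
    (e : Fin m → ℤ) (v : (𝓞 K)ˣ) (n : ℤ)
    (h : ((p : ℕ) : 𝓞 K) ∣ (((∏ i, g i ^ e i) * v ^ p : (𝓞 K)ˣ) : 𝓞 K) - n) :
    ∑ i, (e i : M) * (unitSnd x i * ∏ j ∈ Finset.univ.erase i, unitFst x j) = 0 := by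
  obtain ⟨Ψ, hΨ⟩ := CyclotomicRingHom.exists_ringHom_of_root hζ
    (TrivSqZeroExt.inl (1 + x) + TrivSqZeroExt.inr 1 : TrivSqZeroExt M M) (sum_pow_eq_zero p x hx)
  have : CharP (TrivSqZeroExt M M) p :=
    charP_of_injective_ringHom (f := TrivSqZeroExt.inlHom M M) TrivSqZeroExt.inl_injective p
  let Ψu : (𝓞 K)ˣ →* (TrivSqZeroExt M M)ˣ := Units.map (Ψ : 𝓞 K →* TrivSqZeroExt M M)
  have hΨu : ∀ u : (𝓞 K)ˣ, ((Ψu u : (TrivSqZeroExt M M)ˣ) : TrivSqZeroExt M M) = Ψ (u : 𝓞 K) :=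
    fun u => rfl
  have hfst : ∀ i, TrivSqZeroExt.fst ((Ψu (g i) : (TrivSqZeroExt M M)ˣ) : TrivSqZeroExt M M) =
      unitFst x i := by
    intro i
    rw [hΨu, unitFst]
    split_ifs with hi
    · rw [hi, hg0, hΨ]; simp
    · rw [hg i hi, map_sum]
      simp [map_pow, hΨ, TrivSqZeroExt.fst_sum]
  have hsnd : ∀ i, TrivSqZeroExt.snd ((Ψu (g i) : (TrivSqZeroExt M M)ˣ) : TrivSqZeroExt M M) =
      unitSnd x i := by
    intro i
    rw [hΨu, unitSnd]
    split_ifs with hi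
    · rw [hi, hg0, hΨ]; simp
    · rw [hg i hi, map_sum]
      simp [map_pow, hΨ, TrivSqZeroExt.snd_sum, Nat.pred_eq_sub_one]
  have key := dlog_relation p (CharP.cast_eq_zero M p) (fun i => Ψu (g i)) e (Ψu v) ?_
  · simpa only [hfst, hsnd] using key
  · obtain ⟨k, hk⟩ := h
    have h1 : ((∏ i, Ψu (g i) ^ e i) * Ψu v ^ p : (TrivSqZeroExt M M)ˣ) =
        Ψu ((∏ i, g i ^ e i) * v ^ p) := by
      simp [map_mul, map_prod, map_zpow, map_pow]
    have h2 : Ψ (((∏ i, g i ^ e i) * v ^ p : (𝓞 K)ˣ) : 𝓞 K) = (n : TrivSqZeroExt M M) := by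
      have h3 := congrArg Ψ hk
      rw [map_sub, map_mul, map_natCast, map_intCast, CharP.cast_eq_zero, zero_mul,
        sub_eq_zero] at h3
      exact h3
    rw [h1, hΨu, h2, TrivSqZeroExt.snd_intCast]

/-- `1, x, …, x^(d-1)` are linearly independent in `R[X]/(X^d)`. -/
theorem coeffs_eq_zero {R : Type*} [CommRing R] (d : ℕ) (a : ℕ → R)
    (h : ∑ k ∈ Finset.range d,
      AdjoinRoot.of (X ^ d : R[X]) (a k) * AdjoinRoot.root (X ^ d : R[X]) ^ k = 0) :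
    ∀ k < d, a k = 0 := by
  have h1 : AdjoinRoot.mk (X ^ d : R[X]) (∑ k ∈ Finset.range d, C (a k) * X ^ k) = 0 := by
    rw [map_sum]
    simpa [AdjoinRoot.mk_C, AdjoinRoot.mk_X] using h
  rw [AdjoinRoot.mk_eq_zero, Polynomial.X_pow_dvd_iff] at h1
  intro k hk
  have h2 := h1 k hk
  simpa [Polynomial.finsetSum_coeff, hk] using h2

theorem charP_adjoinRoot (p : ℕ) [Fact p.Prime] (d : ℕ) (hd : d ≠ 0) :
    CharP (AdjoinRoot (X ^ d : (ZMod p)[X])) p :=
  charP_of_injective_ringHom (f := AdjoinRoot.of (X ^ d : (ZMod p)[X]))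
    (AdjoinRoot.of.injective_of_degree_ne_zero (by simp [hd])) p

theorem zmod_self_eq_zero : (11 : ZMod 11) = 0 := by decide

/-! ### Explicit computations for `p = 11`

`w_i = unitSnd x i * ∏_{j ≠ i} unitFst x j` reduced modulo `x ^ 9 = 0` and `11 = 0`. -/

theorem w0_eq {R : Type*} [CommRing R] (x : R) (hx : x ^ 9 = 0) (hp : (11 : R) = 0) :
    unitSnd x (0 : Fin 5) * ∏ j ∈ (Finset.univ : Finset (Fin 5)).erase 0, unitFst x j =
      10 + 6 * x + 9 * x ^ 2 + 1 * x ^ 5 + 10 * x ^ 6 + 10 * x ^ 7 + 2 * x ^ 8 := by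
  have hE : (Finset.univ : Finset (Fin 5)).erase 0 = {1, 2, 3, 4} := by
    decide
  rw [hE]
  simp [unitFst, unitSnd, Finset.sum_range_succ, Finset.prod_insert]
  linear_combination (14 + 1 * x) * hx +
    (
      10 + 54 * x + 131 * x ^ 2 + 200 * x ^ 3 + 209 * x ^ 4 + 156 * x ^ 5 + 83 * x ^ 6
      + 31 * x ^ 7 + 8 * x ^ 8) * hp

theorem w1_eq {R : Type*} [CommRing R] (x : R) (hx : x ^ 9 = 0) (hp : (11 : R) = 0) :
    unitSnd x (1 : Fin 5) * ∏ j ∈ (Finset.univ : Finset (Fin 5)).erase 1, unitFst x j =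
      5 + 2 * x ^ 2 + 9 * x ^ 3 + 1 * x ^ 4 + 10 * x ^ 7 + 1 * x ^ 8 := by
  have hE : (Finset.univ : Finset (Fin 5)).erase 1 = {0, 2, 3, 4} := by
    decide
  rw [hE]
  simp [unitFst, unitSnd, Finset.sum_range_succ, Finset.prod_insert]
  linear_combination (13 + 1 * x) * hx +
    (
      5 + 30 * x + 78 * x ^ 2 + 126 * x ^ 3 + 141 * x ^ 4 + 112 * x ^ 5 + 64 * x ^ 6 + 25 * x ^ 7
      + 7 * x ^ 8) * hp

theorem w2_eq {R : Type*} [CommRing R] (x : R) (hx : x ^ 9 = 0) (hp : (11 : R) = 0) :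
    unitSnd x (2 : Fin 5) * ∏ j ∈ (Finset.univ : Finset (Fin 5)).erase 2, unitFst x j =
      10 + 9 * x + 6 * x ^ 2 + 10 * x ^ 3 + 5 * x ^ 4 + 10 * x ^ 6 + 10 * x ^ 7 + 1 * x ^ 8 := by
  have hE : (Finset.univ : Finset (Fin 5)).erase 2 = {0, 1, 3, 4} := by
    decide
  rw [hE]
  simp [unitFst, unitSnd, Finset.sum_range_succ, Finset.prod_insert]
  linear_combination (27 + 2 * x) * hx +
    (
      10 + 61 * x + 164 * x ^ 2 + 270 * x ^ 3 + 304 * x ^ 4 + 243 * x ^ 5 + 138 * x ^ 6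
      + 55 * x ^ 7 + 15 * x ^ 8) * hp

theorem w3_eq {R : Type*} [CommRing R] (x : R) (hx : x ^ 9 = 0) (hp : (11 : R) = 0) :
    unitSnd x (3 : Fin 5) * ∏ j ∈ (Finset.univ : Finset (Fin 5)).erase 3, unitFst x j =
      4 + 5 * x + 1 * x ^ 2 + 4 * x ^ 3 + 10 * x ^ 4 + 2 * x ^ 6 + 6 * x ^ 7 + 3 * x ^ 8 := by
  have hE : (Finset.univ : Finset (Fin 5)).erase 3 = {0, 1, 2, 4} := by
    decide
  rw [hE]
  simp [unitFst, unitSnd, Finset.sum_range_succ, Finset.prod_insert]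
  linear_combination (41 + 3 * x) * hx +
    (
      16 + 95 * x + 259 * x ^ 2 + 431 * x ^ 3 + 486 * x ^ 4 + 388 * x ^ 5 + 220 * x ^ 6
      + 87 * x ^ 7 + 23 * x ^ 8) * hp

theorem w4_eq {R : Type*} [CommRing R] (x : R) (hx : x ^ 9 = 0) (hp : (11 : R) = 0) :
    unitSnd x (4 : Fin 5) * ∏ j ∈ (Finset.univ : Finset (Fin 5)).erase 4, unitFst x j =
      9 + 10 * x + 9 * x ^ 2 + 10 * x ^ 3 + 10 * x ^ 5 + 8 * x ^ 6 + 5 * x ^ 7 + 5 * x ^ 8 := by
  have hE : (Finset.univ : Finset (Fin 5)).erase 4 = {0, 1, 2, 3} := by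
    decide
  rw [hE]
  simp [unitFst, unitSnd, Finset.sum_range_succ, Finset.prod_insert]
  linear_combination (55 + 4 * x) * hx +
    (
      21 + 130 * x + 361 * x ^ 2 + 606 * x ^ 3 + 684 * x ^ 4 + 540 * x ^ 5 + 303 * x ^ 6
      + 119 * x ^ 7 + 31 * x ^ 8) * hp

/-- The linear relation in `𝔽_11[x]/(x^9)` forces all exponents to vanish modulo `11`:
the coefficient matrix has rank `5`. -/
theorem dvd_of_relation (e : Fin 5 → ℤ)
    (key : ∑ i, (e i : AdjoinRoot (X ^ 9 : (ZMod 11)[X])) *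
      (unitSnd (AdjoinRoot.root (X ^ 9 : (ZMod 11)[X])) i *
        ∏ j ∈ Finset.univ.erase i, unitFst (AdjoinRoot.root (X ^ 9 : (ZMod 11)[X])) j) = 0) :
    ∀ i, (11 : ℤ) ∣ e i := by
  have hx : AdjoinRoot.root (X ^ 9 : (ZMod 11)[X]) ^ 9 = 0 := by
    rw [← AdjoinRoot.mk_X, ← map_pow, AdjoinRoot.mk_self]
  have hp : (11 : AdjoinRoot (X ^ 9 : (ZMod 11)[X])) = 0 := by
    have h1 := congrArg (AdjoinRoot.of (X ^ 9 : (ZMod 11)[X])) zmod_self_eq_zero
    rw [map_ofNat, map_zero] at h1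
    exact h1
  rw [Fin.sum_univ_five, w0_eq _ hx hp, w1_eq _ hx hp, w2_eq _ hx hp, w3_eq _ hx hp, w4_eq _ hx hp] at key
  have hc := coeffs_eq_zero (R := ZMod 11) 9 (fun k => match k with
      | 0 =>
        10 * (e 0 : ZMod 11) + 5 * (e 1 : ZMod 11) + 10 * (e 2 : ZMod 11) + 4 * (e 3 : ZMod 11)
        + 9 * (e 4 : ZMod 11)
      | 1 =>
        6 * (e 0 : ZMod 11) + 9 * (e 2 : ZMod 11) + 5 * (e 3 : ZMod 11) + 10 * (e 4 : ZMod 11)
      | 2 =>
        9 * (e 0 : ZMod 11) + 2 * (e 1 : ZMod 11) + 6 * (e 2 : ZMod 11) + 1 * (e 3 : ZMod 11)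
        + 9 * (e 4 : ZMod 11)
      | 3 =>
        9 * (e 1 : ZMod 11) + 10 * (e 2 : ZMod 11) + 4 * (e 3 : ZMod 11) + 10 * (e 4 : ZMod 11)
      | 4 =>
        1 * (e 1 : ZMod 11) + 5 * (e 2 : ZMod 11) + 10 * (e 3 : ZMod 11)
      | 5 =>
        1 * (e 0 : ZMod 11) + 10 * (e 4 : ZMod 11)
      | 6 =>
        10 * (e 0 : ZMod 11) + 10 * (e 2 : ZMod 11) + 2 * (e 3 : ZMod 11) + 8 * (e 4 : ZMod 11)
      | 7 =>
        10 * (e 0 : ZMod 11) + 10 * (e 1 : ZMod 11) + 10 * (e 2 : ZMod 11) + 6 * (e 3 : ZMod 11)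
        + 5 * (e 4 : ZMod 11)
      | 8 =>
        2 * (e 0 : ZMod 11) + 1 * (e 1 : ZMod 11) + 1 * (e 2 : ZMod 11) + 3 * (e 3 : ZMod 11)
        + 5 * (e 4 : ZMod 11)
      | _ => 0) (by
    simp only [Finset.sum_range_succ, Finset.sum_range_zero, map_add, map_mul, map_intCast,
      map_ofNat, map_one]
    linear_combination key)
  have hc0 :
      10 * (e 0 : ZMod 11) + 5 * (e 1 : ZMod 11) + 10 * (e 2 : ZMod 11) + 4 * (e 3 : ZMod 11)
      + 9 * (e 4 : ZMod 11) = 0 :=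
    hc 0 (by norm_num)
  have hc1 :
      6 * (e 0 : ZMod 11) + 9 * (e 2 : ZMod 11) + 5 * (e 3 : ZMod 11) + 10 * (e 4 : ZMod 11) = 0 :=
    hc 1 (by norm_num)
  have hc2 :
      9 * (e 0 : ZMod 11) + 2 * (e 1 : ZMod 11) + 6 * (e 2 : ZMod 11) + 1 * (e 3 : ZMod 11)
      + 9 * (e 4 : ZMod 11) = 0 :=
    hc 2 (by norm_num)
  have hc3 :
      9 * (e 1 : ZMod 11) + 10 * (e 2 : ZMod 11) + 4 * (e 3 : ZMod 11) + 10 * (e 4 : ZMod 11) = 0 :=
    hc 3 (by norm_num)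
  have hc4 :
      1 * (e 1 : ZMod 11) + 5 * (e 2 : ZMod 11) + 10 * (e 3 : ZMod 11) = 0 :=
    hc 4 (by norm_num)
  have hc5 :
      1 * (e 0 : ZMod 11) + 10 * (e 4 : ZMod 11) = 0 :=
    hc 5 (by norm_num)
  have hc6 :
      10 * (e 0 : ZMod 11) + 10 * (e 2 : ZMod 11) + 2 * (e 3 : ZMod 11) + 8 * (e 4 : ZMod 11) = 0 :=
    hc 6 (by norm_num)
  have hc7 :
      10 * (e 0 : ZMod 11) + 10 * (e 1 : ZMod 11) + 10 * (e 2 : ZMod 11) + 6 * (e 3 : ZMod 11)
      + 5 * (e 4 : ZMod 11) = 0 :=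
    hc 7 (by norm_num)
  have hc8 :
      2 * (e 0 : ZMod 11) + 1 * (e 1 : ZMod 11) + 1 * (e 2 : ZMod 11) + 3 * (e 3 : ZMod 11)
      + 5 * (e 4 : ZMod 11) = 0 :=
    hc 8 (by norm_num)
  have hz : (11 : ZMod 11) = 0 := zmod_self_eq_zero
  have hE0 : (e 0 : ZMod 11) = 0 := by
    linear_combination (5) * hc1 + (-1) * hc3 + (-5) * hc5 + (2) * hc7 +
      (
        (-4) * (e 0 : ZMod 11) + (-1) * (e 1 : ZMod 11) + (-5) * (e 2 : ZMod 11)
        + (-3) * (e 3 : ZMod 11)) * hz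
  have hE1 : (e 1 : ZMod 11) = 0 := by
    linear_combination (-3) * hc0 + (3) * hc1 + (-2) * hc3 + (-1) * hc7 +
      (
        (2) * (e 0 : ZMod 11) + (4) * (e 1 : ZMod 11) + (3) * (e 2 : ZMod 11)
        + (1) * (e 3 : ZMod 11) + (2) * (e 4 : ZMod 11)) * hz
  have hE2 : (e 2 : ZMod 11) = 0 := by
    linear_combination (1) * hc0 + (-1) * hc1 + (5) * hc3 + (2) * hc5 + (-5) * hc7 +
      (
        (4) * (e 0 : ZMod 11) + (1) * (e 3 : ZMod 11) + (-4) * (e 4 : ZMod 11)) * hz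
  have hE3 : (e 3 : ZMod 11) = 0 := by
    linear_combination (-4) * hc0 + (-3) * hc1 + (3) * hc3 + (-1) * hc5 + (-4) * hc7 +
      (
        (9) * (e 0 : ZMod 11) + (3) * (e 1 : ZMod 11) + (7) * (e 2 : ZMod 11)
        + (4) * (e 3 : ZMod 11) + (6) * (e 4 : ZMod 11)) * hz
  have hE4 : (e 4 : ZMod 11) = 0 := by
    linear_combination (5) * hc1 + (-1) * hc3 + (5) * hc5 + (2) * hc7 +
      (
        (-5) * (e 0 : ZMod 11) + (-1) * (e 1 : ZMod 11) + (-5) * (e 2 : ZMod 11)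
        + (-3) * (e 3 : ZMod 11) + (-9) * (e 4 : ZMod 11)) * hz
  have hall : ∀ i : Fin 5, ((e i : ℤ) : ZMod 11) = 0 := by
    intro i
    fin_cases i
    · exact hE0
    · exact hE1
    · exact hE2
    · exact hE3
    · exact hE4
  intro i
  exact_mod_cast (ZMod.intCast_zmod_eq_zero_iff_dvd (e i) 11).mp (hall i)

end Aux

/-- **Kummer's logarithmic-derivative criterion modulo `11`**: if a product of powers of the
cyclotomic units `ζ, 1 + ζ, …, 1 + ζ + ⋯ + ζ^4` times a `11`-th power of a unit is congruent to a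
rational integer modulo `11`, then all the exponents are divisible by `11`. -/
theorem dvd_exponents_of_congr_int {K : Type*} [Field K] [NumberField K]
    [IsCyclotomicExtension {11} ℚ K]
    {ζ : K} (hζ : IsPrimitiveRoot ζ 11) (g : Fin 5 → (𝓞 K)ˣ)
    (hg0 : (g 0 : 𝓞 K) = hζ.toInteger)
    (hg : ∀ i : Fin 5, i ≠ 0 → (g i : 𝓞 K) = ∑ j ∈ Finset.range (i.val + 1), hζ.toInteger ^ j)
    (e : Fin 5 → ℤ) (v : (𝓞 K)ˣ) (n : ℤ)
    (h : ((11 : ℕ) : 𝓞 K) ∣ (((∏ i, g i ^ e i) * v ^ 11 : (𝓞 K)ˣ) : 𝓞 K) - n) :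
    ∀ i, (11 : ℤ) ∣ e i := by
  have : Fact (Nat.Prime 11) := ⟨by norm_num⟩
  have : CharP (AdjoinRoot (Polynomial.X ^ 9 : Polynomial (ZMod 11))) 11 :=
    charP_adjoinRoot 11 9 (by norm_num)
  have hx : AdjoinRoot.root (Polynomial.X ^ 9 : Polynomial (ZMod 11)) ^ (11 - 2) = 0 := by
    rw [← AdjoinRoot.mk_X, ← map_pow]
    exact AdjoinRoot.mk_self
  exact dvd_of_relation e (relation_of_congr_int hζ _ hx g hg0 hg e v n h)

end Fermat.Agent.Lib.KummerDlog11
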