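import Mathlib
set_option autoImplicit false
namespace Fermat.Agent.Lib.UnitsModPow
open NumberField

/-- Generic counting lemma.  Let `N` be a subgroup of a commutative group `E` containing all
`p`-th powers.  If `E` is generated modulo `N` by a finite family `h : κ → E`, and `g : ι → E` is a
family with `card ι = card κ` which is "independent modulo `N`" (a product of integer powers of the
`g i` lies in `N` only if all exponents are divisible by `p`), then every element of `E` is a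
product of powers of the `g i` modulo `N`. -/
theorem exists_prod_zpow_inv_mul_mem {E : Type*} [CommGroup E] (p : ℕ) [Fact p.Prime]
    (N : Subgroup E) (hN : ∀ x : E, x ^ p ∈ N)
    {κ : Type*} [Fintype κ] (h : κ → E)
    (hgen : ∀ x : E, ∃ n : κ → ℤ, (∏ k, h k ^ n k)⁻¹ * x ∈ N)
    {ι : Type*} [Fintype ι] (hι : Fintype.card ι = Fintype.card κ) (g : ι → E)
    (hindep : ∀ e : ι → ℤ, ∏ i, g i ^ e i ∈ N → ∀ i, (p : ℤ) ∣ e i) (u : E) :
    ∃ e : ι → ℤ, (∏ i, g i ^ e i)⁻¹ * u ∈ N := by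
  classical
  have hp : p.Prime := Fact.out
  have : NeZero p := ⟨hp.ne_zero⟩
  -- every element of the quotient is killed by `p`
  have hpow : ∀ y : E ⧸ N, y ^ (p : ℤ) = 1 := by
    intro y
    obtain ⟨x, rfl⟩ := QuotientGroup.mk_surjective y
    rw [zpow_natCast, ← QuotientGroup.mk_pow, QuotientGroup.eq_one_iff]
    exact hN x
  -- so integer exponents can be reduced modulo `p`
  have hred : ∀ (y : E ⧸ N) (n : ℤ), y ^ ((n : ZMod p).val) = y ^ n := by
    intro y n
    rw [← zpow_natCast, ZMod.val_intCast, ← zpow_eq_zpow_emod n (hpow y)]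
  let F : (κ → ZMod p) → E ⧸ N := fun a => ∏ k, (QuotientGroup.mk (h k) : E ⧸ N) ^ (a k).val
  let G : (ι → ZMod p) → E ⧸ N := fun a => ∏ i, (QuotientGroup.mk (g i) : E ⧸ N) ^ (a i).val
  have hF : Function.Surjective F := by
    intro y
    obtain ⟨x, rfl⟩ := QuotientGroup.mk_surjective y
    obtain ⟨n, hn⟩ := hgen x
    refine ⟨fun k => (n k : ZMod p), ?_⟩
    have h1 : F (fun k => (n k : ZMod p)) = ((∏ k, h k ^ n k : E) : E ⧸ N) := by
      simp only [F, hred, QuotientGroup.mk_prod, QuotientGroup.mk_zpow]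
    rw [h1]
    exact QuotientGroup.eq.mpr hn
  have hG : Function.Injective G := by
    intro a b hab
    have h1 : ((∏ i, g i ^ (((a i).val : ℤ) - ((b i).val : ℤ)) : E) : E ⧸ N) = 1 := by
      have h2 : ((∏ i, g i ^ (((a i).val : ℤ) - ((b i).val : ℤ)) : E) : E ⧸ N) = G a * (G b)⁻¹ := by
        simp only [G, QuotientGroup.mk_prod, QuotientGroup.mk_pow,
          QuotientGroup.mk_mul, QuotientGroup.mk_inv, zpow_sub, zpow_natCast,
          Finset.prod_mul_distrib, Finset.prod_inv_distrib]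
      rw [h2, hab, mul_inv_cancel]
    rw [QuotientGroup.eq_one_iff] at h1
    have h3 := hindep _ h1
    funext i
    have h4 := h3 i
    rw [← ZMod.intCast_zmod_eq_zero_iff_dvd] at h4
    push_cast at h4
    rw [ZMod.natCast_zmod_val, ZMod.natCast_zmod_val, sub_eq_zero] at h4
    exact h4
  let _ : Fintype (E ⧸ N) := Fintype.ofSurjective F hF
  have hcard : Fintype.card (ι → ZMod p) = Fintype.card (κ → ZMod p) := by
    rw [Fintype.card_fun, Fintype.card_fun, hι]
  have hle : Fintype.card (E ⧸ N) ≤ Fintype.card (κ → ZMod p) := Fintype.card_le_of_surjective F hF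
  have hge : Fintype.card (ι → ZMod p) ≤ Fintype.card (E ⧸ N) := Fintype.card_le_of_injective G hG
  have hbij : Function.Bijective G :=
    (Fintype.bijective_iff_injective_and_card G).mpr ⟨hG, le_antisymm hge (hcard ▸ hle)⟩
  obtain ⟨a, ha⟩ := hbij.2 (QuotientGroup.mk u)
  refine ⟨fun i => ((a i).val : ℤ), ?_⟩
  apply QuotientGroup.eq.mp
  rw [← ha]
  simp only [G, QuotientGroup.mk_prod, QuotientGroup.mk_pow, zpow_natCast]

theorem exists_eq_prod_zpow_mul_pow {K : Type*} [Field K] [NumberField K] (p : ℕ) [Fact p.Prime]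
    {ι : Type*} [Fintype ι] (hι : Fintype.card ι = NumberField.Units.rank K + 1)
    (g : ι → (𝓞 K)ˣ)
    (hindep : ∀ e : ι → ℤ, (∃ v : (𝓞 K)ˣ, ∏ i, g i ^ e i = v ^ p) → ∀ i, (p : ℤ) ∣ e i)
    (u : (𝓞 K)ˣ) :
    ∃ (e : ι → ℤ) (v : (𝓞 K)ˣ), u = (∏ i, g i ^ e i) * v ^ p := by
  classical
  -- a generator of the (cyclic) torsion subgroup
  obtain ⟨t, ht⟩ := IsCyclic.exists_generator (α := NumberField.Units.torsion K)
  let N : Subgroup (𝓞 K)ˣ := (powMonoidHom p : (𝓞 K)ˣ →* (𝓞 K)ˣ).range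
  have hmem : ∀ x : (𝓞 K)ˣ, x ∈ N ↔ ∃ v : (𝓞 K)ˣ, x = v ^ p := by
    intro x
    constructor
    · rintro ⟨v, hv⟩
      exact ⟨v, hv.symm⟩
    · rintro ⟨v, hv⟩
      exact ⟨v, hv.symm⟩
  let h : Option (Fin (NumberField.Units.rank K)) → (𝓞 K)ˣ :=
    fun k => k.elim (t : (𝓞 K)ˣ) (NumberField.Units.fundSystem K)
  have hgen : ∀ x : (𝓞 K)ˣ, ∃ n : Option (Fin (NumberField.Units.rank K)) → ℤ,
      (∏ k, h k ^ n k)⁻¹ * x ∈ N := by
    intro x
    obtain ⟨ζe, hζe, -⟩ := NumberField.Units.exist_unique_eq_mul_prod K x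
    obtain ⟨a, ha⟩ := Subgroup.mem_zpowers_iff.mp (ht ζe.1)
    refine ⟨fun k => k.elim a ζe.2, ?_⟩
    have h1 : ∏ k, h k ^ (k.elim a ζe.2 : ℤ) = x := by
      rw [Fintype.prod_option, hζe, ← ha]
      simp [h]
    rw [h1, inv_mul_cancel]
    exact N.one_mem
  obtain ⟨e, he⟩ := exists_prod_zpow_inv_mul_mem p N (fun x => (hmem _).mpr ⟨x, rfl⟩) h hgen
    (by rw [hι, Fintype.card_option, Fintype.card_fin]) g
    (fun e he => hindep e ((hmem _).mp he)) u
  obtain ⟨v, hv⟩ := (hmem _).mp he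
  exact ⟨e, v, by rw [← hv, mul_inv_cancel_left]⟩

theorem rank_add_one_eq {K : Type*} [Field K] [NumberField K] (p : ℕ) [Fact p.Prime] (hp : 2 < p)
    [IsCyclotomicExtension {p} ℚ K] : NumberField.Units.rank K + 1 = (p - 1) / 2 := by
  have : NeZero p := ⟨(Fact.out : p.Prime).ne_zero⟩
  have h1 := NumberField.InfinitePlace.card_eq_nrRealPlaces_add_nrComplexPlaces K
  have h2 := IsCyclotomicExtension.Rat.nrRealPlaces_eq_zero K hp
  have h3 := IsCyclotomicExtension.Rat.nrComplexPlaces_eq_totient_div_two p K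
  rw [Nat.totient_prime Fact.out] at h3
  unfold NumberField.Units.rank
  rw [h1, h2, h3, zero_add]
  have : 0 < (p - 1) / 2 := by omega
  omega

end Fermat.Agent.Lib.UnitsModPow
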