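/-
Shared library file (helper9, for S11 / S10): generic glue for Kummer's lemma at a prime `p`.
* `exists_units_family`: the cyclotomic units `ζ, 1+ζ, 1+ζ+ζ², …` as a family of units of `𝓞 K`.
* `kummer_of_certificate`: Kummer's lemma for `p` from one certificate about such a family
  (the logarithmic-derivative criterion modulo `p`).
-/
import Mathlib
import Fermat.Agent.Lib.UnitsModPow

set_option autoImplicit false

namespace Fermat.Agent.Lib.KummerGlue

open NumberField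

/-- The family of cyclotomic units `g i = ζ` for `i = 0` and `g i = 1 + ζ + ⋯ + ζ^i` for `i ≠ 0`,
indexed by `Fin n` with `n < p`. -/
theorem exists_units_family (p : ℕ) [hp : Fact p.Prime] {K : Type*} [Field K] [NumberField K]
    [IsCyclotomicExtension {p} ℚ K] {ζ : K} (hζ : IsPrimitiveRoot ζ p) (n : ℕ) (hn : n < p) :
    ∃ g : Fin n → (𝓞 K)ˣ, (∀ i : Fin n, i.val = 0 → (g i : 𝓞 K) = hζ.toInteger) ∧
      ∀ i : Fin n, i.val ≠ 0 →
        (g i : 𝓞 K) = ∑ j ∈ Finset.range (i.val + 1), hζ.toInteger ^ j := by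
  have : NeZero p := ⟨hp.out.ne_zero⟩
  have hζ' : IsPrimitiveRoot hζ.toInteger p := hζ.toInteger_isPrimitiveRoot
  have hu0 : IsUnit hζ.toInteger := hζ'.isUnit hp.out.ne_zero
  have hu : ∀ i : Fin n, IsUnit (∑ j ∈ Finset.range (i.val + 1), hζ.toInteger ^ j) := by
    intro i
    refine hζ'.geom_sum_isUnit hp.out.two_le ?_
    have hlt : i.val + 1 < p := by have := i.isLt; omega
    exact ((Nat.Prime.coprime_iff_not_dvd hp.out).2
      (Nat.not_dvd_of_pos_of_lt (Nat.succ_pos _) hlt)).symm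
  refine ⟨fun i => if i.val = 0 then hu0.unit else (hu i).unit, ?_, ?_⟩
  · intro i hi
    simp [hi]
  · intro i hi
    simp [hi]

/-- Kummer's lemma for the prime `p` from the logarithmic-derivative certificate `hB` for a family
of `(p - 1) / 2` units (independence modulo `p`-th powers is the special case `m = 1`). -/
theorem kummer_of_certificate (p : ℕ) [hp : Fact p.Prime] (hp2 : 2 < p) {K : Type*} [Field K]
    [NumberField K] [IsCyclotomicExtension {p} ℚ K] {n : ℕ} (hn : n = (p - 1) / 2)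
    (g : Fin n → (𝓞 K)ˣ)
    (hB : ∀ (e : Fin n → ℤ) (v : (𝓞 K)ˣ) (m : ℤ),
      ((p : ℕ) : 𝓞 K) ∣ (((∏ i, g i ^ e i) * v ^ p : (𝓞 K)ˣ) : 𝓞 K) - m → ∀ i, (p : ℤ) ∣ e i)
    (u : (𝓞 K)ˣ) (h : ∃ m : ℤ, ((p : ℕ) : 𝓞 K) ∣ (u : 𝓞 K) - m) :
    ∃ v : (𝓞 K)ˣ, u = v ^ p := by
  obtain ⟨m, hm⟩ := h
  have hA : ∀ e : Fin n → ℤ, (∃ v : (𝓞 K)ˣ, ∏ i, g i ^ e i = v ^ p) → ∀ i, (p : ℤ) ∣ e i := by
    rintro e ⟨v, hv⟩
    refine hB e v⁻¹ 1 ?_
    rw [hv, ← mul_pow, mul_inv_cancel, one_pow]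
    simp
  have hcard : Fintype.card (Fin n) = NumberField.Units.rank K + 1 := by
    rw [Fermat.Agent.Lib.UnitsModPow.rank_add_one_eq p hp2, Fintype.card_fin, hn]
  obtain ⟨e, v, rfl⟩ :=
    Fermat.Agent.Lib.UnitsModPow.exists_eq_prod_zpow_mul_pow p hcard g hA u
  have hdvd := hB e v m hm
  choose f hf using hdvd
  refine ⟨(∏ i, g i ^ f i) * v, ?_⟩
  rw [mul_pow, ← Finset.prod_pow]
  congr 1
  refine Finset.prod_congr rfl fun i _ => ?_
  rw [hf i, mul_comm, zpow_mul, zpow_natCast]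

end Fermat.Agent.Lib.KummerGlue
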