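/-
Kummer's logarithmic-derivative criterion modulo `p`, for `p = 5`.

If a product of powers of the cyclotomic units `ζ`, `1 + ζ` of `ℚ(ζ₅)` times a `5`-th power of a
unit is congruent to a rational integer modulo `5`, then all the exponents are divisible by `5`.

Method: let `M = F_p[x]/(x^(p-2))` and `D = M[ε]/(ε²)` (dual numbers).  The element
`y = (1 + x) + ε` of `D` satisfies `1 + y + ⋯ + y^(p-1) = (y - 1)^(p-1) = 0`, so there is a ring
hom `Ψ : 𝓞 K → D` with `Ψ ζ = y`.  The map `u ↦ snd u / fst u` is a logarithmic derivative on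
`Dˣ`; it kills `p`-th powers and integers, which gives a linear relation between the exponents
with explicit coefficients in `M`; the coefficient matrix has full rank over `F_p`.
-/
import Mathlib
import Fermat.Agent.Lib.CyclotomicRingHom
set_option autoImplicit false
namespace Fermat.Agent.Lib.KummerDlog5
open NumberField

/-! ### The logarithmic derivative on units of dual numbers (any commutative ring) -/

section Dlog

variable {R : Type*} [CommRing R]

/-- The logarithmic derivative `U ↦ snd U * fst U⁻¹` on the units of the dual numbers over `R`,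
as a monoid hom to `Multiplicative R`. -/
def dl : (TrivSqZeroExt R R)ˣ →* Multiplicative R where
  toFun U := Multiplicative.ofAdd
    (TrivSqZeroExt.snd (U : TrivSqZeroExt R R) *
      TrivSqZeroExt.fst ((U⁻¹ : (TrivSqZeroExt R R)ˣ) : TrivSqZeroExt R R))
  map_one' := by simp
  map_mul' U V := by
    have hU : TrivSqZeroExt.fst (U : TrivSqZeroExt R R) *
        TrivSqZeroExt.fst ((U⁻¹ : (TrivSqZeroExt R R)ˣ) : TrivSqZeroExt R R) = 1 := by
      rw [← TrivSqZeroExt.fst_mul, Units.mul_inv, TrivSqZeroExt.fst_one]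
    have hV : TrivSqZeroExt.fst (V : TrivSqZeroExt R R) *
        TrivSqZeroExt.fst ((V⁻¹ : (TrivSqZeroExt R R)ˣ) : TrivSqZeroExt R R) = 1 := by
      rw [← TrivSqZeroExt.fst_mul, Units.mul_inv, TrivSqZeroExt.fst_one]
    rw [← ofAdd_add]
    congr 1
    simp only [mul_inv_rev, Units.val_mul, TrivSqZeroExt.snd_mul, TrivSqZeroExt.fst_mul,
      smul_eq_mul, MulOpposite.smul_eq_mul_unop, MulOpposite.unop_op]
    linear_combination
      (TrivSqZeroExt.snd (V : TrivSqZeroExt R R) *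
        TrivSqZeroExt.fst ((V⁻¹ : (TrivSqZeroExt R R)ˣ) : TrivSqZeroExt R R)) * hU +
      (TrivSqZeroExt.snd (U : TrivSqZeroExt R R) *
        TrivSqZeroExt.fst ((U⁻¹ : (TrivSqZeroExt R R)ˣ) : TrivSqZeroExt R R)) * hV

/-- If the `ε`-component of `∏ i, U i ^ e i` vanishes (`U i` units of the dual numbers over `R`,
`e i` integers), then `∑ i, e i * (snd (U i) * ∏ j ≠ i, fst (U j)) = 0` in `R`. -/
theorem dlog_sum {ι : Type*} [Fintype ι] [DecidableEq ι] (U : ι → (TrivSqZeroExt R R)ˣ)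
    (e : ι → ℤ)
    (h : TrivSqZeroExt.snd ((∏ i, U i ^ e i : (TrivSqZeroExt R R)ˣ) : TrivSqZeroExt R R) = 0) :
    ∑ i, (e i : R) * (TrivSqZeroExt.snd (U i : TrivSqZeroExt R R) *
      ∏ j ∈ Finset.univ.erase i, TrivSqZeroExt.fst (U j : TrivSqZeroExt R R)) = 0 := by
  have h1 : dl (∏ i, U i ^ e i) = 1 := by
    show Multiplicative.ofAdd _ = 1
    rw [h, zero_mul]; rfl
  rw [map_prod] at h1
  simp only [map_zpow] at h1
  have h2 := congrArg Multiplicative.toAdd h1
  rw [toAdd_prod] at h2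
  simp only [toAdd_zpow, toAdd_one] at h2
  have h3 : ∀ i, (dl (U i)).toAdd = TrivSqZeroExt.snd (U i : TrivSqZeroExt R R) *
      TrivSqZeroExt.fst (((U i)⁻¹ : (TrivSqZeroExt R R)ˣ) : TrivSqZeroExt R R) := fun i => rfl
  have h4 : ∀ i, TrivSqZeroExt.fst (((U i)⁻¹ : (TrivSqZeroExt R R)ˣ) : TrivSqZeroExt R R) *
      ∏ j, TrivSqZeroExt.fst (U j : TrivSqZeroExt R R) =
      ∏ j ∈ Finset.univ.erase i, TrivSqZeroExt.fst (U j : TrivSqZeroExt R R) := by
    intro i
    rw [← Finset.mul_prod_erase Finset.univ _ (Finset.mem_univ i), ← mul_assoc,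
      ← TrivSqZeroExt.fst_mul, Units.inv_mul, TrivSqZeroExt.fst_one, one_mul]
  calc ∑ i, (e i : R) * (TrivSqZeroExt.snd (U i : TrivSqZeroExt R R) *
      ∏ j ∈ Finset.univ.erase i, TrivSqZeroExt.fst (U j : TrivSqZeroExt R R))
      = (∑ i, e i • (dl (U i)).toAdd) * ∏ j, TrivSqZeroExt.fst (U j : TrivSqZeroExt R R) := by
        rw [Finset.sum_mul]
        refine Finset.sum_congr rfl fun i _ => ?_
        rw [h3, ← h4, zsmul_eq_mul]
        ring
    _ = 0 := by rw [h2, zero_mul]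

end Dlog

/-! ### The rings `M p = F_p[x]/(x^(p-2))` and `D p = (M p)[ε]` (any prime `p`) -/

section Ring

open Polynomial

variable (p : ℕ) [hp : Fact p.Prime]

/-- The ring `F_p[x]/(x^(p-2))`. -/
abbrev M : Type := AdjoinRoot (X ^ (p - 2) : (ZMod p)[X])

/-- The class of `x` in `M p`. -/
noncomputable abbrev x : M p := AdjoinRoot.root _

theorem x_pow : (x p) ^ (p - 2) = 0 := by
  have h : x p = AdjoinRoot.mk _ X := AdjoinRoot.mk_X.symm
  rw [h, ← map_pow, AdjoinRoot.mk_self]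

theorem p_eq_zero : (p : M p) = 0 := by
  rw [← map_natCast (algebraMap (ZMod p) (M p)), ZMod.natCast_self, map_zero]

/-- The dual numbers over `M p`. -/
abbrev D : Type := TrivSqZeroExt (M p) (M p)

/-- The element `(1 + x) + ε` of the dual numbers. -/
noncomputable def y : D p := TrivSqZeroExt.inl (1 + x p) + TrivSqZeroExt.inr 1

theorem fst_y : TrivSqZeroExt.fst (y p) = 1 + x p := by simp [y]

theorem snd_y : TrivSqZeroExt.snd (y p) = 1 := by simp [y]

/-- In characteristic `p`, `1 + t + ⋯ + t^(p-1) = (t - 1)^(p-1)`. -/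
theorem sum_pow_eq {S : Type*} [CommRing S] [Algebra (ZMod p) S] (t : S) :
    ∑ i ∈ Finset.range p, t ^ i = (t - 1) ^ (p - 1) := by
  have key : cyclotomic p (ZMod p) = (X - 1) ^ (p - 1) := by
    have := cyclotomic_mul_prime_pow_eq (ZMod p) (p := p) (m := 1) hp.out.not_dvd_one
      (k := 1) one_pos
    simpa using this
  rw [cyclotomic_prime] at key
  have := congrArg (aeval t) key
  simpa using this

/-- `y = (1 + x) + ε` is a root of `1 + T + ⋯ + T^(p-1)` in `D p`. -/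
theorem sum_y_pow : ∑ i ∈ Finset.range p, (y p) ^ i = 0 := by
  rw [sum_pow_eq]
  have h2 : p - 1 = (p - 2) + 1 := by have := hp.out.two_le; omega
  ext
  · rw [TrivSqZeroExt.fst_pow, TrivSqZeroExt.fst_sub, fst_y, TrivSqZeroExt.fst_one,
      TrivSqZeroExt.fst_zero, add_sub_cancel_left, h2, pow_succ, x_pow, zero_mul]
  · rw [TrivSqZeroExt.snd_pow, TrivSqZeroExt.fst_sub, fst_y, TrivSqZeroExt.fst_one,
      TrivSqZeroExt.snd_zero, add_sub_cancel_left, h2, Nat.pred_succ, x_pow, zero_smul, smul_zero]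

theorem natCast_D : (p : D p) = 0 := by
  ext
  · rw [TrivSqZeroExt.fst_natCast, p_eq_zero, TrivSqZeroExt.fst_zero]
  · rw [TrivSqZeroExt.snd_natCast, TrivSqZeroExt.snd_zero]

/-- If `c * v ^ p` is congruent to an integer modulo `p` (`c`, `v` units of `A`), then the
`ε`-component of the image of `c` under any ring hom `A → D p` vanishes. -/
theorem snd_eq_zero_of_dvd {A : Type*} [CommRing A] (Ψ : A →+* D p) (c v : Aˣ) (n : ℤ)
    (h : (p : A) ∣ ((c * v ^ p : Aˣ) : A) - n) :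
    TrivSqZeroExt.snd (Ψ (c : A)) = 0 := by
  obtain ⟨q, hq⟩ := h
  have h1 : Ψ c * Ψ v ^ p = (n : D p) := by
    have := congrArg Ψ hq
    simp only [map_sub, map_mul, map_natCast, map_intCast, Units.val_mul,
      Units.val_pow_eq_pow_val, map_pow, natCast_D, zero_mul] at this
    exact sub_eq_zero.mp this
  have h2 := congrArg TrivSqZeroExt.snd h1
  rw [TrivSqZeroExt.snd_mul, TrivSqZeroExt.snd_pow, TrivSqZeroExt.snd_intCast,
    TrivSqZeroExt.fst_pow, nsmul_eq_mul, p_eq_zero, zero_mul, smul_zero, zero_add,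
    MulOpposite.smul_eq_mul_unop, MulOpposite.unop_op] at h2
  have hu : IsUnit (TrivSqZeroExt.fst (Ψ v) ^ p) :=
    ((v.isUnit.map Ψ).map (TrivSqZeroExt.fstHom (M p) (M p) (M p))).pow p
  exact (hu.mul_left_eq_zero).mp h2

/-- `1, x, …, x^(p-3)` are linearly independent over `F_p` in `M p`. -/
theorem coeff_eq_zero_of_sum_eq_zero (a : ℕ → ZMod p)
    (h : ∑ k ∈ Finset.range (p - 2), algebraMap (ZMod p) (M p) (a k) * (x p) ^ k = 0) :
    ∀ k < p - 2, a k = 0 := by
  have h1 : ∑ k ∈ Finset.range (p - 2), algebraMap (ZMod p) (M p) (a k) * (x p) ^ k =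
      AdjoinRoot.mk _ (∑ k ∈ Finset.range (p - 2), C (a k) * X ^ k) := by
    rw [map_sum]
    refine Finset.sum_congr rfl fun k _ => ?_
    rw [map_mul, map_pow, AdjoinRoot.mk_C, AdjoinRoot.mk_X, AdjoinRoot.algebraMap_eq]
  rw [h1, AdjoinRoot.mk_eq_zero, X_pow_dvd_iff] at h
  intro k hk
  have := h k hk
  rw [finsetSum_coeff] at this
  simp only [coeff_C_mul_X_pow] at this
  rw [Finset.sum_ite_eq] at this
  simpa [hk] using this

end Ring

/-! ### The case `p = 5` -/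

theorem dvd_exponents_of_congr_int {K : Type*} [Field K] [NumberField K]
    [IsCyclotomicExtension {5} ℚ K]
    {ζ : K} (hζ : IsPrimitiveRoot ζ 5) (g : Fin 2 → (𝓞 K)ˣ)
    (hg0 : (g 0 : 𝓞 K) = hζ.toInteger)
    (hg : ∀ i : Fin 2, i ≠ 0 → (g i : 𝓞 K) = ∑ j ∈ Finset.range (i.val + 1), hζ.toInteger ^ j)
    (e : Fin 2 → ℤ) (v : (𝓞 K)ˣ) (n : ℤ)
    (h : ((5 : ℕ) : 𝓞 K) ∣ (((∏ i, g i ^ e i) * v ^ 5 : (𝓞 K)ˣ) : 𝓞 K) - n) :
    ∀ i, (5 : ℤ) ∣ e i := by
  have : Fact (Nat.Prime 5) := ⟨by norm_num⟩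
  obtain ⟨Ψ, hΨ⟩ := CyclotomicRingHom.exists_ringHom_of_root hζ (y 5) (sum_y_pow 5)
  have hc : TrivSqZeroExt.snd (Ψ ((∏ i, g i ^ e i : (𝓞 K)ˣ) : 𝓞 K)) = 0 :=
    snd_eq_zero_of_dvd 5 Ψ _ v n h
  have hc' : TrivSqZeroExt.snd
      ((∏ i, (Units.map (Ψ : 𝓞 K →* D 5) (g i)) ^ e i : (D 5)ˣ) : D 5) = 0 := by
    rw [← hc]
    congr 1
    simp only [← map_zpow, ← map_prod]
    rfl
  have key := dlog_sum (fun i => Units.map (Ψ : 𝓞 K →* D 5) (g i)) e hc'
  have e0 : Finset.univ.erase (0 : Fin 2) = {1} := by decide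
  have e1 : Finset.univ.erase (1 : Fin 2) = {0} := by decide
  have hU0 : ((Units.map (Ψ : 𝓞 K →* D 5) (g 0) : (D 5)ˣ) : D 5) = y 5 := by
    rw [Units.coe_map, hg0]; exact hΨ
  have hU1 : ((Units.map (Ψ : 𝓞 K →* D 5) (g 1) : (D 5)ˣ) : D 5) = 1 + y 5 := by
    rw [Units.coe_map, hg 1 (by decide)]
    simp [Finset.sum_range_succ, hΨ]
  rw [Fin.sum_univ_two, e0, e1, Finset.prod_singleton, Finset.prod_singleton, hU0, hU1] at key
  simp only [TrivSqZeroExt.fst_add, TrivSqZeroExt.snd_add, TrivSqZeroExt.fst_one,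
    TrivSqZeroExt.snd_one, fst_y, snd_y] at key
  -- `key : e 0 * (1 * (1 + (1 + x))) + e 1 * ((0 + 1) * (1 + x)) = 0` in `M 5`
  let a : ℕ → ZMod 5 := fun k => match k with
    | 0 => 2 * (e 0 : ZMod 5) + (e 1 : ZMod 5)
    | 1 => (e 0 : ZMod 5) + (e 1 : ZMod 5)
    | _ => 0
  have hsum : ∑ k ∈ Finset.range (5 - 2), algebraMap (ZMod 5) (M 5) (a k) * (x 5) ^ k = 0 := by
    show ∑ k ∈ Finset.range 3, algebraMap (ZMod 5) (M 5) (a k) * (x 5) ^ k = 0
    simp only [Finset.sum_range_succ, Finset.sum_range_zero, a, map_add, map_mul, map_intCast,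
      map_ofNat, map_zero]
    linear_combination key
  have ha := coeff_eq_zero_of_sum_eq_zero 5 a hsum
  have ha0 : 2 * (e 0 : ZMod 5) + (e 1 : ZMod 5) = 0 := ha 0 (by norm_num)
  have ha1 : (e 0 : ZMod 5) + (e 1 : ZMod 5) = 0 := ha 1 (by norm_num)
  have he0 : (e 0 : ZMod 5) = 0 := by linear_combination ha0 - ha1
  have he1 : (e 1 : ZMod 5) = 0 := by linear_combination 2 * ha1 - ha0
  intro i
  fin_cases i
  · exact_mod_cast (ZMod.intCast_zmod_eq_zero_iff_dvd (e 0) 5).mp he0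
  · exact_mod_cast (ZMod.intCast_zmod_eq_zero_iff_dvd (e 1) 5).mp he1

end Fermat.Agent.Lib.KummerDlog5
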