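/-
Shared library file (helper9, for S10): Kummer's lemma for the prime 7.
Every unit of the ring of integers of the 7-th cyclotomic field which is congruent to a rational
integer modulo 7 is a 7-th power of a unit.
-/
import Mathlib
import Fermat.Agent.Lib.KummerGlue
import Fermat.Agent.Lib.KummerDlog7

set_option autoImplicit false

namespace Fermat.Agent.Lib.Kummer7

open NumberField

/-- Kummer's lemma for `p = 7`. -/
theorem kummer_lemma {K : Type*} [Field K] [NumberField K] [IsCyclotomicExtension {7} ℚ K]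
    (u : (𝓞 K)ˣ) (h : ∃ n : ℤ, ((7 : ℕ) : 𝓞 K) ∣ (u : 𝓞 K) - n) : ∃ v : (𝓞 K)ˣ, u = v ^ 7 := by
  have : Fact (Nat.Prime 7) := ⟨by norm_num⟩
  have hζ := IsCyclotomicExtension.zeta_spec 7 ℚ K
  obtain ⟨g, hg0, hg⟩ := Fermat.Agent.Lib.KummerGlue.exists_units_family 7 hζ 3 (by norm_num)
  have hg0' : (g 0 : 𝓞 K) = hζ.toInteger := hg0 0 rfl
  have hg' : ∀ i : Fin 3, i ≠ 0 →
      (g i : 𝓞 K) = ∑ j ∈ Finset.range (i.val + 1), hζ.toInteger ^ j :=
    fun i hi => hg i (fun h0 => hi (Fin.ext h0))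
  exact Fermat.Agent.Lib.KummerGlue.kummer_of_certificate 7 (by norm_num) (by norm_num) g
    (fun e v m hm => Fermat.Agent.Lib.KummerDlog7.dvd_exponents_of_congr_int hζ g hg0' hg' e v m hm)
    u h

end Fermat.Agent.Lib.Kummer7
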