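import Mathlib

/-!
# Kummer's descent for the second case of Fermat's Last Theorem

Let `p` be an odd prime, `K = ℚ(ζ_p)` and assume that `𝓞 K` is a principal ideal domain and that
Kummer's lemma holds (a unit congruent to a rational integer modulo `p` is a `p`-th power).
Then `a ^ p + b ^ p = c ^ p` has no solution in coprime integers `a`, `b` with `p ∣ c`, `c ≠ 0`.

The descent is first carried out in an abstract principal ideal domain `O` containing a primitive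
`p`-th root of unity `ζ` such that `ζ - 1` is prime (section `Abstract`), and then specialised to
the ring of integers of a cyclotomic field.
-/

namespace Fermat.Agent.Lib.KummerCaseIIB

section Abstract

open Finset

variable {O : Type*} [CommRing O] {p : ℕ} {ζ : O}

/-- The geometric sum `1 + ζ + ... + ζ ^ (k - 1)` is congruent to `k` modulo `ζ - 1`. -/
theorem sub_one_dvd_geom_sum_sub (ζ : O) (k : ℕ) :
    ζ - 1 ∣ (∑ i ∈ range k, ζ ^ i) - (k : O) := by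
  have h : (∑ i ∈ range k, ζ ^ i) - (k : O) = ∑ i ∈ range k, (ζ ^ i - 1) := by
    simp [Finset.sum_sub_distrib]
  rw [h]
  exact Finset.dvd_sum fun i _ => sub_one_dvd_pow_sub_one ζ i

/-- If `O = ℤ[ζ]`, every element of `O` is congruent to a rational integer modulo `ζ - 1`. -/
theorem exists_int_sub_dvd (htop : Algebra.adjoin ℤ {ζ} = ⊤) (x : O) :
    ∃ n : ℤ, ζ - 1 ∣ x - n := by
  have hx : x ∈ Algebra.adjoin ℤ {ζ} := by rw [htop]; exact Algebra.mem_top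
  induction hx using Algebra.adjoin_induction with
  | mem y hy =>
    rw [Set.mem_singleton_iff] at hy
    subst hy
    exact ⟨1, by simp⟩
  | algebraMap r => exact ⟨r, by simp⟩
  | add y z _ _ hy hz =>
    obtain ⟨n, hn⟩ := hy
    obtain ⟨m, hm⟩ := hz
    refine ⟨n + m, ?_⟩
    have h : y + z - ((n + m : ℤ) : O) = (y - n) + (z - m) := by push_cast; ring
    rw [h]
    exact dvd_add hn hm
  | mul y z _ _ hy hz =>
    obtain ⟨n, hn⟩ := hy
    obtain ⟨m, hm⟩ := hz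
    refine ⟨n * m, ?_⟩
    have h : y * z - ((n * m : ℤ) : O) = y * (z - m) + m * (y - n) := by push_cast; ring
    rw [h]
    exact dvd_add (Dvd.dvd.mul_left hm _) (Dvd.dvd.mul_left hn _)

/-- If `O = ℤ[ζ]` with `ζ ^ p = 1`, every `p`-th power in `O` is congruent to a rational integer
modulo `p`. -/
theorem exists_int_pow_sub_dvd (hp : p.Prime) (hζ : ζ ^ p = 1) (htop : Algebra.adjoin ℤ {ζ} = ⊤)
    (x : O) : ∃ n : ℤ, (p : O) ∣ x ^ p - n := by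
  have hx : x ∈ Algebra.adjoin ℤ {ζ} := by rw [htop]; exact Algebra.mem_top
  induction hx using Algebra.adjoin_induction with
  | mem y hy =>
    rw [Set.mem_singleton_iff] at hy
    subst hy
    exact ⟨1, by simp [hζ]⟩
  | algebraMap r => exact ⟨r ^ p, by simp⟩
  | add y z _ _ hy hz =>
    obtain ⟨n, hn⟩ := hy
    obtain ⟨m, hm⟩ := hz
    obtain ⟨r, hr⟩ := exists_add_pow_prime_eq hp y z
    refine ⟨n + m, ?_⟩
    have h : (y + z) ^ p - ((n + m : ℤ) : O) = (y ^ p - n) + (z ^ p - m) + p * (y * z * r) := by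
      rw [hr]; push_cast; ring
    rw [h]
    exact dvd_add (dvd_add hn hm) (dvd_mul_right _ _)
  | mul y z _ _ hy hz =>
    obtain ⟨n, hn⟩ := hy
    obtain ⟨m, hm⟩ := hz
    refine ⟨n * m, ?_⟩
    have h : (y * z) ^ p - ((n * m : ℤ) : O) = y ^ p * (z ^ p - m) + m * (y ^ p - n) := by
      push_cast; ring
    rw [h]
    exact dvd_add (Dvd.dvd.mul_left hm _) (Dvd.dvd.mul_left hn _)

/-- Step B: some factor `x + ζ ^ k * y` is divisible by `(ζ - 1) ^ 2`. -/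
theorem exists_sq_dvd (hp : p.Prime)
    (hint : ∀ x : O, ∃ n : ℤ, ζ - 1 ∣ x - n)
    (hdvd : ∀ n : ℤ, ζ - 1 ∣ (n : O) ↔ (p : ℤ) ∣ n)
    {x y : O} (hy : ¬ ζ - 1 ∣ y) (hxy : ζ - 1 ∣ x + y) :
    ∃ k, k < p ∧ (ζ - 1) ^ 2 ∣ x + ζ ^ k * y := by
  have : Fact p.Prime := ⟨hp⟩
  obtain ⟨t, ht⟩ := hxy
  obtain ⟨t0, ht0⟩ := hint t
  obtain ⟨y0, hy0⟩ := hint y
  have hy0' : ¬ (p : ℤ) ∣ y0 := by
    intro h
    have h1 : ζ - 1 ∣ (y0 : O) := (hdvd y0).mpr h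
    exact hy (by simpa using dvd_add hy0 h1)
  have hy0z : (y0 : ZMod p) ≠ 0 := by
    rwa [Ne, ZMod.intCast_zmod_eq_zero_iff_dvd]
  obtain ⟨k, hk, hk0⟩ : ∃ k : ℕ, k < p ∧ (p : ℤ) ∣ t0 + k * y0 := by
    refine ⟨(-(t0 : ZMod p) / (y0 : ZMod p)).val, ZMod.val_lt _, ?_⟩
    rw [← ZMod.intCast_zmod_eq_zero_iff_dvd]
    push_cast
    rw [ZMod.natCast_val, ZMod.cast_id', id]
    field_simp
    ring
  refine ⟨k, hk, ?_⟩
  have hg := sub_one_dvd_geom_sum_sub ζ k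
  have h1 : x + ζ ^ k * y = (ζ - 1) * (t + (∑ i ∈ range k, ζ ^ i) * y) := by
    have h := mul_geom_sum ζ k
    linear_combination ht - y * h
  rw [h1, pow_two]
  apply mul_dvd_mul_left
  have h2 : t + (∑ i ∈ range k, ζ ^ i) * y = (t - t0) + ((∑ i ∈ range k, ζ ^ i) - k) * y
      + k * (y - y0) + ((t0 + k * y0 : ℤ) : O) := by
    push_cast; ring
  rw [h2]
  exact dvd_add (dvd_add (dvd_add ht0 (Dvd.dvd.mul_right hg y)) (Dvd.dvd.mul_left hy0 _))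
    ((hdvd _).mpr hk0)

variable [IsDomain O]

/-- The factorisation of `x ^ p + y ^ p`, indexed by exponents `k < p`. -/
theorem pow_add_pow_eq_prod_range (hp : p.Prime) (hodd : p ≠ 2) (hζ : IsPrimitiveRoot ζ p)
    (x y : O) : x ^ p + y ^ p = ∏ k ∈ range p, (x + ζ ^ k * y) := by
  classical
  have hp0 : 0 < p := hp.pos
  have himg : Polynomial.nthRootsFinset p (1 : O) = (range p).image (fun k => ζ ^ k) := by
    symm
    apply Finset.eq_of_subset_of_card_le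
    · intro μ hμ
      rw [Finset.mem_image] at hμ
      obtain ⟨k, -, rfl⟩ := hμ
      rw [Polynomial.mem_nthRootsFinset hp0]
      rw [← pow_mul, mul_comm, pow_mul, hζ.pow_eq_one, one_pow]
    · rw [hζ.card_nthRootsFinset, Finset.card_image_of_injOn hζ.injOn_pow, Finset.card_range]
  rw [hζ.pow_add_pow_eq_prod_add_mul x y (hp.odd_of_ne_two hodd), himg,
    Finset.prod_image hζ.injOn_pow]

/-- Step C: the quotients `c k = (x + ζ ^ k * y) / (ζ - 1)`. -/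
theorem exists_c (hp : p.Prime) (hζ : IsPrimitiveRoot ζ p) (hl : Prime (ζ - 1)) {x y : O}
    (hy : ¬ ζ - 1 ∣ y) (hxy : (ζ - 1) ^ 2 ∣ x + y) :
    ∃ c : ℕ → O, (∀ k, (ζ - 1) * c k = x + ζ ^ k * y) ∧ ζ - 1 ∣ c 0 ∧
      ∀ k, 0 < k → k < p → ¬ ζ - 1 ∣ c k := by
  obtain ⟨t, ht⟩ := hxy
  refine ⟨fun k => (ζ - 1) * t + (∑ i ∈ range k, ζ ^ i) * y, fun k => ?_, ?_, ?_⟩
  · have h := mul_geom_sum ζ k
    simp only
    linear_combination y * h - ht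
  · simp
  · intro k hk0 hkp h
    have hu : IsUnit (∑ i ∈ range k, ζ ^ i) :=
      hζ.geom_sum_isUnit hp.two_le (Nat.coprime_of_lt_prime hk0.ne' hkp hp).symm
    have h' : ζ - 1 ∣ (∑ i ∈ range k, ζ ^ i) * y := (dvd_add_right (dvd_mul_right _ _)).mp h
    rcases hl.dvd_or_dvd h' with h'' | h''
    · exact hl.not_isUnit (isUnit_of_dvd_unit h'' hu)
    · exact hy h''

/-- Step D: the quotients `c k` are pairwise coprime. -/
theorem isCoprime_of_mul_eq (hp : p.Prime) (hζ : IsPrimitiveRoot ζ p) {x y : O}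
    (hxy : IsCoprime x y) {c : ℕ → O} (hc : ∀ k, (ζ - 1) * c k = x + ζ ^ k * y) {j k : ℕ}
    (hj : j < p) (hk : k < p) (hjk : j ≠ k) : IsCoprime (c j) (c k) := by
  have hl0 : ζ - 1 ≠ 0 := sub_ne_zero.mpr (hζ.ne_one hp.one_lt)
  have hmem : ∀ i, ζ ^ i ∈ Polynomial.nthRootsFinset p (1 : O) := by
    intro i
    rw [Polynomial.mem_nthRootsFinset hp.pos, ← pow_mul, mul_comm, pow_mul, hζ.pow_eq_one, one_pow]
  have hne : ζ ^ j ≠ ζ ^ k := fun h => hjk (hζ.pow_inj hj hk h)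
  obtain ⟨u, hu⟩ :=
    hζ.nthRootsFinset_pairwise_associated_sub_one_sub_of_prime hp (hmem j) (hmem k) hne
  obtain ⟨a, b, hab⟩ := hxy
  have h1 : c j - c k = u * y := by
    apply mul_left_cancel₀ hl0
    linear_combination hc j - hc k - y * hu
  have h2 : ζ ^ k * c j - ζ ^ j * c k = - u * x := by
    apply mul_left_cancel₀ hl0
    linear_combination ζ ^ k * hc j - ζ ^ j * hc k + x * hu
  refine ⟨(↑u⁻¹ : O) * (b - a * ζ ^ k), (↑u⁻¹ : O) * (a * ζ ^ j - b), ?_⟩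
  have h3 : (↑u⁻¹ : O) * u = 1 := Units.inv_mul u
  linear_combination ((↑u⁻¹ : O) * b) * h1 - ((↑u⁻¹ : O) * a) * h2 + (a * x + b * y) * h3 + hab

/-- Step C: the product of the quotients `c k`. -/
theorem prod_c (hp : p.Prime) (hodd : p ≠ 2) (hζ : IsPrimitiveRoot ζ p) {x y z : O} {ε : Oˣ}
    {m : ℕ} (h : x ^ p + y ^ p = ε * (ζ - 1) ^ (p * (m + 1)) * z ^ p)
    {c : ℕ → O} (hc : ∀ k, (ζ - 1) * c k = x + ζ ^ k * y) :
    ∏ k ∈ range p, c k = ε * (ζ - 1) ^ (p * m) * z ^ p := by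
  have hl0 : ζ - 1 ≠ 0 := sub_ne_zero.mpr (hζ.ne_one hp.one_lt)
  apply mul_left_cancel₀ (pow_ne_zero p hl0)
  calc (ζ - 1) ^ p * ∏ k ∈ range p, c k = ∏ k ∈ range p, ((ζ - 1) * c k) := by
        rw [Finset.prod_mul_distrib, Finset.prod_const, Finset.card_range]
    _ = ∏ k ∈ range p, (x + ζ ^ k * y) := Finset.prod_congr rfl fun k _ => hc k
    _ = x ^ p + y ^ p := (pow_add_pow_eq_prod_range hp hodd hζ x y).symm
    _ = (ζ - 1) ^ p * (ε * (ζ - 1) ^ (p * m) * z ^ p) := by rw [h]; ring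

/-- Step C: all the powers of `ζ - 1` sit in `c 0`. -/
theorem split_c0 (hp : p.Prime) (hl : Prime (ζ - 1)) {z : O} {ε : Oˣ} {m : ℕ}
    (hz : ¬ ζ - 1 ∣ z) {c : ℕ → O} (hprod : ∏ k ∈ range p, c k = ε * (ζ - 1) ^ (p * m) * z ^ p)
    (hc0 : ζ - 1 ∣ c 0) (hck : ∀ k, 0 < k → k < p → ¬ ζ - 1 ∣ c k) :
    1 ≤ m ∧ ∃ c0' : O, c 0 = (ζ - 1) ^ (p * m) * c0' ∧ ¬ ζ - 1 ∣ c0' ∧
      c0' * ∏ k ∈ (range p).erase 0, c k = ε * z ^ p := by
  have h0 : 0 ∈ range p := Finset.mem_range.mpr hp.pos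
  have hsplit : c 0 * ∏ k ∈ (range p).erase 0, c k = ε * (ζ - 1) ^ (p * m) * z ^ p := by
    rw [Finset.mul_prod_erase _ _ h0, hprod]
  have hrest : ¬ ζ - 1 ∣ ∏ k ∈ (range p).erase 0, c k := by
    rw [Prime.dvd_finsetProd_iff hl]
    rintro ⟨k, hk, hdvd⟩
    rw [Finset.mem_erase, Finset.mem_range] at hk
    exact hck k (Nat.pos_of_ne_zero hk.1) hk.2 hdvd
  have hεz : ¬ ζ - 1 ∣ (ε : O) * z ^ p := by
    intro h
    rcases hl.dvd_or_dvd h with h' | h'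
    · exact hl.not_isUnit (isUnit_of_dvd_unit h' ε.isUnit)
    · exact hz (hl.dvd_of_dvd_pow h')
  have hm : 1 ≤ m := by
    by_contra hm
    have hm0 : m = 0 := by omega
    subst hm0
    apply hεz
    have h : ζ - 1 ∣ c 0 * ∏ k ∈ (range p).erase 0, c k := Dvd.dvd.mul_right hc0 _
    rw [hsplit] at h
    simpa using h
  have hpow : (ζ - 1) ^ (p * m) ∣ c 0 := by
    apply hl.pow_dvd_of_dvd_mul_right _ hrest
    rw [hsplit]
    exact ⟨ε * z ^ p, by ring⟩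
  obtain ⟨c0', hc0'⟩ := hpow
  have hl0 : ζ - 1 ≠ 0 := hl.ne_zero
  have hprod' : c0' * ∏ k ∈ (range p).erase 0, c k = ε * z ^ p := by
    apply mul_left_cancel₀ (pow_ne_zero (p * m) hl0)
    rw [← mul_assoc, ← hc0', hsplit]; ring
  refine ⟨hm, c0', hc0', ?_, hprod'⟩
  intro h
  apply hεz
  rw [← hprod']
  exact Dvd.dvd.mul_right h _

/-- Step D: pairwise coprime elements whose product is a unit times a `p`-th power are
associated to `p`-th powers. -/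
theorem exists_pow_of_prod [IsPrincipalIdealRing O] {d : ℕ → O} {z : O} {ε : Oˣ}
    (hprod : ∏ k ∈ range p, d k = ε * z ^ p)
    (hcop : ∀ j k, j < p → k < p → j ≠ k → IsCoprime (d j) (d k)) {k : ℕ} (hk : k < p) :
    ∃ ρ : O, Associated (ρ ^ p) (d k) := by
  have hk' : k ∈ range p := Finset.mem_range.mpr hk
  have h1 : d k * ∏ j ∈ (range p).erase k, d j = ε * z ^ p := by
    rw [Finset.mul_prod_erase _ _ hk', hprod]
  have h2 : IsCoprime (d k) (∏ j ∈ (range p).erase k, d j) := by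
    apply IsCoprime.prod_right
    intro j hj
    rw [Finset.mem_erase, Finset.mem_range] at hj
    exact hcop k j hk hj.2 (Ne.symm hj.1)
  apply exists_associated_pow_of_associated_pow_mul h2 (c := z)
  rw [h1]
  exact (associated_unit_mul_left _ _ ε.isUnit).symm

/-- Steps C–F: the descent step, assuming `(ζ - 1) ^ 2 ∣ x + y`. -/
theorem descent_aux [IsPrincipalIdealRing O] (hp : p.Prime) (hodd : p ≠ 2)
    (hζ : IsPrimitiveRoot ζ p) (hl : Prime (ζ - 1))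
    (hdvd : ∀ n : ℤ, ζ - 1 ∣ (n : O) ↔ (p : ℤ) ∣ n)
    (hpow : ∀ x : O, ∃ n : ℤ, (p : O) ∣ x ^ p - n)
    (hpl : (p : O) ∣ (ζ - 1) ^ p)
    (hkummer : ∀ u : Oˣ, (∃ n : ℤ, (p : O) ∣ (u : O) - n) → ∃ v : Oˣ, u = v ^ p)
    {x y z : O} {ε : Oˣ} {m : ℕ}
    (hy : ¬ ζ - 1 ∣ y) (hz : ¬ ζ - 1 ∣ z) (hxy : IsCoprime x y) (hsq : (ζ - 1) ^ 2 ∣ x + y)
    (h : x ^ p + y ^ p = ε * (ζ - 1) ^ (p * (m + 1)) * z ^ p) :
    1 ≤ m ∧ ∃ (x' y' z' : O) (ε' : Oˣ), ¬ ζ - 1 ∣ y' ∧ ¬ ζ - 1 ∣ z' ∧ IsCoprime x' y' ∧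
      x' ^ p + y' ^ p = ε' * (ζ - 1) ^ (p * m) * z' ^ p := by
  obtain ⟨c, hc, hc0, hck⟩ := exists_c hp hζ hl hy hsq
  have hprod := prod_c hp hodd hζ h hc
  obtain ⟨hm, c0', hc0', hc0l, hprod'⟩ := split_c0 hp hl hz hprod hc0 hck
  refine ⟨hm, ?_⟩
  have hcop : ∀ j k, j < p → k < p → j ≠ k → IsCoprime (c j) (c k) :=
    fun j k hj hk hjk => isCoprime_of_mul_eq hp hζ hxy hc hj hk hjk
  have h1p : 1 < p := hp.one_lt
  have hp3 : 3 ≤ p := by have := hp.two_le; omega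
  -- the modified family `d`, with `c 0` replaced by `c0'`
  obtain ⟨d, hd0, hdk⟩ : ∃ d : ℕ → O, d 0 = c0' ∧ ∀ k, k ≠ 0 → d k = c k :=
    ⟨Function.update c 0 c0', Function.update_self .., fun k hk => Function.update_of_ne hk ..⟩
  have hdprod : ∏ k ∈ range p, d k = ε * z ^ p := by
    rw [← Finset.mul_prod_erase _ _ (Finset.mem_range.mpr hp.pos), hd0, ← hprod']
    congr 1
    apply Finset.prod_congr rfl
    intro k hk
    exact hdk k (Finset.ne_of_mem_erase hk)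
  have hdcop : ∀ j k, j < p → k < p → j ≠ k → IsCoprime (d j) (d k) := by
    have key : ∀ k, 0 < k → k < p → IsCoprime c0' (c k) := by
      intro k hk0 hkp
      have h0k := hcop 0 k hp.pos hkp hk0.ne
      rw [hc0'] at h0k
      exact h0k.of_mul_left_right
    intro j k hj hk hjk
    rcases Nat.eq_zero_or_pos j with rfl | hj0
    · have hk0 : 0 < k := Nat.pos_of_ne_zero (Ne.symm hjk)
      rw [hd0, hdk k hk0.ne']
      exact key k hk0 hk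
    · rcases Nat.eq_zero_or_pos k with rfl | hk0
      · rw [hd0, hdk j hj0.ne']
        exact (key j hj0 hj).symm
      · rw [hdk j hj0.ne', hdk k hk0.ne']
        exact hcop j k hj hk hjk
  obtain ⟨ρ0, u0, hρ0⟩ := exists_pow_of_prod hdprod hdcop hp.pos
  obtain ⟨ρ1, u1, hρ1⟩ := exists_pow_of_prod hdprod hdcop h1p
  obtain ⟨ρ2, u2, hρ2⟩ := exists_pow_of_prod hdprod hdcop (show p - 1 < p by omega)
  rw [hd0] at hρ0
  rw [hdk 1 one_ne_zero] at hρ1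
  rw [hdk (p - 1) (by omega)] at hρ2
  have hl0 : ζ - 1 ≠ 0 := hl.ne_zero
  -- Step E: the identity relating `c 1`, `c (p - 1)` and `c 0`
  have hid : c 1 + ζ * c (p - 1) = (1 + ζ) * c 0 := by
    apply mul_left_cancel₀ hl0
    have hζp : ζ * ζ ^ (p - 1) = 1 := by
      rw [← pow_succ', Nat.sub_add_cancel hp.one_le, hζ.pow_eq_one]
    linear_combination hc 1 + ζ * hc (p - 1) - (1 + ζ) * hc 0 + y * hζp
  have hunit : IsUnit (1 + ζ) := by
    have h2 := hζ.geom_sum_isUnit hp.two_le (j := 2)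
      ((Nat.coprime_primes Nat.prime_two hp).mpr (Ne.symm hodd))
    simpa [Finset.sum_range_succ] using h2
  obtain ⟨w, hw⟩ := hunit
  obtain ⟨ζu, hζu⟩ := hζ.isUnit hp.ne_zero
  have heq : ρ1 ^ p * u1 + ζ * (ρ2 ^ p * u2)
      = (1 + ζ) * ((ζ - 1) ^ (p * m) * (ρ0 ^ p * u0)) := by
    rw [hρ1, hρ2, hρ0, ← hc0', hid]
  obtain ⟨η, hη⟩ : ∃ η : Oˣ, (η : O) = ζ * u2 * ↑u1⁻¹ :=
    ⟨ζu * u2 * u1⁻¹, by simp [hζu]⟩
  obtain ⟨ε', hε'⟩ : ∃ ε' : Oˣ, (ε' : O) = (1 + ζ) * u0 * ↑u1⁻¹ :=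
    ⟨w * u0 * u1⁻¹, by simp [hw]⟩
  have heq' : ρ1 ^ p + η * ρ2 ^ p = ε' * (ζ - 1) ^ (p * m) * ρ0 ^ p := by
    have hu1 : (u1 : O) * ↑u1⁻¹ = 1 := Units.mul_inv u1
    rw [hη, hε']
    linear_combination (↑u1⁻¹ : O) * heq - (ρ1 ^ p) * hu1
  -- Step F: `η` is congruent to a rational integer modulo `p`
  have hpdvd : (p : O) ∣ ρ1 ^ p + η * ρ2 ^ p := by
    rw [heq']
    have h' : (ζ - 1) ^ p ∣ (ζ - 1) ^ (p * m) := pow_dvd_pow _ (Nat.le_mul_of_pos_right p hm)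
    exact Dvd.dvd.mul_right (Dvd.dvd.mul_left (hpl.trans h') _) _
  obtain ⟨n1, hn1⟩ := hpow ρ1
  obtain ⟨n2, hn2⟩ := hpow ρ2
  have hlp : ζ - 1 ∣ (p : O) := hζ.sub_one_dvd_natCast hp.one_lt
  have hρ2l : ¬ ζ - 1 ∣ ρ2 := by
    intro hdiv
    apply hck (p - 1) (by omega) (by omega)
    rw [← hρ2]
    exact Dvd.dvd.mul_right (dvd_pow hdiv hp.ne_zero) _
  have hρ0l : ¬ ζ - 1 ∣ ρ0 := by
    intro hdiv
    apply hc0l
    rw [← hρ0]
    exact Dvd.dvd.mul_right (dvd_pow hdiv hp.ne_zero) _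
  have hn2p : ¬ (p : ℤ) ∣ n2 := by
    intro hdiv
    have h1 : ζ - 1 ∣ (n2 : O) := (hdvd n2).mpr hdiv
    have h2 : ζ - 1 ∣ ρ2 ^ p - n2 := hlp.trans hn2
    have h3 : ζ - 1 ∣ ρ2 ^ p := by simpa using dvd_add h2 h1
    exact hρ2l (hl.dvd_of_dvd_pow h3)
  have hcopZ : IsCoprime (p : ℤ) n2 :=
    (Nat.prime_iff_prime_int.mp hp).coprime_iff_not_dvd.mpr hn2p
  obtain ⟨s, r, hrs⟩ := hcopZ
  have hη_cong : (p : O) ∣ (η : O) - ((-(r * n1) : ℤ) : O) := by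
    have hrs' : (s : O) * p + r * n2 = 1 := by exact_mod_cast congrArg (Int.cast : ℤ → O) hrs
    have e : (η : O) - ((-(r * n1) : ℤ) : O) = r * (ρ1 ^ p + η * ρ2 ^ p) - r * (ρ1 ^ p - n1)
        - r * η * (ρ2 ^ p - n2) + η * s * p := by
      push_cast
      linear_combination (-(η : O)) * hrs'
    rw [e]
    exact dvd_add (dvd_sub (dvd_sub (Dvd.dvd.mul_left hpdvd _) (Dvd.dvd.mul_left hn1 _))
      (Dvd.dvd.mul_left hn2 _)) (dvd_mul_left _ _)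
  obtain ⟨v, hv⟩ := hkummer η ⟨_, hη_cong⟩
  refine ⟨ρ1, v * ρ2, ρ0, ε', ?_, hρ0l, ?_, ?_⟩
  · intro hdiv
    rcases hl.dvd_or_dvd hdiv with h' | h'
    · exact hl.not_isUnit (isUnit_of_dvd_unit h' v.isUnit)
    · exact hρ2l h'
  · have h12 : IsCoprime (c 1) (c (p - 1)) := hcop 1 (p - 1) h1p (by omega) (by omega)
    rw [← hρ1, ← hρ2] at h12
    have h12' : IsCoprime (ρ1 ^ p) (ρ2 ^ p) := h12.of_mul_left_left.of_mul_right_left
    have h12'' : IsCoprime ρ1 ρ2 := (IsCoprime.pow_iff hp.pos hp.pos).mp h12'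
    exact (isCoprime_mul_unit_left_right v.isUnit _ _).mpr h12''
  · rw [mul_pow, ← Units.val_pow_eq_pow_val, ← hv]
    exact heq'

/-- The descent step: a solution at level `m + 1` forces `1 ≤ m` and yields a solution at
level `m`. -/
theorem descent [IsPrincipalIdealRing O] (hp : p.Prime) (hodd : p ≠ 2)
    (hζ : IsPrimitiveRoot ζ p) (hl : Prime (ζ - 1))
    (hint : ∀ x : O, ∃ n : ℤ, ζ - 1 ∣ x - n)
    (hdvd : ∀ n : ℤ, ζ - 1 ∣ (n : O) ↔ (p : ℤ) ∣ n)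
    (hpow : ∀ x : O, ∃ n : ℤ, (p : O) ∣ x ^ p - n)
    (hpl : (p : O) ∣ (ζ - 1) ^ p)
    (hkummer : ∀ u : Oˣ, (∃ n : ℤ, (p : O) ∣ (u : O) - n) → ∃ v : Oˣ, u = v ^ p)
    {x y z : O} {ε : Oˣ} {m : ℕ}
    (hy : ¬ ζ - 1 ∣ y) (hz : ¬ ζ - 1 ∣ z) (hxy : IsCoprime x y)
    (h : x ^ p + y ^ p = ε * (ζ - 1) ^ (p * (m + 1)) * z ^ p) :
    1 ≤ m ∧ ∃ (x' y' z' : O) (ε' : Oˣ), ¬ ζ - 1 ∣ y' ∧ ¬ ζ - 1 ∣ z' ∧ IsCoprime x' y' ∧
      x' ^ p + y' ^ p = ε' * (ζ - 1) ^ (p * m) * z' ^ p := by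
  have hldvd : ζ - 1 ∣ x ^ p + y ^ p := by
    rw [h]
    exact Dvd.dvd.mul_right (Dvd.dvd.mul_left
      (dvd_pow_self _ (Nat.mul_ne_zero hp.ne_zero (Nat.succ_ne_zero m))) _) _
  rw [pow_add_pow_eq_prod_range hp hodd hζ, Prime.dvd_finsetProd_iff hl] at hldvd
  obtain ⟨k, -, hk⟩ := hldvd
  have hxy1 : ζ - 1 ∣ x + y := by
    have e : x + y = (x + ζ ^ k * y) - (ζ ^ k - 1) * y := by ring
    rw [e]
    exact dvd_sub hk (Dvd.dvd.mul_right (sub_one_dvd_pow_sub_one ζ k) y)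
  obtain ⟨k0, -, hsq⟩ := exists_sq_dvd hp hint hdvd hy hxy1
  have hunit : IsUnit (ζ ^ k0) := (hζ.isUnit hp.ne_zero).pow k0
  have hy' : ¬ ζ - 1 ∣ ζ ^ k0 * y := by
    intro hdiv
    rcases hl.dvd_or_dvd hdiv with h' | h'
    · exact hl.not_isUnit (isUnit_of_dvd_unit h' hunit)
    · exact hy h'
  have hxy' : IsCoprime x (ζ ^ k0 * y) := (isCoprime_mul_unit_left_right hunit _ _).mpr hxy
  have h' : x ^ p + (ζ ^ k0 * y) ^ p = ε * (ζ - 1) ^ (p * (m + 1)) * z ^ p := by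
    rw [mul_pow, ← pow_mul, mul_comm k0 p, pow_mul, hζ.pow_eq_one, one_pow, one_mul, h]
  exact descent_aux hp hodd hζ hl hdvd hpow hpl hkummer hy' hz hxy' hsq h'

/-- There is no solution at any level. -/
theorem no_solution [IsPrincipalIdealRing O] (hp : p.Prime) (hodd : p ≠ 2)
    (hζ : IsPrimitiveRoot ζ p) (hl : Prime (ζ - 1))
    (hint : ∀ x : O, ∃ n : ℤ, ζ - 1 ∣ x - n)
    (hdvd : ∀ n : ℤ, ζ - 1 ∣ (n : O) ↔ (p : ℤ) ∣ n)
    (hpow : ∀ x : O, ∃ n : ℤ, (p : O) ∣ x ^ p - n)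
    (hpl : (p : O) ∣ (ζ - 1) ^ p)
    (hkummer : ∀ u : Oˣ, (∃ n : ℤ, (p : O) ∣ (u : O) - n) → ∃ v : Oˣ, u = v ^ p)
    (m : ℕ) : ∀ (x y z : O) (ε : Oˣ), ¬ ζ - 1 ∣ y → ¬ ζ - 1 ∣ z → IsCoprime x y →
      x ^ p + y ^ p ≠ ε * (ζ - 1) ^ (p * (m + 1)) * z ^ p := by
  induction m with
  | zero =>
    intro x y z ε hy hz hxy h
    have h1 := (descent hp hodd hζ hl hint hdvd hpow hpl hkummer hy hz hxy h).1
    omega
  | succ m ih =>
    intro x y z ε hy hz hxy h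
    obtain ⟨-, x', y', z', ε', hy', hz', hxy', h'⟩ :=
      descent hp hodd hζ hl hint hdvd hpow hpl hkummer hy hz hxy h
    exact ih x' y' z' ε' hy' hz' hxy' h'

end Abstract

section Concrete

open NumberField

/-- **Kummer's descent for the second case of Fermat's Last Theorem**: if `𝓞 ℚ(ζ_p)` is a
principal ideal domain and Kummer's lemma holds for `p`, then `a ^ p + b ^ p = c ^ p` has no
solution in coprime integers `a`, `b` with `p ∣ c` and `c ≠ 0`. -/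
theorem caseII {p : ℕ} [Fact p.Prime] (hp5 : 5 ≤ p) {K : Type*} [Field K] [NumberField K]
    [IsCyclotomicExtension {p} ℚ K]
    (hpid : IsPrincipalIdealRing (𝓞 K))
    (hkummer : ∀ u : (𝓞 K)ˣ, (∃ n : ℤ, ((p : ℕ) : 𝓞 K) ∣ (u : 𝓞 K) - n) → ∃ v : (𝓞 K)ˣ, u = v ^ p)
    {a b c : ℤ} (hab : IsCoprime a b) (hc : c ≠ 0) (hpc : (p : ℤ) ∣ c) :
    a ^ p + b ^ p ≠ c ^ p := by
  intro habc
  have hp : p.Prime := Fact.out
  have hpZ : Prime (p : ℤ) := Nat.prime_iff_prime_int.mp hp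
  have hζ := IsCyclotomicExtension.zeta_spec p ℚ K
  have hζ' : IsPrimitiveRoot hζ.toInteger p := hζ.toInteger_isPrimitiveRoot
  have hl : Prime (hζ.toInteger - 1) := hζ.zeta_sub_one_prime'
  have hdvd : ∀ n : ℤ, hζ.toInteger - 1 ∣ (n : 𝓞 K) ↔ (p : ℤ) ∣ n :=
    fun n => IsCyclotomicExtension.Rat.zeta_sub_one_dvd_intCast_iff' p hζ
  have htop : Algebra.adjoin ℤ {hζ.toInteger} = ⊤ :=
    IsCyclotomicExtension.Rat.adjoin_singleton_eq_top hζ
  obtain ⟨u, hu⟩ := IsCyclotomicExtension.Rat.associated_zeta_sub_one_pow_prime p hζ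
  have hpl : (p : 𝓞 K) ∣ (hζ.toInteger - 1) ^ p := by
    refine ⟨↑u⁻¹ * (hζ.toInteger - 1), ?_⟩
    rw [← hu]
    have h1 : (hζ.toInteger - 1) ^ p = (hζ.toInteger - 1) ^ (p - 1) * (hζ.toInteger - 1) := by
      rw [← pow_succ, Nat.sub_add_cancel hp.one_le]
    have h2 : (u : 𝓞 K) * ↑u⁻¹ = 1 := Units.mul_inv u
    rw [h1]
    linear_combination (-(hζ.toInteger - 1) ^ (p - 1) * (hζ.toInteger - 1)) * h2
  -- `p` does not divide `b`
  have hpb : ¬ (p : ℤ) ∣ b := by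
    intro hb
    have hpa : (p : ℤ) ∣ a ^ p := by
      have e : a ^ p = c ^ p - b ^ p := by rw [← habc]; ring
      rw [e]
      exact dvd_sub (dvd_pow hpc hp.ne_zero) (dvd_pow hb hp.ne_zero)
    exact hpZ.not_isUnit (hab.isUnit_of_dvd' (hpZ.dvd_of_dvd_pow hpa) hb)
  -- write `c = p ^ k * c'` with `p ∤ c'`
  have hfin : FiniteMultiplicity (p : ℤ) c :=
    Int.finiteMultiplicity_iff.mpr ⟨by simpa using hp.ne_one, hc⟩
  obtain ⟨c', hcc', hc'⟩ := hfin.exists_eq_pow_mul_and_not_dvd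
  obtain ⟨k, hk⟩ : ∃ k, multiplicity (p : ℤ) c = k := ⟨_, rfl⟩
  rw [hk] at hcc'
  have hk1 : 1 ≤ k := by
    by_contra hk0
    have hk0' : k = 0 := by omega
    rw [hk0', pow_zero, one_mul] at hcc'
    exact hc' (hcc' ▸ hpc)
  have hexp : (p - 1) * k - 1 + 1 = (p - 1) * k := by
    have h1 : 1 ≤ (p - 1) * k :=
      Nat.one_le_iff_ne_zero.mpr (Nat.mul_ne_zero (by omega) (by omega))
    omega
  have heq : (a : 𝓞 K) ^ p + (b : 𝓞 K) ^ p
      = ((u ^ (k * p) : (𝓞 K)ˣ) : 𝓞 K) * (hζ.toInteger - 1) ^ (p * ((p - 1) * k - 1 + 1))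
        * (c' : 𝓞 K) ^ p := by
    have h1 : (a : 𝓞 K) ^ p + (b : 𝓞 K) ^ p = (c : 𝓞 K) ^ p := by
      exact_mod_cast congrArg (Int.cast : ℤ → 𝓞 K) habc
    rw [h1, hexp, hcc']
    push_cast
    rw [← hu]
    ring
  have := hpid
  exact no_solution hp (by omega) hζ' hl (exists_int_sub_dvd htop) hdvd
    (exists_int_pow_sub_dvd hp hζ'.pow_eq_one htop) hpl hkummer _ _ _ _ _
    ((hdvd b).not.mpr hpb) ((hdvd c').not.mpr hc') hab.intCast heq

end Concrete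

end Fermat.Agent.Lib.KummerCaseIIB
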