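import Mathlib

/-!
# Kummer's descent for the second case of Fermat's Last Theorem (generic in `p`)

Let `p ≥ 5` be a prime and `K` a `p`-th cyclotomic extension of `ℚ` whose ring of integers is a
principal ideal domain and satisfies Kummer's lemma (a unit congruent to a rational integer modulo
`p` is a `p`-th power).  Then `a ^ p + b ^ p ≠ c ^ p` for coprime integers `a`, `b` and a nonzero
`c` divisible by `p`.

The descent itself is carried out in an abstract domain `O` containing a primitive `p`-th root of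
unity `ζ` such that `ζ - 1` is prime (section `Abstract`), and is then specialised to `𝓞 K`.
-/

namespace Fermat.Agent.Lib.KummerCaseIIC

open Polynomial Finset

section Abstract

variable {O : Type*} [CommRing O] [IsDomain O] {p : ℕ} {ζ : O}

omit [IsDomain O] in
/-- `(ζ - 1) ^ 2` divides `ζ ^ k - 1 - k * (ζ - 1)`. -/
lemma sq_dvd_pow_sub_one_sub (ζ : O) (k : ℕ) : (ζ - 1) ^ 2 ∣ ζ ^ k - 1 - k * (ζ - 1) := by
  induction k with
  | zero => simp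
  | succ k ih =>
    obtain ⟨r, hr⟩ := ih
    refine ⟨ζ * r + k, ?_⟩
    push_cast
    linear_combination ζ * hr

/-- Step A: if `ζ - 1` divides `x ^ p + y ^ p` then it divides `x + y`. -/
lemma lam_dvd_add (hp : p.Prime) (hodd : Odd p) (hζ : IsPrimitiveRoot ζ p) (hl : Prime (ζ - 1))
    {x y : O} (h : ζ - 1 ∣ x ^ p + y ^ p) : ζ - 1 ∣ x + y := by
  rw [hζ.pow_add_pow_eq_prod_add_mul x y hodd] at h
  obtain ⟨μ, hμ, hdiv⟩ := (Prime.dvd_finsetProd_iff hl _).1 h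
  have h1 : ζ - 1 ∣ μ - 1 := hζ.sub_one_dvd_sub hp hμ (one_mem_nthRootsFinset hp.pos)
  have : x + y = (x + μ * y) - (μ - 1) * y := by ring
  rw [this]
  exact dvd_sub hdiv (h1.mul_right y)

omit [IsDomain O] in
/-- Step B: if `ζ - 1` divides `x + y` but not `y`, then `(ζ - 1) ^ 2` divides `x + ζ ^ k * y`
for a suitable `k`. -/
lemma exists_sq_dvd (hp : p.Prime) (hint : ∀ x : O, ∃ n : ℤ, ζ - 1 ∣ x - n)
    (hdvd : ∀ n : ℤ, ζ - 1 ∣ (n : O) ↔ (p : ℤ) ∣ n) {x y : O} (hxy : ζ - 1 ∣ x + y)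
    (hy : ¬ ζ - 1 ∣ y) : ∃ k : ℕ, (ζ - 1) ^ 2 ∣ x + ζ ^ k * y := by
  obtain ⟨t, ht⟩ := hxy
  obtain ⟨t0, ht0⟩ := hint t
  obtain ⟨y0, hy0⟩ := hint y
  have hpy0 : ¬ (p : ℤ) ∣ y0 := by
    intro h
    apply hy
    have h2 := dvd_add hy0 ((hdvd y0).2 h)
    simpa using h2
  have hcop : IsCoprime y0 (p : ℤ) :=
    ((Nat.prime_iff_prime_int.1 hp).coprime_iff_not_dvd.2 hpy0).symm
  obtain ⟨a, b, hab⟩ := hcop
  have hk'nonneg : 0 ≤ (-t0 * a) % p := Int.emod_nonneg _ (by exact_mod_cast hp.ne_zero)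
  obtain ⟨k, hk⟩ := Int.eq_ofNat_of_zero_le hk'nonneg
  have hpk : (p : ℤ) ∣ t0 + k * y0 := by
    rw [← hk]
    have h3 := Int.emod_add_mul_ediv (-t0 * a) p
    refine ⟨t0 * b - ((-t0 * a) / p) * y0, ?_⟩
    linear_combination y0 * h3 - t0 * hab
  refine ⟨k, ?_⟩
  obtain ⟨r, hr⟩ := sq_dvd_pow_sub_one_sub ζ k
  have h4 : ζ - 1 ∣ ((t0 + k * y0 : ℤ) : O) := (hdvd _).2 hpk
  have h5 : ζ - 1 ∣ t + k * y := by
    have : t + k * y = (t - t0) + k * (y - y0) + ((t0 + k * y0 : ℤ) : O) := by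
      push_cast; ring
    rw [this]
    exact dvd_add (dvd_add ht0 (hy0.mul_left _)) h4
  obtain ⟨s, hs⟩ := h5
  refine ⟨s + r * y, ?_⟩
  linear_combination ht + y * hr + (ζ - 1) * hs

/-- The descent predicate: a solution of `x ^ p + y ^ p = ε * (ζ - 1) ^ (p * m) * z ^ p` with
`x`, `y` coprime and `y`, `z` prime to `ζ - 1`. -/
def Sol (ζ : O) (p m : ℕ) : Prop :=
  ∃ (x y z : O) (ε : Oˣ), ¬ ζ - 1 ∣ y ∧ ¬ ζ - 1 ∣ z ∧ IsCoprime x y ∧
    x ^ p + y ^ p = ε * (ζ - 1) ^ (p * m) * z ^ p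

/-- Steps C–F: the descent step, under the normalisation `(ζ - 1) ^ 2 ∣ x + y`. -/
lemma descent_step_aux [IsPrincipalIdealRing O] (hp : p.Prime) (hp3 : 3 ≤ p)
    (hζ : IsPrimitiveRoot ζ p) (hl : Prime (ζ - 1))
    (hpow : ∀ x : O, ∃ n : ℤ, (p : O) ∣ x ^ p - n)
    (hass : Associated ((ζ - 1) ^ (p - 1)) (p : O))
    (hdvd : ∀ n : ℤ, ζ - 1 ∣ (n : O) ↔ (p : ℤ) ∣ n)
    (hkummer : ∀ u : Oˣ, (∃ n : ℤ, (p : O) ∣ (u : O) - n) → ∃ v : Oˣ, u = v ^ p)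
    {m : ℕ} {x y z : O} {ε : Oˣ} (hy : ¬ ζ - 1 ∣ y) (hz : ¬ ζ - 1 ∣ z) (hxy : IsCoprime x y)
    (hsq : (ζ - 1) ^ 2 ∣ x + y)
    (h : x ^ p + y ^ p = ε * (ζ - 1) ^ (p * (m + 1)) * z ^ p) :
    1 ≤ m ∧ Sol ζ p m := by
  classical
  have hp0 : p ≠ 0 := hp.ne_zero
  have hodd : Odd p := hp.odd_of_ne_two (by omega)
  have hl0 : ζ - 1 ≠ 0 := hl.ne_zero
  obtain ⟨s, hs⟩ := hsq
  -- all the factors are divisible by `ζ - 1`
  have h1S : (1 : O) ∈ nthRootsFinset p (1 : O) := one_mem_nthRootsFinset hp.pos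
  have hfac : ∀ μ ∈ nthRootsFinset p (1 : O), ∃ c, x + μ * y = (ζ - 1) * c := by
    intro μ hμ
    obtain ⟨d, hd⟩ : ζ - 1 ∣ μ - 1 := hζ.sub_one_dvd_sub hp hμ h1S
    exact ⟨(ζ - 1) * s + d * y, by linear_combination hs + y * hd⟩
  choose! c hc using hfac
  -- the product of the cofactors
  have hprod : ∏ μ ∈ nthRootsFinset p (1 : O), c μ = ε * (ζ - 1) ^ (p * m) * z ^ p := by
    have e1 : x ^ p + y ^ p = (ζ - 1) ^ p * ∏ μ ∈ nthRootsFinset p (1 : O), c μ := by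
      rw [hζ.pow_add_pow_eq_prod_add_mul x y hodd, Finset.prod_congr rfl hc,
        Finset.prod_mul_distrib, Finset.prod_const, hζ.card_nthRootsFinset]
    apply mul_left_cancel₀ (pow_ne_zero p hl0)
    rw [← e1, h]
    ring
  -- units attached to differences of roots
  have hunit : ∀ μ ∈ nthRootsFinset p (1 : O), ∀ ν ∈ nthRootsFinset p (1 : O), μ ≠ ν →
      ∃ u : Oˣ, (ζ - 1) * u = μ - ν := fun μ hμ ν hν hne ↦
    hζ.nthRootsFinset_pairwise_associated_sub_one_sub_of_prime hp hμ hν hne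
  -- `ζ - 1` does not divide `c μ` for `μ ≠ 1`
  have hndvd : ∀ μ ∈ nthRootsFinset p (1 : O), μ ≠ 1 → ¬ ζ - 1 ∣ c μ := by
    intro μ hμ hne hdiv
    obtain ⟨u, hu⟩ := hunit μ hμ 1 h1S hne
    have e : c μ = (ζ - 1) * s + u * y := by
      apply mul_left_cancel₀ hl0
      rw [← hc μ hμ]
      linear_combination hs - y * hu
    rw [e] at hdiv
    have h2 : ζ - 1 ∣ (u : O) * y := (dvd_add_right (dvd_mul_right _ _)).1 hdiv
    exact hy ((Units.dvd_mul_left).1 h2)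
  -- `ζ - 1` divides `c 1`
  have hc1 : c 1 = (ζ - 1) * s := by
    apply mul_left_cancel₀ hl0
    rw [← hc 1 h1S]
    linear_combination hs
  -- the cofactors are pairwise coprime
  have hcop : ∀ μ ∈ nthRootsFinset p (1 : O), ∀ ν ∈ nthRootsFinset p (1 : O), μ ≠ ν →
      IsCoprime (c μ) (c ν) := by
    intro μ hμ ν hν hne
    obtain ⟨u, hu⟩ := hunit μ hμ ν hν hne
    obtain ⟨a, b, hab⟩ := hxy
    have e1 : c μ - c ν = u * y := by
      apply mul_left_cancel₀ hl0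
      linear_combination hc ν hν - hc μ hμ - y * hu
    have e2 : μ * c ν - ν * c μ = u * x := by
      apply mul_left_cancel₀ hl0
      linear_combination ν * hc μ hμ - μ * hc ν hν - x * hu
    have e3 : ((u⁻¹ : Oˣ) : O) * u = 1 := Units.inv_mul u
    refine ⟨b * ((u⁻¹ : Oˣ) : O) - a * ((u⁻¹ : Oˣ) : O) * ν,
      a * ((u⁻¹ : Oˣ) : O) * μ - b * ((u⁻¹ : Oˣ) : O), ?_⟩
    linear_combination (b * ((u⁻¹ : Oˣ) : O)) * e1 + (a * ((u⁻¹ : Oˣ) : O)) * e2 + hab +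
      (b * y + a * x) * e3
  have hcop' : ∀ μ ∈ nthRootsFinset p (1 : O),
      IsCoprime (c μ) (∏ ν ∈ (nthRootsFinset p (1 : O)).erase μ, c ν) := by
    intro μ hμ
    refine IsCoprime.prod_right fun ν hν ↦ ?_
    exact hcop μ hμ ν (Finset.mem_of_mem_erase hν) (Finset.ne_of_mem_erase hν).symm
  -- each cofactor is associated to a `p`-th power
  have hpth : ∀ μ ∈ nthRootsFinset p (1 : O), ∃ ρ : O, Associated (ρ ^ p) (c μ) := by
    intro μ hμ
    refine exists_associated_pow_of_associated_pow_mul (c := (ζ - 1) ^ m * z) (hcop' μ hμ) ?_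
    rw [Finset.mul_prod_erase _ _ hμ, hprod]
    refine ⟨ε, ?_⟩
    ring
  -- the special roots `ζ` and `ζ ^ (p - 1)`
  have hζS : ζ ∈ nthRootsFinset p (1 : O) := hζ.mem_nthRootsFinset hp.pos
  have hζ'S : ζ ^ (p - 1) ∈ nthRootsFinset p (1 : O) := by
    rw [mem_nthRootsFinset hp.pos, ← pow_mul, mul_comm, pow_mul, hζ.pow_eq_one, one_pow]
  have hζ1 : ζ ≠ 1 := hζ.ne_one hp.one_lt
  have hζ'1 : ζ ^ (p - 1) ≠ 1 := hζ.pow_ne_one_of_pos_of_lt (by omega) (by omega)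
  have hζζ' : ζ ≠ ζ ^ (p - 1) := by
    intro e
    have e2 : ζ ^ 2 = 1 := by
      calc ζ ^ 2 = ζ * ζ := sq ζ
        _ = ζ * ζ ^ (p - 1) := by rw [← e]
        _ = ζ ^ (p - 1 + 1) := (pow_succ' ζ (p - 1)).symm
        _ = 1 := by rw [Nat.sub_add_cancel hp.pos, hζ.pow_eq_one]
    exact hζ.pow_ne_one_of_pos_of_lt (by omega) (by omega) e2
  obtain ⟨ρ1, ε1, hρ1⟩ := hpth ζ hζS
  obtain ⟨ρ2, ε2, hρ2⟩ := hpth (ζ ^ (p - 1)) hζ'S
  -- the cofactor `c 1`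
  set P := ∏ ν ∈ (nthRootsFinset p (1 : O)).erase 1, c ν with hP
  have hPndvd : ¬ ζ - 1 ∣ P := by
    rw [hP, Prime.dvd_finsetProd_iff hl]
    rintro ⟨ν, hν, hdiv⟩
    exact hndvd ν (Finset.mem_of_mem_erase hν) (Finset.ne_of_mem_erase hν) hdiv
  have hc1P : c 1 * P = ε * (ζ - 1) ^ (p * m) * z ^ p := by
    rw [hP, Finset.mul_prod_erase _ _ h1S, hprod]
  obtain ⟨c0, hc0⟩ : (ζ - 1) ^ (p * m) ∣ c 1 := by
    refine hl.pow_dvd_of_dvd_mul_right _ hPndvd ?_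
    rw [hc1P]
    exact (dvd_mul_left ((ζ - 1) ^ (p * m)) (ε : O)).mul_right (z ^ p)
  have hc0P : c0 * P = ε * z ^ p := by
    apply mul_left_cancel₀ (pow_ne_zero (p * m) hl0)
    rw [← mul_assoc, ← hc0, hc1P]
    ring
  have hc0ndvd : ¬ ζ - 1 ∣ c0 := by
    intro hdiv
    have h2 : ζ - 1 ∣ (ε : O) * z ^ p := hc0P ▸ hdiv.mul_right P
    exact hz (hl.dvd_of_dvd_pow ((Units.dvd_mul_left).1 h2))
  have hm : 1 ≤ m := by
    by_contra hm0
    have hm0' : m = 0 := by omega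
    apply hc0ndvd
    rw [hm0', mul_zero, pow_zero, one_mul] at hc0
    rw [← hc0, hc1]
    exact dvd_mul_right _ _
  have hcop0 : IsCoprime c0 P := by
    have h2 := hcop' 1 h1S
    rw [hc0] at h2
    exact h2.of_mul_left_right
  obtain ⟨ρ0, ε0, hρ0⟩ : ∃ ρ : O, Associated (ρ ^ p) c0 := by
    refine exists_associated_pow_of_associated_pow_mul (c := z) hcop0 ?_
    rw [hc0P]
    exact ⟨ε, mul_comm _ _⟩
  refine ⟨hm, ?_⟩
  -- Step E: the new equation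
  have hζp : ζ * ζ ^ (p - 1) = 1 := by
    rw [← pow_succ', Nat.sub_add_cancel hp.pos, hζ.pow_eq_one]
  have hE : c ζ + ζ * c (ζ ^ (p - 1)) = (1 + ζ) * c 1 := by
    apply mul_left_cancel₀ hl0
    linear_combination (1 + ζ) * hc 1 h1S - hc ζ hζS - ζ * hc (ζ ^ (p - 1)) hζ'S + y * hζp
  obtain ⟨ζu, hζu⟩ : IsUnit ζ := hζ.isUnit hp0
  obtain ⟨ωu, hωu⟩ : IsUnit (1 + ζ) := by
    have h2 := hζ.geom_sum_isUnit hp.two_le (j := 2)
      ((Nat.coprime_primes Nat.prime_two hp).2 (by omega))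
    simpa [Finset.sum_range_succ] using h2
  set η : Oˣ := ζu * ε2 * ε1⁻¹ with hη
  set ε' : Oˣ := ωu * ε0 * ε1⁻¹ with hε'
  have e3 : ((ε1⁻¹ : Oˣ) : O) * ε1 = 1 := Units.inv_mul ε1
  have hnew : ρ1 ^ p + η * ρ2 ^ p = ε' * (ζ - 1) ^ (p * m) * ρ0 ^ p := by
    rw [hη, hε']
    push_cast
    rw [hζu, hωu]
    rw [← hρ1, ← hρ2, hc0, ← hρ0] at hE
    linear_combination ((ε1⁻¹ : Oˣ) : O) * hE - ρ1 ^ p * e3
  -- Step F: `η` is a `p`-th power
  have hρ2ndvd : ¬ ζ - 1 ∣ ρ2 := by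
    intro hdiv
    apply hndvd _ hζ'S hζ'1
    rw [← hρ2]
    exact (dvd_pow hdiv hp0).mul_right _
  have hlp : ζ - 1 ∣ (p : O) := (dvd_pow_self (ζ - 1) (by omega : p - 1 ≠ 0)).trans hass.dvd
  have hpl : (p : O) ∣ (ζ - 1) ^ (p * m) := by
    refine hass.symm.dvd.trans (pow_dvd_pow _ ?_)
    calc p - 1 ≤ p * 1 := by omega
      _ ≤ p * m := Nat.mul_le_mul_left p hm
  obtain ⟨n1, hn1⟩ := hpow ρ1
  obtain ⟨n2, hn2⟩ := hpow ρ2
  have hpn2 : ¬ (p : ℤ) ∣ n2 := by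
    intro hdiv
    apply hρ2ndvd
    apply hl.dvd_of_dvd_pow (n := p)
    have h2 := dvd_add (hlp.trans hn2) ((hdvd n2).2 hdiv)
    simpa using h2
  obtain ⟨a, b, hab⟩ : IsCoprime n2 (p : ℤ) :=
    ((Nat.prime_iff_prime_int.1 hp).coprime_iff_not_dvd.2 hpn2).symm
  have habO : (a : O) * n2 + b * p = 1 := by exact_mod_cast congrArg (Int.cast : ℤ → O) hab
  obtain ⟨v, hv⟩ : ∃ v : Oˣ, η = v ^ p := by
    apply hkummer
    refine ⟨-(a * n1), ?_⟩
    obtain ⟨w, hw⟩ := hpl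
    obtain ⟨w1, hw1⟩ := hn1
    obtain ⟨w2, hw2⟩ := hn2
    refine ⟨a * (ε' * w * ρ0 ^ p - w1 - η * w2) + η * b, ?_⟩
    push_cast
    linear_combination (a : O) * hnew + (a : O) * ε' * ρ0 ^ p * hw - (a : O) * hw1
      - (a : O) * η * hw2 - (η : O) * habO
  -- the new solution
  refine ⟨ρ1, v * ρ2, ρ0, ε', ?_, ?_, ?_, ?_⟩
  · rw [Units.dvd_mul_left]
    exact hρ2ndvd
  · intro hdiv
    apply hc0ndvd
    rw [← hρ0]
    exact (dvd_pow hdiv hp0).mul_right _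
  · have h2 := hcop ζ hζS _ hζ'S hζζ'
    rw [← hρ1, ← hρ2] at h2
    have h3 : IsCoprime (ρ1 ^ p) (ρ2 ^ p) :=
      (isCoprime_mul_unit_right_left ε1.isUnit _ _).1
        ((isCoprime_mul_unit_right_right ε2.isUnit _ _).1 h2)
    have h4 : IsCoprime ρ1 ρ2 := (IsCoprime.pow_iff hp.pos hp.pos).1 h3
    exact (isCoprime_mul_unit_left_right v.isUnit _ _).2 h4
  · rw [mul_pow, ← hnew, hv]
    push_cast
    ring

/-- The descent step: a solution with exponent `p * (m + 1)` forces `1 ≤ m` and yields a solution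
with exponent `p * m`. -/
lemma descent_step [IsPrincipalIdealRing O] (hp : p.Prime) (hp3 : 3 ≤ p)
    (hζ : IsPrimitiveRoot ζ p) (hl : Prime (ζ - 1))
    (hint : ∀ x : O, ∃ n : ℤ, ζ - 1 ∣ x - n)
    (hpow : ∀ x : O, ∃ n : ℤ, (p : O) ∣ x ^ p - n)
    (hass : Associated ((ζ - 1) ^ (p - 1)) (p : O))
    (hdvd : ∀ n : ℤ, ζ - 1 ∣ (n : O) ↔ (p : ℤ) ∣ n)
    (hkummer : ∀ u : Oˣ, (∃ n : ℤ, (p : O) ∣ (u : O) - n) → ∃ v : Oˣ, u = v ^ p)
    {m : ℕ} (h : Sol ζ p (m + 1)) : 1 ≤ m ∧ Sol ζ p m := by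
  obtain ⟨x, y, z, ε, hy, hz, hxy, h⟩ := h
  have hodd : Odd p := hp.odd_of_ne_two (by omega)
  have h1 : ζ - 1 ∣ x ^ p + y ^ p := by
    rw [h]
    exact (dvd_mul_of_dvd_right
      (dvd_pow_self _ (Nat.mul_ne_zero hp.ne_zero (Nat.succ_ne_zero m))) _).mul_right _
  have h2 := lam_dvd_add hp hodd hζ hl h1
  obtain ⟨k, hk⟩ := exists_sq_dvd hp hint hdvd h2 hy
  have hζk : IsUnit (ζ ^ k) := (hζ.isUnit hp.ne_zero).pow k
  refine descent_step_aux hp hp3 hζ hl hpow hass hdvd hkummer (x := x) (y := ζ ^ k * y)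
    (z := z) (ε := ε) ?_ hz ?_ hk ?_
  · rw [hζk.dvd_mul_left]
    exact hy
  · exact (isCoprime_mul_unit_left_right hζk _ _).2 hxy
  · rw [mul_pow, ← pow_mul, mul_comm k p, pow_mul, hζ.pow_eq_one, one_pow, one_mul, h]

/-- There is no solution of the descent equation. -/
theorem not_sol [IsPrincipalIdealRing O] (hp : p.Prime) (hp3 : 3 ≤ p)
    (hζ : IsPrimitiveRoot ζ p) (hl : Prime (ζ - 1))
    (hint : ∀ x : O, ∃ n : ℤ, ζ - 1 ∣ x - n)
    (hpow : ∀ x : O, ∃ n : ℤ, (p : O) ∣ x ^ p - n)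
    (hass : Associated ((ζ - 1) ^ (p - 1)) (p : O))
    (hdvd : ∀ n : ℤ, ζ - 1 ∣ (n : O) ↔ (p : ℤ) ∣ n)
    (hkummer : ∀ u : Oˣ, (∃ n : ℤ, (p : O) ∣ (u : O) - n) → ∃ v : Oˣ, u = v ^ p)
    (m : ℕ) : ¬ Sol ζ p (m + 1) := by
  induction m with
  | zero =>
    intro h
    have h2 := (descent_step hp hp3 hζ hl hint hpow hass hdvd hkummer h).1
    omega
  | succ m ih =>
    intro h
    exact ih (descent_step hp hp3 hζ hl hint hpow hass hdvd hkummer h).2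

end Abstract

section NumberField

open NumberField

variable {p : ℕ} [Fact p.Prime] {K : Type*} [Field K] [NumberField K]
  [IsCyclotomicExtension {p} ℚ K]

/-- Every element of `𝓞 K` is congruent to a rational integer modulo `ζ - 1`. -/
lemma exists_int_dvd_sub {ζ : K} (hζ : IsPrimitiveRoot ζ p) (x : 𝓞 K) :
    ∃ n : ℤ, hζ.toInteger - 1 ∣ x - n := by
  have hx : x ∈ Algebra.adjoin ℤ {hζ.toInteger} := by
    rw [IsCyclotomicExtension.Rat.adjoin_singleton_eq_top hζ]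
    exact Algebra.mem_top
  induction hx using Algebra.adjoin_induction with
  | mem x hx =>
    rw [Set.mem_singleton_iff] at hx
    subst hx
    exact ⟨1, by simp⟩
  | algebraMap r => exact ⟨r, by simp⟩
  | add x y _ _ hx hy =>
    obtain ⟨n, hn⟩ := hx
    obtain ⟨m, hm⟩ := hy
    refine ⟨n + m, ?_⟩
    have e : x + y - ((n + m : ℤ) : 𝓞 K) = (x - n) + (y - m) := by push_cast; ring
    rw [e]
    exact dvd_add hn hm
  | mul x y _ _ hx hy =>
    obtain ⟨n, hn⟩ := hx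
    obtain ⟨m, hm⟩ := hy
    refine ⟨n * m, ?_⟩
    have e : x * y - ((n * m : ℤ) : 𝓞 K) = (x - n) * y + n * (y - m) := by push_cast; ring
    rw [e]
    exact dvd_add (hn.mul_right _) (hm.mul_left _)

/-- The `p`-th power of every element of `𝓞 K` is congruent to a rational integer modulo `p`. -/
lemma exists_int_dvd_pow_sub {ζ : K} (hζ : IsPrimitiveRoot ζ p) (x : 𝓞 K) :
    ∃ n : ℤ, (p : 𝓞 K) ∣ x ^ p - n := by
  have hx : x ∈ Algebra.adjoin ℤ {hζ.toInteger} := by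
    rw [IsCyclotomicExtension.Rat.adjoin_singleton_eq_top hζ]
    exact Algebra.mem_top
  induction hx using Algebra.adjoin_induction with
  | mem x hx =>
    rw [Set.mem_singleton_iff] at hx
    subst hx
    exact ⟨1, by simp [hζ.toInteger_isPrimitiveRoot.pow_eq_one]⟩
  | algebraMap r => exact ⟨r ^ p, by simp⟩
  | add x y _ _ hx hy =>
    obtain ⟨n, hn⟩ := hx
    obtain ⟨m, hm⟩ := hy
    obtain ⟨r, hr⟩ := exists_add_pow_prime_eq (Fact.out : p.Prime) x y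
    refine ⟨n + m, ?_⟩
    have e : (x + y) ^ p - ((n + m : ℤ) : 𝓞 K) = (x ^ p - n) + (y ^ p - m) + p * (x * y * r) := by
      rw [hr]; push_cast; ring
    rw [e]
    exact dvd_add (dvd_add hn hm) (dvd_mul_right _ _)
  | mul x y _ _ hx hy =>
    obtain ⟨n, hn⟩ := hx
    obtain ⟨m, hm⟩ := hy
    refine ⟨n * m, ?_⟩
    have e : (x * y) ^ p - ((n * m : ℤ) : 𝓞 K) = (x ^ p - n) * y ^ p + n * (y ^ p - m) := by
      push_cast; ring
    rw [e]
    exact dvd_add (hn.mul_right _) (hm.mul_left _)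

end NumberField

open NumberField in
/-- **Kummer's descent for the second case of Fermat's Last Theorem**: if `𝓞 K` is a principal
ideal domain satisfying Kummer's lemma, where `K` is a `p`-th cyclotomic field, then
`a ^ p + b ^ p ≠ c ^ p` for coprime integers `a`, `b` and nonzero `c` divisible by `p`. -/
theorem caseII {p : ℕ} [Fact p.Prime] (hp5 : 5 ≤ p) {K : Type*} [Field K] [NumberField K]
    [IsCyclotomicExtension {p} ℚ K]
    (hpid : IsPrincipalIdealRing (𝓞 K))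
    (hkummer : ∀ u : (𝓞 K)ˣ, (∃ n : ℤ, ((p : ℕ) : 𝓞 K) ∣ (u : 𝓞 K) - n) → ∃ v : (𝓞 K)ˣ, u = v ^ p)
    {a b c : ℤ} (hab : IsCoprime a b) (hc : c ≠ 0) (hpc : (p : ℤ) ∣ c) :
    a ^ p + b ^ p ≠ c ^ p := by
  intro habc
  have hp : p.Prime := Fact.out
  have hpZ : Prime (p : ℤ) := Nat.prime_iff_prime_int.1 hp
  have hζ := IsCyclotomicExtension.zeta_spec p ℚ K
  have hl : Prime (hζ.toInteger - 1) := hζ.zeta_sub_one_prime'
  have hass := IsCyclotomicExtension.Rat.associated_zeta_sub_one_pow_prime p hζ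
  have hdvd : ∀ n : ℤ, hζ.toInteger - 1 ∣ (n : 𝓞 K) ↔ (p : ℤ) ∣ n := fun n ↦
    IsCyclotomicExtension.Rat.zeta_sub_one_dvd_intCast_iff' p hζ
  -- `p` does not divide `b`
  have hpb : ¬ (p : ℤ) ∣ b := by
    intro hb
    have hpa : (p : ℤ) ∣ a ^ p := by
      have e : a ^ p = c ^ p - b ^ p := by linarith
      rw [e]
      exact dvd_sub (dvd_pow hpc hp.ne_zero) (dvd_pow hb hp.ne_zero)
    exact hpZ.not_isUnit (hab.isUnit_of_dvd' (hpZ.dvd_of_dvd_pow hpa) hb)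
  -- write `c = p ^ k * c'` with `p ∤ c'`
  obtain ⟨c', hck, hc'⟩ := (Int.finiteMultiplicity_iff.2
    ⟨by simpa using hp.ne_one, hc⟩ : FiniteMultiplicity (p : ℤ) c).exists_eq_pow_mul_and_not_dvd
  set k := multiplicity (p : ℤ) c with hk
  have hk1 : 1 ≤ k := by
    by_contra hk0
    have hk0' : k = 0 := by omega
    rw [hk0', pow_zero, one_mul] at hck
    exact hc' (hck ▸ hpc)
  have hm : (p - 1) * k - 1 + 1 = (p - 1) * k := by
    have h2 : 1 ≤ (p - 1) * k := Nat.one_le_iff_ne_zero.2 (Nat.mul_ne_zero (by omega) (by omega))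
    omega
  obtain ⟨u, hu⟩ := hass
  have hcO : ((a : ℤ) : 𝓞 K) ^ p + (b : 𝓞 K) ^ p = (c : 𝓞 K) ^ p := by
    exact_mod_cast congrArg (Int.cast : ℤ → 𝓞 K) habc
  refine not_sol hp (by omega) hζ.toInteger_isPrimitiveRoot hl (exists_int_dvd_sub hζ)
    (exists_int_dvd_pow_sub hζ) ⟨u, hu⟩ hdvd hkummer ((p - 1) * k - 1)
    ⟨a, b, c', u ^ (k * p), (hdvd b).not.2 hpb, (hdvd c').not.2 hc', hab.intCast, ?_⟩
  rw [hcO, hm, hck]
  push_cast
  rw [← hu]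
  ring

end Fermat.Agent.Lib.KummerCaseIIC
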