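/-
Shared library file (helper69, second team for the Kummer block, p = 11).

Main result `dvd_exponents_of_congr_int`: in the ring of integers of the 11-th cyclotomic field,
if `ζ ^ e₀ * (1 + ζ) ^ e₁ * ⋯ * (1 + ζ + ⋯ + ζ ^ 4) ^ e₄ * v ^ 11` is congruent to a rational
integer modulo `11`, then `11 ∣ eᵢ` for all `i`.

Proof (Kummer's logarithmic derivative, via dual numbers).  Let `M = (ZMod 11)[X] / (X ^ 9)` and
`D = M[ε]` (`TrivSqZeroExt M M`).  The element `y = (1 + x) + ε` of `D` is a root of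
`1 + T + ⋯ + T ^ 10`, so there is a ring hom `Ψ : 𝓞 K →+* D` with `Ψ ζ = y`.  The map
`dl (a + b ε) = b / a` is a homomorphism from the units of `D` to `(M, +)`; it kills `11`-th
powers and (images of) rational integers.  Hence `∑ eᵢ • dl (Ψ gᵢ) = 0` in `M`, and the
`dl (Ψ gᵢ)` are explicit polynomials in `x` of degree `≤ 8` which are linearly independent
over `ZMod 11`.
-/
import Mathlib
import Fermat.Agent.Lib.CyclotomicRingHom
set_option autoImplicit false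
namespace Fermat.Agent.Lib.KummerDlog11B
open NumberField

section Generic

variable {M : Type*} [CommRing M]

/-- Logarithmic derivative on the units of the dual numbers `M[ε]`:
`dl (a + b ε) = b / a`. -/
def dl (U : (TrivSqZeroExt M M)ˣ) : M :=
  TrivSqZeroExt.snd (U : TrivSqZeroExt M M) *
    TrivSqZeroExt.fst ((U⁻¹ : (TrivSqZeroExt M M)ˣ) : TrivSqZeroExt M M)

theorem fst_mul_fst_inv (U : (TrivSqZeroExt M M)ˣ) :
    TrivSqZeroExt.fst (U : TrivSqZeroExt M M) *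
      TrivSqZeroExt.fst ((U⁻¹ : (TrivSqZeroExt M M)ˣ) : TrivSqZeroExt M M) = 1 := by
  rw [← TrivSqZeroExt.fst_mul, Units.mul_inv, TrivSqZeroExt.fst_one]

theorem dl_mul (U V : (TrivSqZeroExt M M)ˣ) : dl (U * V) = dl U + dl V := by
  have hU := fst_mul_fst_inv U
  have hV := fst_mul_fst_inv V
  have hUV : (U * V)⁻¹ = U⁻¹ * V⁻¹ := mul_inv U V
  rw [dl, dl, dl, hUV]
  simp only [Units.val_mul, TrivSqZeroExt.fst_mul, TrivSqZeroExt.snd_mul,
    smul_eq_mul, MulOpposite.smul_eq_mul_unop, MulOpposite.unop_op]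
  linear_combination
    (TrivSqZeroExt.snd (V : TrivSqZeroExt M M) *
      TrivSqZeroExt.fst ((V⁻¹ : (TrivSqZeroExt M M)ˣ) : TrivSqZeroExt M M)) * hU +
    (TrivSqZeroExt.snd (U : TrivSqZeroExt M M) *
      TrivSqZeroExt.fst ((U⁻¹ : (TrivSqZeroExt M M)ˣ) : TrivSqZeroExt M M)) * hV

/-- `dl` as an additive homomorphism. -/
def dlHom : Additive (TrivSqZeroExt M M)ˣ →+ M :=
  AddMonoidHom.mk' (fun a => dl a.toMul) (fun a b => dl_mul a.toMul b.toMul)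

theorem dl_prod_zpow {ι : Type*} (s : Finset ι) (U : ι → (TrivSqZeroExt M M)ˣ) (e : ι → ℤ) :
    dl (∏ i ∈ s, U i ^ e i) = ∑ i ∈ s, e i • dl (U i) := by
  have h := map_sum (dlHom (M := M)) (fun i => Additive.ofMul (U i ^ e i)) s
  rw [← ofMul_prod] at h
  simp only [ofMul_zpow, map_zsmul] at h
  exact h

theorem dl_pow (U : (TrivSqZeroExt M M)ˣ) (n : ℕ) : dl (U ^ n) = n • dl U := by
  have h := map_nsmul (dlHom (M := M)) n (Additive.ofMul U)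
  simpa [dlHom] using h

/-- If `snd U = fst U * A` then `dl U = A`. -/
theorem dl_eq_of_snd_eq (U : (TrivSqZeroExt M M)ˣ) (A : M)
    (h : TrivSqZeroExt.snd (U : TrivSqZeroExt M M) =
      TrivSqZeroExt.fst (U : TrivSqZeroExt M M) * A) : dl U = A := by
  have hU := fst_mul_fst_inv U
  rw [dl, h]
  linear_combination A * hU

/-- Generic dual-number logarithmic derivative lemma. -/
theorem sum_zsmul_eq_zero (p : ℕ) (hp : (p : M) = 0) {R : Type*} [CommRing R]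
    (Ψ : R →+* TrivSqZeroExt M M) {ι : Type*} [Fintype ι] (g : ι → Rˣ) (e : ι → ℤ) (v : Rˣ)
    (n : ℤ)
    (h : ((p : ℕ) : R) ∣ (((∏ i, g i ^ e i) * v ^ p : Rˣ) : R) - n)
    (A : ι → M)
    (hA : ∀ i, TrivSqZeroExt.snd (Ψ (g i)) = TrivSqZeroExt.fst (Ψ (g i)) * A i) :
    ∑ i, e i • A i = 0 := by
  have h1 : ∀ i, dl (Units.map (Ψ : R →* TrivSqZeroExt M M) (g i)) = A i := fun i =>
    dl_eq_of_snd_eq _ _ (hA i)
  have hp' : ((p : ℕ) : TrivSqZeroExt M M) = 0 := by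
    ext <;> simp [hp]
  have h2 : dl (Units.map (Ψ : R →* TrivSqZeroExt M M) ((∏ i, g i ^ e i) * v ^ p)) = 0 := by
    obtain ⟨w, hw⟩ := h
    have h3 : Ψ (((∏ i, g i ^ e i) * v ^ p : Rˣ) : R) = (n : TrivSqZeroExt M M) := by
      have h4 := congrArg Ψ hw
      rw [map_sub, map_mul, map_natCast, hp', zero_mul, map_intCast, sub_eq_zero] at h4
      exact h4
    rw [dl, Units.coe_map, MonoidHom.coe_coe, h3, TrivSqZeroExt.snd_intCast, zero_mul]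
  rw [map_mul, map_pow, map_prod, dl_mul, dl_pow, nsmul_eq_mul, hp, zero_mul, add_zero] at h2
  simp only [map_zpow] at h2
  rw [dl_prod_zpow] at h2
  simpa [h1] using h2

end Generic

section Specific

variable {M : Type*} [CommRing M]

/-- The dual number `(1 + x) + ε`. -/
def yElt (x : M) : TrivSqZeroExt M M := TrivSqZeroExt.inl (1 + x) + TrivSqZeroExt.inr 1

theorem fst_yElt (x : M) : TrivSqZeroExt.fst (yElt x) = 1 + x := by
  simp [yElt]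

theorem snd_yElt (x : M) : TrivSqZeroExt.snd (yElt x) = 1 := by
  simp [yElt]

theorem fst_yElt_pow (x : M) (j : ℕ) : TrivSqZeroExt.fst (yElt x ^ j) = (1 + x) ^ j := by
  rw [TrivSqZeroExt.fst_pow, fst_yElt]

theorem snd_yElt_pow (x : M) (j : ℕ) :
    TrivSqZeroExt.snd (yElt x ^ j) = (j : M) * (1 + x) ^ (j - 1) := by
  rw [TrivSqZeroExt.snd_pow, fst_yElt, snd_yElt, smul_eq_mul, mul_one, nsmul_eq_mul,
    Nat.pred_eq_sub_one]

theorem sum_yElt_pow (x : M) (hx : x ^ 9 = 0) (h11 : (11 : M) = 0) :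
    ∑ i ∈ Finset.range 11, yElt x ^ i = 0 := by
  ext
  · rw [TrivSqZeroExt.fst_sum, TrivSqZeroExt.fst_zero]
    simp only [fst_yElt_pow]
    simp only [Finset.sum_range_succ, Finset.sum_range_zero]
    linear_combination (11 + 1 * x) * hx + (1 + 5 * x + 15 * x ^ 2 + 30 * x ^ 3 + 42 * x ^ 4 + 42 * x ^ 5 + 30 * x ^ 6 + 15 * x ^ 7 + 5 * x ^ 8) * h11
  · rw [TrivSqZeroExt.snd_sum, TrivSqZeroExt.snd_zero]
    simp only [snd_yElt_pow]
    simp only [Finset.sum_range_succ, Finset.sum_range_zero]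
    norm_num
    linear_combination (10) * hx + (5 + 30 * x + 90 * x ^ 2 + 168 * x ^ 3 + 210 * x ^ 4 + 180 * x ^ 5 + 105 * x ^ 6 + 40 * x ^ 7 + 9 * x ^ 8) * h11

/-- Coefficients (mod `11`, up to `x ^ 8`) of the logarithmic derivatives of the units
`ζ, 1 + ζ, …, 1 + ζ + ⋯ + ζ ^ 4` at `ζ = 1 + x`. -/
def tab : ℕ → List ℤ
  | 0 => [1, 10, 1, 10, 1, 10, 1, 10, 1]
  | 1 => [6, 8, 7, 2, 10, 6, 8, 7, 2]
  | 2 => [1, 7, 0, 5, 6, 7, 2, 3, 0]
  | 3 => [7, 8, 1, 8, 7, 6, 4, 0, 0]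
  | 4 => [2, 0, 10, 3, 0, 6, 5, 6, 5]
  | _ => []

/-- The truncated logarithmic derivative polynomials evaluated at `x`. -/
def apoly (x : M) (i : ℕ) : M := ∑ k ∈ Finset.range 9, (((tab i).getD k 0 : ℤ) : M) * x ^ k

theorem apoly_zero (x : M) (hx : x ^ 9 = 0) (h11 : (11 : M) = 0) :
    (1 : M) = (1 + x) * apoly x 0 := by
  simp only [apoly, tab, Finset.sum_range_succ, Finset.sum_range_zero]
  norm_num
  linear_combination ((-1)) * hx + ((-1) * x + (-1) * x ^ 2 + (-1) * x ^ 3 + (-1) * x ^ 4 + (-1) * x ^ 5 + (-1) * x ^ 6 + (-1) * x ^ 7 + (-1) * x ^ 8) * h11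

theorem apoly_one (x : M) (hx : x ^ 9 = 0) (h11 : (11 : M) = 0) :
    ∑ j ∈ Finset.range (1 + 1), (j : M) * (1 + x) ^ (j - 1) =
      (∑ j ∈ Finset.range (1 + 1), (1 + x) ^ j) * apoly x 1 := by
  simp only [apoly, tab, Finset.sum_range_succ, Finset.sum_range_zero]
  norm_num
  linear_combination ((-2)) * hx + ((-1) + (-2) * x + (-2) * x ^ 2 + (-1) * x ^ 3 + (-2) * x ^ 4 + (-2) * x ^ 5 + (-2) * x ^ 6 + (-2) * x ^ 7 + (-1) * x ^ 8) * h11

theorem apoly_two (x : M) (hx : x ^ 9 = 0) (h11 : (11 : M) = 0) :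
    ∑ j ∈ Finset.range (2 + 1), (j : M) * (1 + x) ^ (j - 1) =
      (∑ j ∈ Finset.range (2 + 1), (1 + x) ^ j) * apoly x 2 := by
  simp only [apoly, tab, Finset.sum_range_succ, Finset.sum_range_zero]
  norm_num
  linear_combination ((-3)) * hx + ((-2) * x + (-2) * x ^ 2 + (-2) * x ^ 3 + (-3) * x ^ 4 + (-4) * x ^ 5 + (-3) * x ^ 6 + (-2) * x ^ 7 + (-1) * x ^ 8) * h11

theorem apoly_three (x : M) (hx : x ^ 9 = 0) (h11 : (11 : M) = 0) :
    ∑ j ∈ Finset.range (3 + 1), (j : M) * (1 + x) ^ (j - 1) =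
      (∑ j ∈ Finset.range (3 + 1), (1 + x) ^ j) * apoly x 3 := by
  simp only [apoly, tab, Finset.sum_range_succ, Finset.sum_range_zero]
  norm_num
  linear_combination ((-4)) * hx + ((-2) + (-6) * x + (-7) * x ^ 2 + (-7) * x ^ 3 + (-8) * x ^ 4 + (-9) * x ^ 5 + (-8) * x ^ 6 + (-5) * x ^ 7 + (-2) * x ^ 8) * h11

theorem apoly_four (x : M) (hx : x ^ 9 = 0) (h11 : (11 : M) = 0) :
    ∑ j ∈ Finset.range (4 + 1), (j : M) * (1 + x) ^ (j - 1) =
      (∑ j ∈ Finset.range (4 + 1), (1 + x) ^ j) * apoly x 4 := by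
  simp only [apoly, tab, Finset.sum_range_succ, Finset.sum_range_zero]
  norm_num
  linear_combination ((-141) + (-85) * x + (-31) * x ^ 2 + (-5) * x ^ 3) * hx + ((-5) * x ^ 2 + (-11) * x ^ 3 + (-12) * x ^ 4 + (-10) * x ^ 5 + (-10) * x ^ 6 + (-13) * x ^ 7 + (-15) * x ^ 8) * h11

theorem apoly_succ (x : M) (hx : x ^ 9 = 0) (h11 : (11 : M) = 0) (i : Fin 5) (hi : i ≠ 0) :
    ∑ j ∈ Finset.range (i.val + 1), (j : M) * (1 + x) ^ (j - 1) =
      (∑ j ∈ Finset.range (i.val + 1), (1 + x) ^ j) * apoly x i.val := by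
  fin_cases i
  · exact absurd rfl hi
  · exact apoly_one x hx h11
  · exact apoly_two x hx h11
  · exact apoly_three x hx h11
  · exact apoly_four x hx h11

/-- Over any commutative ring `M` with an element `x` such that `x ^ 9 = 0` and `11 = 0`:
the linear relation satisfied by the exponents. -/
theorem key (x : M) (hx : x ^ 9 = 0) (h11 : (11 : M) = 0)
    {K : Type*} [Field K] [NumberField K] [IsCyclotomicExtension {11} ℚ K]
    {ζ : K} (hζ : IsPrimitiveRoot ζ 11) (g : Fin 5 → (𝓞 K)ˣ)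
    (hg0 : (g 0 : 𝓞 K) = hζ.toInteger)
    (hg : ∀ i : Fin 5, i ≠ 0 → (g i : 𝓞 K) = ∑ j ∈ Finset.range (i.val + 1), hζ.toInteger ^ j)
    (e : Fin 5 → ℤ) (v : (𝓞 K)ˣ) (n : ℤ)
    (h : ((11 : ℕ) : 𝓞 K) ∣ (((∏ i, g i ^ e i) * v ^ 11 : (𝓞 K)ˣ) : 𝓞 K) - n) :
    ∑ k ∈ Finset.range 9, ((∑ i : Fin 5, e i * (tab i.val).getD k 0 : ℤ) : M) * x ^ k = 0 := by
  have : Fact (Nat.Prime 11) := ⟨by norm_num⟩
  obtain ⟨Ψ, hΨ⟩ := Fermat.Agent.Lib.CyclotomicRingHom.exists_ringHom_of_root hζ (yElt x)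
    (sum_yElt_pow x hx h11)
  have hA : ∀ i : Fin 5, TrivSqZeroExt.snd (Ψ (g i)) =
      TrivSqZeroExt.fst (Ψ (g i)) * apoly x i.val := by
    intro i
    by_cases hi : i = 0
    · subst hi
      rw [hg0, hΨ, fst_yElt, snd_yElt]
      exact apoly_zero x hx h11
    · rw [hg i hi, map_sum, TrivSqZeroExt.fst_sum, TrivSqZeroExt.snd_sum]
      simp only [map_pow, hΨ, fst_yElt_pow, snd_yElt_pow]
      exact apoly_succ x hx h11 i hi
  have h11' : ((11 : ℕ) : M) = 0 := by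
    rw [Nat.cast_ofNat]
    exact h11
  have hsum := sum_zsmul_eq_zero 11 h11' Ψ g e v n h (fun i => apoly x i.val) hA
  rw [← hsum]
  simp only [apoly, zsmul_eq_mul, Finset.mul_sum, Int.cast_sum, Int.cast_mul, Finset.sum_mul]
  rw [Finset.sum_comm]
  refine Finset.sum_congr rfl fun i _ => Finset.sum_congr rfl fun k _ => ?_
  ring

end Specific

section Concrete

open Polynomial

/-- `1, x, …, x ^ 8` are linearly independent over `ZMod 11` in `(ZMod 11)[X] / (X ^ 9)`. -/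
theorem dvd_of_sum_eq_zero (b : ℕ → ℤ)
    (h : ∑ k ∈ Finset.range 9, ((b k : ℤ) : AdjoinRoot (X ^ 9 : (ZMod 11)[X])) *
      AdjoinRoot.root (X ^ 9 : (ZMod 11)[X]) ^ k = 0) :
    ∀ k < 9, (11 : ℤ) ∣ b k := by
  intro k hk
  have h1 : AdjoinRoot.mk (X ^ 9 : (ZMod 11)[X])
      (∑ k ∈ Finset.range 9, C ((b k : ℤ) : ZMod 11) * X ^ k) = 0 := by
    rw [← h, map_sum]
    refine Finset.sum_congr rfl fun k _ => ?_
    rw [map_mul, map_pow, AdjoinRoot.mk_X, AdjoinRoot.mk_C, map_intCast]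
  rw [AdjoinRoot.mk_eq_zero, Polynomial.X_pow_dvd_iff] at h1
  have h2 := h1 k hk
  rw [Polynomial.finsetSum_coeff] at h2
  simp only [Polynomial.coeff_C_mul_X_pow] at h2
  rw [Finset.sum_ite_eq, if_pos (Finset.mem_range.mpr hk)] at h2
  exact (ZMod.intCast_zmod_eq_zero_iff_dvd _ _).mp h2

/-- The nine divisibilities satisfied by the exponents (one for each coefficient of
`1, x, …, x ^ 8` in `(ZMod 11)[X] / (X ^ 9)`). -/
theorem dvd_sum_tab {K : Type*} [Field K] [NumberField K]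
    [IsCyclotomicExtension {11} ℚ K]
    {ζ : K} (hζ : IsPrimitiveRoot ζ 11) (g : Fin 5 → (𝓞 K)ˣ)
    (hg0 : (g 0 : 𝓞 K) = hζ.toInteger)
    (hg : ∀ i : Fin 5, i ≠ 0 → (g i : 𝓞 K) = ∑ j ∈ Finset.range (i.val + 1), hζ.toInteger ^ j)
    (e : Fin 5 → ℤ) (v : (𝓞 K)ˣ) (n : ℤ)
    (h : ((11 : ℕ) : 𝓞 K) ∣ (((∏ i, g i ^ e i) * v ^ 11 : (𝓞 K)ˣ) : 𝓞 K) - n) :
    ∀ k < 9, (11 : ℤ) ∣ ∑ i : Fin 5, e i * (tab i.val).getD k 0 := by
  have hx : (AdjoinRoot.root (X ^ 9 : (ZMod 11)[X])) ^ 9 = 0 := by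
    rw [← AdjoinRoot.mk_X, ← map_pow, AdjoinRoot.mk_self]
  have h11 : (11 : AdjoinRoot (X ^ 9 : (ZMod 11)[X])) = 0 := by
    have h0 : ((11 : ℕ) : ZMod 11) = 0 := ZMod.natCast_self 11
    have h1 := congrArg (AdjoinRoot.of (X ^ 9 : (ZMod 11)[X])) h0
    rw [map_natCast, map_zero, Nat.cast_ofNat] at h1
    exact h1
  exact dvd_of_sum_eq_zero _ (key _ hx h11 hζ g hg0 hg e v n h)

end Concrete

/-- **Kummer's lemma, logarithmic-derivative step for `p = 11`.**  If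
`ζ ^ e₀ * (1 + ζ) ^ e₁ * ⋯ * (1 + ζ + ⋯ + ζ ^ 4) ^ e₄ * v ^ 11` is congruent to a rational
integer modulo `11`, then `11` divides all the exponents `eᵢ`. -/
theorem dvd_exponents_of_congr_int {K : Type*} [Field K] [NumberField K]
    [IsCyclotomicExtension {11} ℚ K]
    {ζ : K} (hζ : IsPrimitiveRoot ζ 11) (g : Fin 5 → (𝓞 K)ˣ)
    (hg0 : (g 0 : 𝓞 K) = hζ.toInteger)
    (hg : ∀ i : Fin 5, i ≠ 0 → (g i : 𝓞 K) = ∑ j ∈ Finset.range (i.val + 1), hζ.toInteger ^ j)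
    (e : Fin 5 → ℤ) (v : (𝓞 K)ˣ) (n : ℤ)
    (h : ((11 : ℕ) : 𝓞 K) ∣ (((∏ i, g i ^ e i) * v ^ 11 : (𝓞 K)ˣ) : 𝓞 K) - n) :
    ∀ i, (11 : ℤ) ∣ e i := by
  have hk := dvd_sum_tab hζ g hg0 hg e v n h
  have h0 : (11 : ℤ) ∣ e 0 * 1 + e 1 * 6 + e 2 * 1 + e 3 * 7 + e 4 * 2 := by
    have h := hk 0 (by norm_num)
    rw [Fin.sum_univ_five] at h
    exact h
  have h1 : (11 : ℤ) ∣ e 0 * 10 + e 1 * 8 + e 2 * 7 + e 3 * 8 + e 4 * 0 := by
    have h := hk 1 (by norm_num)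
    rw [Fin.sum_univ_five] at h
    exact h
  have h3 : (11 : ℤ) ∣ e 0 * 10 + e 1 * 2 + e 2 * 5 + e 3 * 8 + e 4 * 3 := by
    have h := hk 3 (by norm_num)
    rw [Fin.sum_univ_five] at h
    exact h
  have h5 : (11 : ℤ) ∣ e 0 * 10 + e 1 * 6 + e 2 * 7 + e 3 * 6 + e 4 * 6 := by
    have h := hk 5 (by norm_num)
    rw [Fin.sum_univ_five] at h
    exact h
  have h7 : (11 : ℤ) ∣ e 0 * 10 + e 1 * 7 + e 2 * 3 + e 3 * 0 + e 4 * 6 := by
    have h := hk 7 (by norm_num)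
    rw [Fin.sum_univ_five] at h
    exact h
  obtain ⟨t0, ht0⟩ := h0
  obtain ⟨t1, ht1⟩ := h1
  obtain ⟨t3, ht3⟩ := h3
  obtain ⟨t5, ht5⟩ := h5
  obtain ⟨t7, ht7⟩ := h7
  have e0 : (11 : ℤ) ∣ e 0 :=
    ⟨9 * t0 + 1 * t1 + 9 * t3 + 0 * t5 + 9 * t7 -
      (18 * e 0 + 13 * e 1 + 8 * e 2 + 13 * e 3 + 9 * e 4), by
      linear_combination 9 * ht0 + 1 * ht1 + 9 * ht3 + 0 * ht5 + 9 * ht7⟩
  have e1 : (11 : ℤ) ∣ e 1 :=
    ⟨6 * t0 + 8 * t1 + 0 * t3 + 8 * t5 + 1 * t7 -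
      (16 * e 0 + 14 * e 1 + 11 * e 2 + 14 * e 3 + 6 * e 4), by
      linear_combination 6 * ht0 + 8 * ht1 + 0 * ht3 + 8 * ht5 + 1 * ht7⟩
  have e2 : (11 : ℤ) ∣ e 2 :=
    ⟨7 * t0 + 7 * t1 + 1 * t3 + 5 * t5 + 5 * t7 -
      (17 * e 0 + 15 * e 1 + 10 * e 2 + 13 * e 3 + 7 * e 4), by
      linear_combination 7 * ht0 + 7 * ht1 + 1 * ht3 + 5 * ht5 + 5 * ht7⟩
  have e3 : (11 : ℤ) ∣ e 3 :=
    ⟨0 * t0 + 4 * t1 + 3 * t3 + 0 * t5 + 4 * t7 -
      (10 * e 0 + 6 * e 1 + 5 * e 2 + 5 * e 3 + 3 * e 4), by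
      linear_combination 0 * ht0 + 4 * ht1 + 3 * ht3 + 0 * ht5 + 4 * ht7⟩
  have e4 : (11 : ℤ) ∣ e 4 :=
    ⟨2 * t0 + 2 * t1 + 1 * t3 + 1 * t5 + 9 * t7 -
      (12 * e 0 + 9 * e 1 + 5 * e 2 + 4 * e 3 + 6 * e 4), by
      linear_combination 2 * ht0 + 2 * ht1 + 1 * ht3 + 1 * ht5 + 9 * ht7⟩
  intro i
  fin_cases i
  · exact e0
  · exact e1
  · exact e2
  · exact e3
  · exact e4

end Fermat.Agent.Lib.KummerDlog11B
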