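/-
Kummer's logarithmic-derivative criterion modulo `p = 7` (shared library file, for Kummer's
lemma): if a product of powers of the cyclotomic units `ζ, 1 + ζ, …, 1 + ζ + ⋯ + ζ ^ 2` times a
`7`-th power of a unit of `𝓞 K`, `K = ℚ(ζ_7)`, is congruent to a rational integer modulo `7`,
then all the exponents are divisible by `7`.

Proof (same method as the file KummerDlog13).  Let `M = 𝔽_7[x] / (x ^ 5)` and let `D = M[ε]` be
the dual numbers over `M`.  The element `y = (1 + x) + ε` of `D` satisfies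
`1 + y + ⋯ + y ^ 6 = (y - 1) ^ 6 = 0`, so there is a ring hom `Ψ : 𝓞 K → D` with `Ψ ζ = y`.
The logarithmic derivative `a + b ε ↦ b / a` is a homomorphism `Dˣ → (M, +)` which kills `7`-th
powers and units with vanishing `ε`-part; applying it to the image of the given unit yields a
linear relation `∑ i, e i • w i = 0` in `M` between explicit elements `w i`, whose coordinates in
the basis `1, x, …, x ^ 4` form a matrix of rank `3` over `𝔽_7`.
-/
import Mathlib
import Fermat.Agent.Lib.CyclotomicRingHom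

set_option autoImplicit false

namespace Fermat.Agent.Lib.KummerDlog7B

open NumberField

section Generic

variable {M : Type*} [CommRing M]

/-- Logarithmic derivative of a unit `a + b ε` of the dual numbers `M[ε]`: `b / a`. -/
def dl (U : (TrivSqZeroExt M M)ˣ) : M :=
  TrivSqZeroExt.snd (U : TrivSqZeroExt M M) *
    TrivSqZeroExt.fst ((U⁻¹ : (TrivSqZeroExt M M)ˣ) : TrivSqZeroExt M M)

theorem fst_mul_fst_inv (U : (TrivSqZeroExt M M)ˣ) :
    TrivSqZeroExt.fst (U : TrivSqZeroExt M M) *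
      TrivSqZeroExt.fst ((U⁻¹ : (TrivSqZeroExt M M)ˣ) : TrivSqZeroExt M M) = 1 := by
  rw [← TrivSqZeroExt.fst_mul, Units.mul_inv, TrivSqZeroExt.fst_one]

theorem dl_mul (U V : (TrivSqZeroExt M M)ˣ) : dl (U * V) = dl U + dl V := by
  have hU := fst_mul_fst_inv U
  have hV := fst_mul_fst_inv V
  simp only [dl, mul_inv_rev, Units.val_mul, TrivSqZeroExt.snd_mul, TrivSqZeroExt.fst_mul,
    smul_eq_mul, MulOpposite.smul_eq_mul_unop, MulOpposite.unop_op]
  linear_combination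
    (TrivSqZeroExt.snd (V : TrivSqZeroExt M M) *
      TrivSqZeroExt.fst ((V⁻¹ : (TrivSqZeroExt M M)ˣ) : TrivSqZeroExt M M)) * hU +
    (TrivSqZeroExt.snd (U : TrivSqZeroExt M M) *
      TrivSqZeroExt.fst ((U⁻¹ : (TrivSqZeroExt M M)ˣ) : TrivSqZeroExt M M)) * hV

/-- The logarithmic derivative as an additive homomorphism. -/
def dlHom : Additive (TrivSqZeroExt M M)ˣ →+ M :=
  AddMonoidHom.mk' (fun U => dl (Additive.toMul U)) (fun _ _ => dl_mul _ _)

theorem dlHom_ofMul (U : (TrivSqZeroExt M M)ˣ) : dlHom (Additive.ofMul U) = dl U := rfl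

theorem dl_pow (U : (TrivSqZeroExt M M)ˣ) (n : ℕ) : dl (U ^ n) = (n : M) * dl U := by
  rw [← dlHom_ofMul, ofMul_pow, map_nsmul, dlHom_ofMul, nsmul_eq_mul]

theorem dl_prod_zpow {ι : Type*} (s : Finset ι) (U : ι → (TrivSqZeroExt M M)ˣ) (e : ι → ℤ) :
    dl (∏ i ∈ s, U i ^ e i) = ∑ i ∈ s, (e i : M) * dl (U i) := by
  rw [← dlHom_ofMul, ofMul_prod, map_sum]
  refine Finset.sum_congr rfl fun i _ => ?_
  rw [ofMul_zpow, map_zsmul, dlHom_ofMul, zsmul_eq_mul]

/-- The logarithmic derivative relation: if `∏ U i ^ e i * V ^ p` has vanishing `ε`-part and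
`p = 0` in `M`, then `∑ e i * snd (U i) * ∏_{j ≠ i} fst (U j) = 0`. -/
theorem dlog_relation {ι : Type*} [Fintype ι] [DecidableEq ι] (U : ι → (TrivSqZeroExt M M)ˣ)
    (e : ι → ℤ) (V : (TrivSqZeroExt M M)ˣ) (p : ℕ) (hp : (p : M) = 0)
    (h : TrivSqZeroExt.snd
      (((∏ i, U i ^ e i) * V ^ p : (TrivSqZeroExt M M)ˣ) : TrivSqZeroExt M M) = 0) :
    ∑ i, (e i : M) * (TrivSqZeroExt.snd (U i : TrivSqZeroExt M M) *
      ∏ j, if j = i then 1 else TrivSqZeroExt.fst (U j : TrivSqZeroExt M M)) = 0 := by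
  have h1 : dl ((∏ i, U i ^ e i) * V ^ p) = 0 := by
    unfold dl
    rw [h, zero_mul]
  rw [dl_mul, dl_prod_zpow, dl_pow, hp, zero_mul, add_zero] at h1
  have h2 : ∀ i, (∏ j, if j = i then 1 else TrivSqZeroExt.fst (U j : TrivSqZeroExt M M)) =
      (∏ j, TrivSqZeroExt.fst (U j : TrivSqZeroExt M M)) *
        TrivSqZeroExt.fst (((U i)⁻¹ : (TrivSqZeroExt M M)ˣ) : TrivSqZeroExt M M) := by
    intro i
    have h3 : (∏ j, if j = i then 1 else TrivSqZeroExt.fst (U j : TrivSqZeroExt M M)) *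
        TrivSqZeroExt.fst (U i : TrivSqZeroExt M M) =
        ∏ j, TrivSqZeroExt.fst (U j : TrivSqZeroExt M M) := by
      rw [← Finset.prod_erase_mul Finset.univ
        (fun j => TrivSqZeroExt.fst (U j : TrivSqZeroExt M M)) (Finset.mem_univ i),
        ← Finset.prod_erase Finset.univ
          (f := fun j => if j = i then 1 else TrivSqZeroExt.fst (U j : TrivSqZeroExt M M))
          (a := i) (by simp)]
      congr 1
      refine Finset.prod_congr rfl fun j hj => ?_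
      rw [if_neg (Finset.ne_of_mem_erase hj)]
    have h4 := fst_mul_fst_inv (U i)
    rw [← h3]
    linear_combination
      (-(∏ j, if j = i then 1 else TrivSqZeroExt.fst (U j : TrivSqZeroExt M M))) * h4
  calc ∑ i, (e i : M) * (TrivSqZeroExt.snd (U i : TrivSqZeroExt M M) *
        ∏ j, if j = i then 1 else TrivSqZeroExt.fst (U j : TrivSqZeroExt M M))
      = (∏ j, TrivSqZeroExt.fst (U j : TrivSqZeroExt M M)) * ∑ i, (e i : M) * dl (U i) := by
        rw [Finset.mul_sum]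
        refine Finset.sum_congr rfl fun i _ => ?_
        rw [h2 i]
        unfold dl
        ring
    _ = 0 := by rw [h1, mul_zero]

/-- A unit congruent to a rational integer modulo `p` is mapped to a dual number with vanishing
`ε`-part by any ring hom to the dual numbers over a ring in which `p = 0`. -/
theorem snd_map_eq_zero {R : Type*} [CommRing R] (Ψ : R →+* TrivSqZeroExt M M) (p : ℕ)
    (hp : (p : M) = 0) (u : Rˣ) (n : ℤ) (h : (p : R) ∣ (u : R) - n) :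
    TrivSqZeroExt.snd ((Units.map (Ψ : R →* TrivSqZeroExt M M) u : (TrivSqZeroExt M M)ˣ) :
      TrivSqZeroExt M M) = 0 := by
  obtain ⟨w, hw⟩ := h
  have h1 : Ψ (u : R) = (n : TrivSqZeroExt M M) + (p : TrivSqZeroExt M M) * Ψ w := by
    have := congrArg Ψ hw
    simp only [map_sub, map_mul, map_intCast, map_natCast] at this
    linear_combination this
  have hp' : ((p : ℕ) : TrivSqZeroExt M M) = 0 := by
    rw [← TrivSqZeroExt.inl_natCast, hp, TrivSqZeroExt.inl_zero]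
  rw [Units.coe_map]
  show TrivSqZeroExt.snd (Ψ (u : R)) = 0
  rw [h1, hp', zero_mul, add_zero, TrivSqZeroExt.snd_intCast]

/-- `(x + ε) ^ (N + 1) = 0` in the dual numbers if `x ^ N = 0`. -/
theorem inl_add_inr_pow_eq_zero (x : M) (N : ℕ) (hx : x ^ N = 0) :
    (TrivSqZeroExt.inl x + TrivSqZeroExt.inr 1 : TrivSqZeroExt M M) ^ (N + 1) = 0 := by
  ext
  · simp [pow_succ, hx]
  · simp [TrivSqZeroExt.snd_pow, hx]

theorem fst_geom (a b : M) (m : ℕ) :
    TrivSqZeroExt.fst (∑ j ∈ Finset.range m,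
      (TrivSqZeroExt.inl a + TrivSqZeroExt.inr b : TrivSqZeroExt M M) ^ j) =
      ∑ j ∈ Finset.range m, a ^ j := by
  simp [TrivSqZeroExt.fst_sum]

theorem snd_geom (a : M) (m : ℕ) :
    TrivSqZeroExt.snd (∑ j ∈ Finset.range m,
      (TrivSqZeroExt.inl a + TrivSqZeroExt.inr 1 : TrivSqZeroExt M M) ^ j) =
      ∑ j ∈ Finset.range m, (j : M) * a ^ (j - 1) := by
  simp [TrivSqZeroExt.snd_sum, TrivSqZeroExt.snd_pow]

/-- `fst` of the image of `g i` (`g 0 = ζ`, `g i = 1 + ζ + ⋯ + ζ ^ i`) when `ζ ↦ (1 + x) + ε`. -/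
def fA (x : M) (i : ℕ) : M :=
  if i = 0 then 1 + x else ∑ j ∈ Finset.range (i + 1), (1 + x) ^ j

/-- `snd` of the image of `g i` (`g 0 = ζ`, `g i = 1 + ζ + ⋯ + ζ ^ i`) when `ζ ↦ (1 + x) + ε`. -/
def fB (x : M) (i : ℕ) : M :=
  if i = 0 then 1 else ∑ j ∈ Finset.range (i + 1), (j : M) * (1 + x) ^ (j - 1)

theorem fst_snd_map {R : Type*} [CommRing R] (Ψ : R →+* TrivSqZeroExt M M) (z : R) (x : M)
    (hΨ : Ψ z = TrivSqZeroExt.inl (1 + x) + TrivSqZeroExt.inr 1) (u : R) (i : ℕ)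
    (h0 : i = 0 → u = z) (h1 : i ≠ 0 → u = ∑ j ∈ Finset.range (i + 1), z ^ j) :
    TrivSqZeroExt.fst (Ψ u) = fA x i ∧ TrivSqZeroExt.snd (Ψ u) = fB x i := by
  by_cases hi : i = 0
  · rw [h0 hi, hΨ]
    simp [fA, fB, hi]
  · rw [h1 hi, map_sum]
    simp only [map_pow, hΨ, fA, fB, if_neg hi]
    exact ⟨fst_geom _ _ _, snd_geom _ _⟩

end Generic

section Specific

/-- In a commutative ring with `7 = 0`: `∑ i < 7, (1 + z) ^ i = z ^ 6`. -/
theorem geom_sum_eq {R : Type*} [CommRing R] (z : R) (hp : (7 : R) = 0) :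
    ∑ i ∈ Finset.range 7, (1 + z) ^ i = z ^ 6 := by
  simp only [Finset.sum_range_succ, Finset.sum_range_zero]
  linear_combination
    (1 + 3 * z + 5 * z ^ 2 + 5 * z ^ 3 + 3 * z ^ 4 + z ^ 5) * hp

/-- The dual number `(1 + x) + ε` is a root of `1 + X + ⋯ + X ^ 6` if `x ^ 5 = 0` and
`7 = 0`. -/
theorem sum_pow_eq_zero {M : Type*} [CommRing M] (x : M) (hx : x ^ 5 = 0) (hp : (7 : M) = 0) :
    ∑ i ∈ Finset.range 7,
      (TrivSqZeroExt.inl (1 + x) + TrivSqZeroExt.inr 1 : TrivSqZeroExt M M) ^ i = 0 := by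
  have hp' : (7 : TrivSqZeroExt M M) = 0 := by
    have h : ((7 : ℕ) : TrivSqZeroExt M M) = 0 := by
      rw [← TrivSqZeroExt.inl_natCast]
      have : ((7 : ℕ) : M) = 0 := by exact_mod_cast hp
      rw [this, TrivSqZeroExt.inl_zero]
    exact_mod_cast h
  have hy : (TrivSqZeroExt.inl (1 + x) + TrivSqZeroExt.inr 1 : TrivSqZeroExt M M) =
      1 + (TrivSqZeroExt.inl x + TrivSqZeroExt.inr 1) := by
    rw [TrivSqZeroExt.inl_add, TrivSqZeroExt.inl_one, add_assoc]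
  rw [hy, geom_sum_eq _ hp']
  exact inl_add_inr_pow_eq_zero x 5 hx

/-- Row `0` of the matrix: `snd (g 0) * ∏_(j ≠ 0) fst (g j)` reduced modulo `x ^ 5` and `7`. -/
theorem W_0 {M : Type*} [CommRing M] (x : M) (hx : x ^ 5 = 0) (hp : (7 : M) = 0) :
    fB x 0 * (fA x 1 * fA x 2) =
      6 + 2 * x + 5 * x ^ 2 + x ^ 3 := by
  simp only [fA, fB, Finset.sum_range_succ, Finset.sum_range_zero]
  norm_num
  linear_combination
    (x) * hp

/-- Row `1` of the matrix: `snd (g 1) * ∏_(j ≠ 1) fst (g j)` reduced modulo `x ^ 5` and `7`. -/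
theorem W_1 {M : Type*} [CommRing M] (x : M) (hx : x ^ 5 = 0) (hp : (7 : M) = 0) :
    fB x 1 * (fA x 0 * fA x 2) =
      3 + 6 * x + 4 * x ^ 2 + x ^ 3 := by
  simp only [fA, fB, Finset.sum_range_succ, Finset.sum_range_zero]
  norm_num
  ring

/-- Row `2` of the matrix: `snd (g 2) * ∏_(j ≠ 2) fst (g j)` reduced modulo `x ^ 5` and `7`. -/
theorem W_2 {M : Type*} [CommRing M] (x : M) (hx : x ^ 5 = 0) (hp : (7 : M) = 0) :
    fB x 2 * (fA x 0 * fA x 1) =
      6 + 6 * x + 2 * x ^ 2 + 2 * x ^ 3 := by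
  simp only [fA, fB, Finset.sum_range_succ, Finset.sum_range_zero]
  norm_num
  linear_combination
    (x + x ^ 2) * hp

/-- The linear relation between the exponents `e i` produced by the logarithmic derivative,
in a commutative ring `M` with a distinguished element `x`. -/
def Rel {M : Type*} [CommRing M] (e : Fin 3 → ℤ) (x : M) : Prop :=
    (e 0 : M) * (fB x 0 * (fA x 1 * fA x 2)) +
    (e 1 : M) * (fB x 1 * (fA x 0 * fA x 2)) +
    (e 2 : M) * (fB x 2 * (fA x 0 * fA x 1)) = 0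

/-- The logarithmic-derivative relation holds in an arbitrary commutative ring `M` with a
nilpotent `x` (`x ^ 5 = 0`) and `7 = 0`. -/
theorem key {K : Type*} [Field K] [NumberField K] [IsCyclotomicExtension {7} ℚ K]
    {ζ : K} (hζ : IsPrimitiveRoot ζ 7) (g : Fin 3 → (𝓞 K)ˣ)
    (hg0 : (g 0 : 𝓞 K) = hζ.toInteger)
    (hg : ∀ i : Fin 3, i ≠ 0 → (g i : 𝓞 K) = ∑ j ∈ Finset.range (i.val + 1), hζ.toInteger ^ j)
    (e : Fin 3 → ℤ) (v : (𝓞 K)ˣ) (n : ℤ)
    (h : ((7 : ℕ) : 𝓞 K) ∣ (((∏ i, g i ^ e i) * v ^ 7 : (𝓞 K)ˣ) : 𝓞 K) - n)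
    {M : Type*} [CommRing M] (x : M) (hx : x ^ 5 = 0) (hp : (7 : M) = 0) :
    Rel e x := by
  have : Fact (Nat.Prime 7) := ⟨by norm_num⟩
  obtain ⟨Ψ, hΨ⟩ := Fermat.Agent.Lib.CyclotomicRingHom.exists_ringHom_of_root hζ
    (TrivSqZeroExt.inl (1 + x) + TrivSqZeroExt.inr 1 : TrivSqZeroExt M M)
    (sum_pow_eq_zero x hx hp)
  have hpM : ((7 : ℕ) : M) = 0 := by exact_mod_cast hp
  have hsnd := snd_map_eq_zero Ψ 7 hpM _ n h
  rw [map_mul, map_prod, map_pow] at hsnd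
  simp only [map_zpow] at hsnd
  have hrel := dlog_relation (fun i => Units.map (Ψ : 𝓞 K →* TrivSqZeroExt M M) (g i)) e
    (Units.map (Ψ : 𝓞 K →* TrivSqZeroExt M M) v) 7 hpM hsnd
  have hAB : ∀ i : Fin 3, TrivSqZeroExt.fst (Ψ (g i : 𝓞 K)) = fA x i.val ∧
      TrivSqZeroExt.snd (Ψ (g i : 𝓞 K)) = fB x i.val := by
    intro i
    refine fst_snd_map Ψ hζ.toInteger x hΨ _ _ (fun hi => ?_) (fun hi => ?_)
    · rw [← hg0]
      congr
      exact Fin.ext hi
    · exact hg i (fun h0 => hi (by rw [h0]; rfl))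
  have hA : ∀ i : Fin 3, TrivSqZeroExt.fst (Ψ (g i : 𝓞 K)) = fA x i.val := fun i => (hAB i).1
  have hB : ∀ i : Fin 3, TrivSqZeroExt.snd (Ψ (g i : 𝓞 K)) = fB x i.val := fun i => (hAB i).2
  simp only [Units.coe_map, MonoidHom.coe_coe, hA, hB, Fin.sum_univ_three, Fin.prod_univ_three]
    at hrel
  simp only [Fin.reduceEq, if_true, if_false, one_mul, mul_one, Fin.isValue,
    Fin.coe_ofNat_eq_mod, Nat.reduceMod] at hrel
  unfold Rel
  linear_combination hrel

end Specific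

section Final

open Polynomial

theorem root_pow_eq_zero : (AdjoinRoot.root (X ^ 5 : (ZMod 7)[X])) ^ 5 = 0 := by
  rw [← AdjoinRoot.mk_X, ← map_pow, AdjoinRoot.mk_self]

theorem prime_eq_zero : (7 : AdjoinRoot (X ^ 5 : (ZMod 7)[X])) = 0 := by
  have h1 : (7 : AdjoinRoot (X ^ 5 : (ZMod 7)[X])) =
      AdjoinRoot.of (X ^ 5 : (ZMod 7)[X]) (7 : ZMod 7) := by
    rw [map_ofNat]
  rw [h1, show (7 : ZMod 7) = 0 from rfl, map_zero]

/-- The relation `Rel e x` in `𝔽_7[x] / (x ^ 5)` forces all `e i` to be divisible by `7`: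
`1, x, …, x ^ 4` are linearly independent and the coefficient matrix has rank `3`. -/
theorem dvd_of_rel (e : Fin 3 → ℤ) (hrel : Rel e (AdjoinRoot.root (X ^ 5 : (ZMod 7)[X]))) :
    ∀ i, (7 : ℤ) ∣ e i := by
  have hx := root_pow_eq_zero
  have hp := prime_eq_zero
  unfold Rel at hrel
  rw [W_0 _ hx hp, W_1 _ hx hp, W_2 _ hx hp] at hrel
  have hq : AdjoinRoot.mk (X ^ 5 : (ZMod 7)[X])
      (C ((e 0 : ZMod 7) * 6 + (e 1 : ZMod 7) * 3 + (e 2 : ZMod 7) * 6) * X ^ 0 +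
        C ((e 0 : ZMod 7) * 2 + (e 1 : ZMod 7) * 6 + (e 2 : ZMod 7) * 6) * X ^ 1 +
        C ((e 0 : ZMod 7) * 5 + (e 1 : ZMod 7) * 4 + (e 2 : ZMod 7) * 2) * X ^ 2 +
        C ((e 0 : ZMod 7) + (e 1 : ZMod 7) + (e 2 : ZMod 7) * 2) * X ^ 3) = 0 := by
    simp only [map_add, map_mul, map_pow, AdjoinRoot.mk_X, map_intCast, map_ofNat]
    linear_combination hrel
  rw [AdjoinRoot.mk_eq_zero, Polynomial.X_pow_dvd_iff] at hq
  have h0 : (e 0 : ZMod 7) * 6 + (e 1 : ZMod 7) * 3 + (e 2 : ZMod 7) * 6 = 0 := by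
    have := hq 0 (by norm_num)
    simp only [coeff_add, coeff_C_mul_X_pow] at this
    simpa using this
  have h1 : (e 0 : ZMod 7) * 2 + (e 1 : ZMod 7) * 6 + (e 2 : ZMod 7) * 6 = 0 := by
    have := hq 1 (by norm_num)
    simp only [coeff_add, coeff_C_mul_X_pow] at this
    simpa using this
  have h2 : (e 0 : ZMod 7) * 5 + (e 1 : ZMod 7) * 4 + (e 2 : ZMod 7) * 2 = 0 := by
    have := hq 2 (by norm_num)
    simp only [coeff_add, coeff_C_mul_X_pow] at this
    simpa using this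
  have h3 : (e 0 : ZMod 7) + (e 1 : ZMod 7) + (e 2 : ZMod 7) * 2 = 0 := by
    have := hq 3 (by norm_num)
    simp only [coeff_add, coeff_C_mul_X_pow] at this
    simpa using this
  have hz : (7 : ZMod 7) = 0 := rfl
  have e0 : (e 0 : ZMod 7) = 0 := by
    linear_combination
      5 * h0 + 6 * h3 -
      (5 * (e 0 : ZMod 7) + 3 * (e 1 : ZMod 7) + 6 * (e 2 : ZMod 7)) * hz
  have e1 : (e 1 : ZMod 7) = 0 := by
    linear_combination
      4 * h0 + 5 * h1 + h3 -
      (5 * (e 0 : ZMod 7) + 6 * (e 1 : ZMod 7) + 8 * (e 2 : ZMod 7)) * hz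
  have e2 : (e 2 : ZMod 7) = 0 := by
    linear_combination
      6 * h0 + h1 + 4 * h3 -
      (6 * (e 0 : ZMod 7) + 4 * (e 1 : ZMod 7) + 7 * (e 2 : ZMod 7)) * hz
  intro i
  have hi : (e i : ZMod 7) = 0 := by
    fin_cases i
    · exact e0
    · exact e1
    · exact e2
  have := (ZMod.intCast_zmod_eq_zero_iff_dvd (e i) 7).mp hi
  exact_mod_cast this

end Final

/-- **Kummer's logarithmic-derivative criterion modulo `7`.** If a product of powers of the
cyclotomic units `ζ, 1 + ζ, 1 + ζ + ζ², …` times a `7`-th power of a unit is congruent to a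
rational integer modulo `7`, then all the exponents are divisible by `7`. -/
theorem dvd_exponents_of_congr_int {K : Type*} [Field K] [NumberField K]
    [IsCyclotomicExtension {7} ℚ K]
    {ζ : K} (hζ : IsPrimitiveRoot ζ 7) (g : Fin 3 → (𝓞 K)ˣ)
    (hg0 : (g 0 : 𝓞 K) = hζ.toInteger)
    (hg : ∀ i : Fin 3, i ≠ 0 → (g i : 𝓞 K) = ∑ j ∈ Finset.range (i.val + 1), hζ.toInteger ^ j)
    (e : Fin 3 → ℤ) (v : (𝓞 K)ˣ) (n : ℤ)
    (h : ((7 : ℕ) : 𝓞 K) ∣ (((∏ i, g i ^ e i) * v ^ 7 : (𝓞 K)ˣ) : 𝓞 K) - n) :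
    ∀ i, (7 : ℤ) ∣ e i := by
  exact dvd_of_rel e (key hζ g hg0 hg e v n h _ root_pow_eq_zero prime_eq_zero)

end Fermat.Agent.Lib.KummerDlog7B
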