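import Mathlib
import Fermat.Agent.Lib.KummerGlue
import Fermat.Agent.Lib.KummerDlog5B
import Fermat.Agent.Lib.KummerDlog7B
import Fermat.Agent.Lib.KummerDlog13

/-!
# Kummer's lemma for `p = 5, 7, 13`

A unit of the ring of integers of the `p`-th cyclotomic field that is congruent to a rational
integer modulo `p` is a `p`-th power of a unit.  Assembled from the generic glue
(`KummerGlue.kummer_of_certificate`, Dirichlet's unit theorem) and the logarithmic-derivative
certificates `KummerDlog5B`, `KummerDlog7B`, `KummerDlog13`.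
-/

open NumberField

namespace Fermat.Agent.Lib.KummerLemmaB

theorem kummer_five {K : Type*} [Field K] [NumberField K] [IsCyclotomicExtension {5} ℚ K]
    (u : (𝓞 K)ˣ) (h : ∃ n : ℤ, ((5 : ℕ) : 𝓞 K) ∣ (u : 𝓞 K) - n) : ∃ v : (𝓞 K)ˣ, u = v ^ 5 := by
  have hp : Fact (Nat.Prime 5) := ⟨by norm_num⟩
  have hζ := IsCyclotomicExtension.zeta_spec 5 ℚ K
  obtain ⟨g, hg0, hg⟩ := KummerGlue.exists_units_family 5 hζ 2 (by norm_num)
  exact KummerGlue.kummer_of_certificate 5 (by norm_num) (n := 2) rfl g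
    (fun e v m hm => KummerDlog5B.dvd_exponents_of_congr_int hζ g (hg0 0 rfl)
      (fun i hi => hg i (fun h0 => hi (Fin.ext h0))) e v m hm) u h

theorem kummer_seven {K : Type*} [Field K] [NumberField K] [IsCyclotomicExtension {7} ℚ K]
    (u : (𝓞 K)ˣ) (h : ∃ n : ℤ, ((7 : ℕ) : 𝓞 K) ∣ (u : 𝓞 K) - n) : ∃ v : (𝓞 K)ˣ, u = v ^ 7 := by
  have hp : Fact (Nat.Prime 7) := ⟨by norm_num⟩
  have hζ := IsCyclotomicExtension.zeta_spec 7 ℚ K
  obtain ⟨g, hg0, hg⟩ := KummerGlue.exists_units_family 7 hζ 3 (by norm_num)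
  exact KummerGlue.kummer_of_certificate 7 (by norm_num) (n := 3) rfl g
    (fun e v m hm => KummerDlog7B.dvd_exponents_of_congr_int hζ g (hg0 0 rfl)
      (fun i hi => hg i (fun h0 => hi (Fin.ext h0))) e v m hm) u h

theorem kummer_thirteen {K : Type*} [Field K] [NumberField K] [IsCyclotomicExtension {13} ℚ K]
    (u : (𝓞 K)ˣ) (h : ∃ n : ℤ, ((13 : ℕ) : 𝓞 K) ∣ (u : 𝓞 K) - n) : ∃ v : (𝓞 K)ˣ, u = v ^ 13 := by
  have hp : Fact (Nat.Prime 13) := ⟨by norm_num⟩
  have hζ := IsCyclotomicExtension.zeta_spec 13 ℚ K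
  obtain ⟨g, hg0, hg⟩ := KummerGlue.exists_units_family 13 hζ 6 (by norm_num)
  exact KummerGlue.kummer_of_certificate 13 (by norm_num) (n := 6) rfl g
    (fun e v m hm => KummerDlog13.dvd_exponents_of_congr_int hζ g (hg0 0 rfl)
      (fun i hi => hg i (fun h0 => hi (Fin.ext h0))) e v m hm) u h

end Fermat.Agent.Lib.KummerLemmaB
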